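/-
T2-A (helper9): the chart layer of the two-component core.

Copy of `Lib/T1/Core/{Lattice2,LatticeMain}.lean` in which the Riemann–Roch spaces `L̄(a,b)` of the
special fibre are replaced by an abstract family `Lbar a b` of subspaces of the residue ring `Fb`
(axioms: monotone, `1 ∈ L̄(a,b)`, `L̄(a,b) ∩ L̄(a',0) ⊆ L̄(a,0)`, `L̄(a,b) ∩ L̄(0,b') ⊆ L̄(0,b)`,
`res Λ(a,b) ⊆ L̄(a,b)`, and the two dimension statements with the same `(n, c)`).  Conclusion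
`t2_core_lattice`: a global section of the twisted sheaf reducing to `1`.
-/
import Fermat.Agent.Lib.T2.Core.Base
import Fermat.Agent.Lib.T1.Core.Lattice2
import Fermat.Agent.Lib.T1.Core.Abstract

set_option autoImplicit false
set_option linter.style.haveILetI false

namespace Fermat.Agent.T2

/-- generic dimension count: `V₁ + V₂ = V` -/
theorem t2_sup_eq_of_finrank {K E : Type*} [Field K] [AddCommGroup E] [Module K E]
    {V V₁ V₂ V₀ : Submodule K E} [FiniteDimensional K ↥V] [FiniteDimensional K ↥V₀]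
    (h1 : V₁ ≤ V) (h2 : V₂ ≤ V) (h0 : V₁ ⊓ V₂ ≤ V₀)
    (hdim : Module.finrank K ↥V + Module.finrank K ↥V₀ ≤
      Module.finrank K ↥V₁ + Module.finrank K ↥V₂) : V₁ ⊔ V₂ = V := by
  haveI : FiniteDimensional K ↥V₁ := Submodule.finiteDimensional_of_le h1
  haveI : FiniteDimensional K ↥V₂ := Submodule.finiteDimensional_of_le h2
  have hle : V₁ ⊔ V₂ ≤ V := sup_le h1 h2
  have hsum := Submodule.finrank_sup_add_finrank_inf_eq V₁ V₂
  have hinf : Module.finrank K ↥(V₁ ⊓ V₂) ≤ Module.finrank K ↥V₀ := Submodule.finrank_mono h0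
  exact Submodule.eq_of_le_of_finrank_le hle (by omega)

/-- the chart data of the two-component core: as `T1.TbChart`, but the spaces `L̄(a,b)` on the
special fibre are an ABSTRACT family of subspaces of `Fb` (in the application: functions on the
normalisation with prescribed poles which glue at the singular points), and the inclusion
`res Λ(a,b) ⊆ L̄(a,b)` is a hypothesis -/
structure T2Chart {K F k Fb : Type*} [Field K] [Field F] [Algebra K F] [Field k] [CommRing Fb]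
    [Algebra k Fb] (d : T2Base K F k Fb) where
  /-- the residue characteristic -/
  ℓ : ℕ
  hℓ : ℓ.Prime
  hℓA : ((ℓ : ℕ) : K) ∈ d.A.nonunits
  hℓ0 : ((ℓ : ℕ) : K) ≠ 0
  /-- the exponent -/
  m : ℕ
  hm : Nat.Coprime m ℓ
  /-- the coordinate function -/
  x : F
  hx : x ∈ d.Ov
  hxi : x⁻¹ ∈ d.Ov
  /-- the function whose `m`-th root is sought -/
  y : F
  hy : y ∈ d.Ov
  hy1 : d.res ⟨y, hy⟩ = 1
  /-- twisted sections on the chart `x ≠ ∞` -/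
  L1 : Submodule K F
  /-- twisted sections on the chart `x ≠ 0` -/
  L2 : Submodule K F
  mul_mem1 : ∀ f s : F, IsIntegral ↥(Algebra.adjoin K {x}) f → s ∈ L1 → f * s ∈ L1
  mul_mem2 : ∀ f s : F, IsIntegral ↥(Algebra.adjoin K {x⁻¹}) f → s ∈ L2 → f * s ∈ L2
  pow1 : ∀ s ∈ L1, IsIntegral ↥(Algebra.adjoin K {x}) (s ^ m * y)
  pow2 : ∀ s ∈ L2, IsIntegral ↥(Algebra.adjoin K {x⁻¹}) (s ^ m * y)
  exists1 : ∀ s ∈ L1, ∃ a : ℕ, x⁻¹ ^ a * s ∈ L2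
  exists2 : ∀ s ∈ L2, ∃ b : ℕ, x ^ b * s ∈ L1
  finL : ∀ a b : ℕ, FiniteDimensional K ↥(T1.tbL x L1 L2 a b)
  /-- the spaces `L̄(a,b)` on the special fibre -/
  Lbar : ℕ → ℕ → Submodule k Fb
  finLbar : ∀ a b : ℕ, FiniteDimensional k ↥(Lbar a b)
  Lbar_mono' : ∀ a a' b b' : ℕ, a ≤ a' → b ≤ b' → Lbar a b ≤ Lbar a' b'
  one_mem_Lbar : ∀ a b : ℕ, (1 : Fb) ∈ Lbar a b
  Lbar_inf_le_left : ∀ a a' b : ℕ, Lbar a b ⊓ Lbar a' 0 ≤ Lbar a 0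
  Lbar_inf_le_right : ∀ a b b' : ℕ, Lbar a b ⊓ Lbar 0 b' ≤ Lbar 0 b
  resBall_L_le' : ∀ a b : ℕ, d.resBall (T1.tbL x L1 L2 a b) ≤ Lbar a b
  /-- the degree of `x` -/
  n : ℕ
  /-- `1 - g` -/
  c : ℤ
  /-- the bound beyond which Riemann–Roch is an equality -/
  a0 : ℕ
  dimbar : ∀ a b : ℕ, a0 ≤ a + b →
    (Module.finrank k ↥(Lbar a b) : ℤ) = ((a + b : ℕ) : ℤ) * n + c
  dimgen : ∀ a b : ℕ, a0 ≤ a + b →
    ((a + b : ℕ) : ℤ) * n + c ≤ (Module.finrank K ↥(T1.tbL x L1 L2 a b) : ℤ)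

namespace T2Chart

variable {K F k Fb : Type*} [Field K] [Field F] [Algebra K F] [Field k] [CommRing Fb] [Algebra k Fb]
variable {d : T2Base K F k Fb} (ch : T2Chart d)

/-- `L(a,b)` -/
def L (a b : ℕ) : Submodule K F := T1.tbL ch.x ch.L1 ch.L2 a b

instance (a b : ℕ) : FiniteDimensional K ↥(ch.L a b) := ch.finL a b

instance (a b : ℕ) : FiniteDimensional k ↥(ch.Lbar a b) := ch.finLbar a b

theorem m_pos : 0 < ch.m := by
  rcases Nat.eq_zero_or_pos ch.m with h0 | h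
  · exfalso
    have h1 := ch.hm
    rw [h0, Nat.coprime_zero_left] at h1
    exact ch.hℓ.one_lt.ne' h1
  · exact h

theorem resBall_L_le (a b : ℕ) : d.resBall (ch.L a b) ≤ ch.Lbar a b :=
  ch.resBall_L_le' a b

theorem finrank_Lbar {a b : ℕ} (hab : ch.a0 ≤ a + b) :
    (Module.finrank k ↥(ch.Lbar a b) : ℤ) = ((a + b : ℕ) : ℤ) * ch.n + ch.c :=
  ch.dimbar a b hab

theorem le_finrank_L {a b : ℕ} (hab : ch.a0 ≤ a + b) :
    ((a + b : ℕ) : ℤ) * ch.n + ch.c ≤ (Module.finrank K ↥(ch.L a b) : ℤ) :=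
  ch.dimgen a b hab

/-- reduction `Λ(a,b) → L̄(a,b)` is surjective for `a + b ≥ a₀` -/
theorem resBall_L_eq {a b : ℕ} (hab : ch.a0 ≤ a + b) : d.resBall (ch.L a b) = ch.Lbar a b := by
  refine d.resBall_eq_of_finrank_le _ _ (ch.resBall_L_le a b) ?_
  have h1 := ch.finrank_Lbar hab
  have h2 := ch.le_finrank_L hab
  have h3 : (Module.finrank k ↥(ch.Lbar a b) : ℤ) ≤ (Module.finrank K ↥(ch.L a b) : ℤ) := by
    rw [h1]; exact h2
  exact_mod_cast h3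

theorem L_mono {a a' b b' : ℕ} (ha : a ≤ a') (hb : b ≤ b') : ch.L a b ≤ ch.L a' b' := by
  intro s hs
  obtain ⟨a'', rfl⟩ := Nat.exists_eq_add_of_le ha
  obtain ⟨b'', rfl⟩ := Nat.exists_eq_add_of_le hb
  refine ⟨?_, ?_⟩
  · rw [pow_add, mul_comm (ch.x ^ b), mul_assoc]
    exact ch.mul_mem1 _ _ (T1.tb_isIntegral_pow_self _ _) hs.1
  · rw [pow_add, mul_comm (ch.x⁻¹ ^ a), mul_assoc]
    exact ch.mul_mem2 _ _ (T1.tb_isIntegral_pow_self _ _) hs.2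

theorem Lbar_mono {a a' b b' : ℕ} (ha : a ≤ a') (hb : b ≤ b') : ch.Lbar a b ≤ ch.Lbar a' b' :=
  ch.Lbar_mono' a a' b b' ha hb

theorem mem_L1_of_mem_L {a : ℕ} {s : F} (hs : s ∈ ch.L a 0) : s ∈ ch.L1 := by
  have := hs.1
  rwa [pow_zero, one_mul] at this

theorem mem_L2_of_mem_L {b : ℕ} {s : F} (hs : s ∈ ch.L 0 b) : s ∈ ch.L2 := by
  have := hs.2
  rwa [pow_zero, one_mul] at this

/-- the local generator on the chart `x ≠ ∞` -/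
theorem exists_e1 : ∃ e, e ∈ ch.L1 ∧ ∃ he : e ∈ d.Ov, d.res ⟨e, he⟩ = 1 := by
  have h1 : (1 : Fb) ∈ ch.Lbar ch.a0 0 := ch.one_mem_Lbar _ _
  rw [← ch.resBall_L_eq (a := ch.a0) (b := 0) (by omega)] at h1
  obtain ⟨e, he, hres⟩ := h1
  exact ⟨e, ch.mem_L1_of_mem_L he.1, he.2, hres⟩

/-- the local generator on the chart `x ≠ 0` -/
theorem exists_e2 : ∃ e, e ∈ ch.L2 ∧ ∃ he : e ∈ d.Ov, d.res ⟨e, he⟩ = 1 := by
  have h1 : (1 : Fb) ∈ ch.Lbar 0 ch.a0 := ch.one_mem_Lbar _ _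
  rw [← ch.resBall_L_eq (a := 0) (b := ch.a0) (by omega)] at h1
  obtain ⟨e, he, hres⟩ := h1
  exact ⟨e, ch.mem_L2_of_mem_L he.1, he.2, hres⟩

/-- `L̄(a+1,b) = L̄(a,b) + L̄(a+1,0)` for `a ≥ a₀` -/
theorem Lbar_succ_left {a : ℕ} (ha : ch.a0 ≤ a) (b : ℕ) :
    ch.Lbar a b ⊔ ch.Lbar (a + 1) 0 = ch.Lbar (a + 1) b := by
  refine t2_sup_eq_of_finrank (V₀ := ch.Lbar a 0) (ch.Lbar_mono (by omega) le_rfl)
    (ch.Lbar_mono le_rfl (by omega)) (ch.Lbar_inf_le_left _ _ _) ?_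
  have h1 := ch.finrank_Lbar (a := a + 1) (b := b) (by omega)
  have h2 := ch.finrank_Lbar (a := a) (b := 0) (by omega)
  have h3 := ch.finrank_Lbar (a := a) (b := b) (by omega)
  have h4 := ch.finrank_Lbar (a := a + 1) (b := 0) (by omega)
  have h5 : (Module.finrank k ↥(ch.Lbar (a + 1) b) : ℤ) + Module.finrank k ↥(ch.Lbar a 0) ≤
      Module.finrank k ↥(ch.Lbar a b) + Module.finrank k ↥(ch.Lbar (a + 1) 0) := by
    rw [h1, h2, h3, h4]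
    push_cast
    nlinarith
  exact_mod_cast h5

/-- `L̄(a,b+1) = L̄(a,b) + L̄(0,b+1)` for `b ≥ a₀` -/
theorem Lbar_succ_right {b : ℕ} (hb : ch.a0 ≤ b) (a : ℕ) :
    ch.Lbar a b ⊔ ch.Lbar 0 (b + 1) = ch.Lbar a (b + 1) := by
  refine t2_sup_eq_of_finrank (V₀ := ch.Lbar 0 b) (ch.Lbar_mono le_rfl (by omega))
    (ch.Lbar_mono (by omega) le_rfl) (ch.Lbar_inf_le_right _ _ _) ?_
  have h1 := ch.finrank_Lbar (a := a) (b := b + 1) (by omega)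
  have h2 := ch.finrank_Lbar (a := 0) (b := b) (by omega)
  have h3 := ch.finrank_Lbar (a := a) (b := b) (by omega)
  have h4 := ch.finrank_Lbar (a := 0) (b := b + 1) (by omega)
  have h5 : (Module.finrank k ↥(ch.Lbar a (b + 1)) : ℤ) + Module.finrank k ↥(ch.Lbar 0 b) ≤
      Module.finrank k ↥(ch.Lbar a b) + Module.finrank k ↥(ch.Lbar 0 (b + 1)) := by
    rw [h1, h2, h3, h4]
    push_cast
    nlinarith
  exact_mod_cast h5

/-- `Λ(a+1,b) = Λ(a,b) + Λ(a+1,0)` for `a ≥ a₀` -/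
theorem ball_L_succ_left {a : ℕ} (ha : ch.a0 ≤ a) (b : ℕ) :
    d.ball (ch.L (a + 1) b) = d.ball (ch.L a b) ⊔ d.ball (ch.L (a + 1) 0) := by
  refine d.ball_eq_sup_of_resBall _ _ _ (ch.L_mono (by omega) le_rfl)
    (ch.L_mono le_rfl (by omega)) ?_
  rw [ch.resBall_L_eq (a := a + 1) (b := b) (by omega), ch.resBall_L_eq (a := a) (b := b) (by omega),
    ch.resBall_L_eq (a := a + 1) (b := 0) (by omega), ch.Lbar_succ_left ha b]

/-- `Λ(a,b+1) = Λ(a,b) + Λ(0,b+1)` for `b ≥ a₀` -/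
theorem ball_L_succ_right {b : ℕ} (hb : ch.a0 ≤ b) (a : ℕ) :
    d.ball (ch.L a (b + 1)) = d.ball (ch.L a b) ⊔ d.ball (ch.L 0 (b + 1)) := by
  refine d.ball_eq_sup_of_resBall _ _ _ (ch.L_mono le_rfl (by omega))
    (ch.L_mono (by omega) le_rfl) ?_
  rw [ch.resBall_L_eq (a := a) (b := b + 1) (by omega), ch.resBall_L_eq (a := a) (b := b) (by omega),
    ch.resBall_L_eq (a := 0) (b := b + 1) (by omega), ch.Lbar_succ_right hb a]

theorem ball_L_le_left {a : ℕ} (ha : ch.a0 ≤ a) (b : ℕ) :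
    d.ball (ch.L a b) ≤ d.ball (ch.L ch.a0 b) ⊔ d.ball (ch.L a 0) := by
  induction a, ha using Nat.le_induction with
  | base => exact le_sup_left
  | succ a ha ih =>
    rw [ch.ball_L_succ_left ha b]
    refine sup_le (ih.trans (sup_le le_sup_left (le_sup_of_le_right ?_))) le_sup_right
    exact d.ball_mono (ch.L_mono (by omega) le_rfl)

theorem ball_L_le_right {b : ℕ} (hb : ch.a0 ≤ b) (a : ℕ) :
    d.ball (ch.L a b) ≤ d.ball (ch.L a ch.a0) ⊔ d.ball (ch.L 0 b) := by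
  induction b, hb using Nat.le_induction with
  | base => exact le_sup_left
  | succ b hb ih =>
    rw [ch.ball_L_succ_right hb a]
    refine sup_le (ih.trans (sup_le le_sup_left (le_sup_of_le_right ?_))) le_sup_right
    exact d.ball_mono (ch.L_mono le_rfl (by omega))

/-- `Λ(a,b) ⊆ Λ(a₀,a₀) + M₁ + M₂` -/
theorem ball_L_le (a b : ℕ) :
    d.ball (ch.L a b) ≤ d.ball (ch.L ch.a0 ch.a0) ⊔ (d.ball ch.L1 ⊔ d.ball ch.L2) := by
  have h1 : d.ball (ch.L a b) ≤ d.ball (ch.L (max a ch.a0) (max b ch.a0)) :=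
    d.ball_mono (ch.L_mono (le_max_left _ _) (le_max_left _ _))
  refine h1.trans ((ch.ball_L_le_left (le_max_right a ch.a0) _).trans ?_)
  refine sup_le ((ch.ball_L_le_right (le_max_right b ch.a0) _).trans ?_) ?_
  · refine sup_le le_sup_left (le_sup_of_le_right (le_sup_of_le_right ?_))
    exact fun s hs => ⟨ch.mem_L2_of_mem_L hs.1, hs.2⟩
  · refine le_sup_of_le_right (le_sup_of_le_left ?_)
    exact fun s hs => ⟨ch.mem_L1_of_mem_L hs.1, hs.2⟩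

end T2Chart

namespace T2Base

variable {K F k Fb : Type*} [Field K] [Field F] [Algebra K F] [Field k] [CommRing Fb] [Algebra k Fb]
variable (d : T2Base K F k Fb)

/-- every function can be scaled into the Gauss ring by a nonzero element of `A` -/
theorem exists_smul_mem (f : F) : ∃ c : ↥d.A, c ≠ 0 ∧ ((c : ↥d.A) : K) • f ∈ d.Ov := by
  rcases eq_or_ne f 0 with rfl | hf0
  · exact ⟨1, one_ne_zero, by rw [smul_zero]; exact d.Ov.zero_mem⟩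
  obtain ⟨c, hc0, hcf, -⟩ := d.normalize f hf0
  by_cases hcA : c ∈ d.A
  · exact ⟨⟨c, hcA⟩, fun h => hc0 (congrArg Subtype.val h), hcf⟩
  · have hcinv : c⁻¹ ∈ d.A := (d.A.mem_or_inv_mem c).resolve_left hcA
    refine ⟨1, one_ne_zero, ?_⟩
    have h1 : f = ((⟨c⁻¹, hcinv⟩ : ↥d.A) : K) • (c • f) := by
      show f = c⁻¹ • c • f
      rw [smul_smul, inv_mul_cancel₀ hc0, one_smul]
    have h2 := d.smul_mem ⟨c⁻¹, hcinv⟩ hcf
    rw [← h1] at h2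
    simpa using h2

/-- an element of the Gauss ring with zero reduction is divisible by a nonzero element of `𝔪_A`,
which can be chosen to divide a given one -/
theorem exists_dvd_of_res_eq_zero {p₀ : ↥d.A} (hp₀ : p₀ ∈ IsLocalRing.maximalIdeal ↥d.A)
    (hp₀' : p₀ ≠ 0) (f : ↥d.Ov) (hf : d.res f = 0) :
    ∃ p : ↥d.A, p ∈ IsLocalRing.maximalIdeal ↥d.A ∧ p ≠ 0 ∧ p ∣ p₀ ∧ d.toOv p ∣ f := by
  obtain ⟨a, ha, g, hg, hfg⟩ :=
    d.exists_smul_of_res_eq_zero ⊤ (f := (f : F)) ⟨Submodule.mem_top, f.2⟩ hf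
  have hdvd : d.toOv a ∣ f := by
    refine ⟨⟨g, hg.2⟩, Subtype.ext ?_⟩
    rw [Subring.coe_mul, coe_toOv, hfg, Algebra.smul_def]
  rcases eq_or_ne a 0 with rfl | ha0
  · refine ⟨p₀, hp₀, hp₀', dvd_rfl, ?_⟩
    have : f = 0 := by
      obtain ⟨u, hu⟩ := hdvd
      rw [hu, map_zero, zero_mul]
    rw [this]
    exact dvd_zero _
  rcases ValuationRing.dvd_total a p₀ with h | h
  · exact ⟨a, ha, ha0, h, hdvd⟩
  · exact ⟨p₀, hp₀, hp₀', dvd_rfl, (map_dvd d.toOv h).trans hdvd⟩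

end T2Base

namespace T2Chart

variable {K F k Fb : Type*} [Field K] [Field F] [Algebra K F] [Field k] [CommRing Fb] [Algebra k Fb]
variable {d : T2Base K F k Fb} (ch : T2Chart d)

/-- the torsion of `H¹ = M₁₂/(M₁ + M₂)` is bounded -/
theorem exists_bound : ∃ c : ↥d.A, c ≠ 0 ∧
    ∀ t ∈ d.ball (ch.L ch.a0 ch.a0 ⊓ (ch.L1 ⊔ ch.L2)), c • t ∈ d.ball ch.L1 ⊔ d.ball ch.L2 := by
  classical
  set W : Submodule K F := ch.L ch.a0 ch.a0 ⊓ (ch.L1 ⊔ ch.L2) with hW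
  set N : Submodule ↥d.A F := d.ball ch.L1 ⊔ d.ball ch.L2 with hN
  have key : ∀ t ∈ d.ball W, ∃ c : ↥d.A, c ≠ 0 ∧ c • t ∈ N := by
    intro t ht
    obtain ⟨u, hu, w, hw, huw⟩ := Submodule.mem_sup.mp ht.1.2
    obtain ⟨cu, hcu0, hcu⟩ := d.exists_smul_mem u
    obtain ⟨cw, hcw0, hcw⟩ := d.exists_smul_mem w
    refine ⟨cu * cw, mul_ne_zero hcu0 hcw0, ?_⟩
    rw [← huw, smul_add]
    refine Submodule.add_mem_sup ?_ ?_
    · rw [mul_comm, mul_smul]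
      exact (d.ball ch.L1).smul_mem cw ⟨ch.L1.smul_mem _ hu, hcu⟩
    · rw [mul_smul]
      exact (d.ball ch.L2).smul_mem cu ⟨ch.L2.smul_mem _ hw, hcw⟩
  choose! c hc using key
  obtain ⟨S, hS⟩ := d.ball_fg W
  have hSW : ∀ s ∈ S, s ∈ d.ball W := fun s hs => hS ▸ Submodule.subset_span hs
  refine ⟨∏ s ∈ S, c s, Finset.prod_ne_zero_iff.mpr (fun s hs => (hc s (hSW s hs)).1), ?_⟩
  intro t ht
  rw [← hS] at ht
  induction ht using Submodule.span_induction with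
  | mem s hs =>
    rw [← Finset.mul_prod_erase S c hs, mul_comm, mul_smul]
    exact N.smul_mem _ (hc s (hSW s hs)).2
  | zero => rw [smul_zero]; exact N.zero_mem
  | add x y _ _ hx hy => rw [smul_add]; exact N.add_mem hx hy
  | smul a x _ hx => rw [smul_comm]; exact N.smul_mem a hx

/-- functions of the Gauss ring regular on the chart `x ≠ ∞` -/
def B1 : Subring ↥d.Ov :=
  (integralClosure ↥(Algebra.adjoin K {ch.x}) F).toSubring.comap d.Ov.subtype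

/-- functions of the Gauss ring regular on the chart `x ≠ 0` -/
def B2 : Subring ↥d.Ov :=
  (integralClosure ↥(Algebra.adjoin K {ch.x⁻¹}) F).toSubring.comap d.Ov.subtype

theorem mem_B1 {f : ↥d.Ov} : f ∈ ch.B1 ↔ IsIntegral ↥(Algebra.adjoin K {ch.x}) (f : F) := Iff.rfl

theorem mem_B2 {f : ↥d.Ov} : f ∈ ch.B2 ↔ IsIntegral ↥(Algebra.adjoin K {ch.x⁻¹}) (f : F) :=
  Iff.rfl

/-- integral sections on the chart `x ≠ ∞` -/
def M1 : AddSubgroup ↥d.Ov := ch.L1.toAddSubgroup.comap d.Ov.subtype.toAddMonoidHom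

/-- integral sections on the chart `x ≠ 0` -/
def M2 : AddSubgroup ↥d.Ov := ch.L2.toAddSubgroup.comap d.Ov.subtype.toAddMonoidHom

theorem mem_M1 {s : ↥d.Ov} : s ∈ ch.M1 ↔ (s : F) ∈ ch.L1 := Iff.rfl

theorem mem_M2 {s : ↥d.Ov} : s ∈ ch.M2 ↔ (s : F) ∈ ch.L2 := Iff.rfl

/-- integral sections on the overlap -/
def M12 : AddSubgroup ↥d.Ov where
  carrier := {s | ∃ a b : ℕ, (s : F) ∈ ch.L a b}
  zero_mem' := ⟨0, 0, (ch.L 0 0).zero_mem⟩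
  add_mem' := by
    rintro s t ⟨a, b, hs⟩ ⟨a', b', ht⟩
    exact ⟨max a a', max b b', (ch.L _ _).add_mem
      (ch.L_mono (le_max_left _ _) (le_max_left _ _) hs)
      (ch.L_mono (le_max_right _ _) (le_max_right _ _) ht)⟩
  neg_mem' := by
    rintro s ⟨a, b, hs⟩
    exact ⟨a, b, (ch.L a b).neg_mem hs⟩

theorem mem_M12 {s : ↥d.Ov} : s ∈ ch.M12 ↔ ∃ a b : ℕ, (s : F) ∈ ch.L a b := Iff.rfl

theorem M1_le_M12 : ch.M1 ≤ ch.M12 := by
  intro s hs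
  obtain ⟨a, ha⟩ := ch.exists1 _ hs
  exact ⟨a, 0, by rw [pow_zero, one_mul]; exact hs, ha⟩

theorem M2_le_M12 : ch.M2 ≤ ch.M12 := by
  intro s hs
  obtain ⟨b, hb⟩ := ch.exists2 _ hs
  exact ⟨0, b, hb, by rw [pow_zero, one_mul]; exact hs⟩

theorem toOv_mem_B1 (p : ↥d.A) : d.toOv p ∈ ch.B1 :=
  isIntegral_algebraMap (x := algebraMap K ↥(Algebra.adjoin K {ch.x}) (p : K))

theorem toOv_mem_B2 (p : ↥d.A) : d.toOv p ∈ ch.B2 :=
  isIntegral_algebraMap (x := algebraMap K ↥(Algebra.adjoin K {ch.x⁻¹}) (p : K))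

theorem coe_toOv_pow_mul (p : ↥d.A) (n : ℕ) (t : ↥d.Ov) :
    ((d.toOv p ^ n * t : ↥d.Ov) : F) = (p ^ n : ↥d.A) • (t : F) := by
  show _ = (((p ^ n : ↥d.A) : ↥d.A) : K) • (t : F)
  rw [Algebra.smul_def]
  simp

theorem mem_M12_of_mul_mem {p : ↥d.A} (hp0 : p ≠ 0) (t : ↥d.Ov) (h : d.toOv p * t ∈ ch.M12) :
    t ∈ ch.M12 := by
  obtain ⟨a, b, hab⟩ := h
  refine ⟨a, b, ?_⟩
  have hpK : ((p : ↥d.A) : K) ≠ 0 := fun h0 => hp0 (Subtype.ext h0)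
  have h1 : ((d.toOv p * t : ↥d.Ov) : F) = ((p : ↥d.A) : K) • (t : F) := by
    rw [Algebra.smul_def]; rfl
  rw [h1] at hab
  have h2 : (t : F) = ((p : ↥d.A) : K)⁻¹ • (((p : ↥d.A) : K) • (t : F)) := by
    rw [smul_smul, inv_mul_cancel₀ hpK, one_smul]
  rw [h2]
  exact (ch.L a b).smul_mem _ hab

theorem mem_sup_iff {s : ↥d.Ov} :
    s ∈ ch.M1 ⊔ ch.M2 ↔ (s : F) ∈ d.ball ch.L1 ⊔ d.ball ch.L2 := by
  constructor
  · intro hs
    obtain ⟨s₁, hs₁, s₂, hs₂, rfl⟩ := AddSubgroup.mem_sup.mp hs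
    rw [Subring.coe_add]
    exact Submodule.add_mem_sup ⟨hs₁, s₁.2⟩ ⟨hs₂, s₂.2⟩
  · intro hs
    obtain ⟨u₁, hu₁, u₂, hu₂, h12⟩ := Submodule.mem_sup.mp hs
    have : s = (⟨u₁, hu₁.2⟩ : ↥d.Ov) + ⟨u₂, hu₂.2⟩ := Subtype.ext h12.symm
    rw [this]
    exact AddSubgroup.add_mem_sup (ch.mem_M1.mpr hu₁.1) (ch.mem_M2.mpr hu₂.1)

/-- bounded `π`-power torsion of `M₁₂/(M₁ + M₂)` -/
theorem bdd {p : ↥d.A} (hp0 : p ≠ 0) {c : ↥d.A}
    (hc : ∀ t ∈ d.ball (ch.L ch.a0 ch.a0 ⊓ (ch.L1 ⊔ ch.L2)), c • t ∈ d.ball ch.L1 ⊔ d.ball ch.L2)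
    {k₀ : ℕ} (hk₀ : c ∣ p ^ k₀) (t : ↥d.Ov) (ht : t ∈ ch.M12) (k : ℕ)
    (hk : d.toOv p ^ k * t ∈ ch.M1 ⊔ ch.M2) : d.toOv p ^ k₀ * t ∈ ch.M1 ⊔ ch.M2 := by
  obtain ⟨a, b, htab⟩ := ht
  rw [ch.mem_sup_iff, coe_toOv_pow_mul] at hk ⊢
  set N : Submodule ↥d.A F := d.ball ch.L1 ⊔ d.ball ch.L2 with hN
  have ht1 : (t : F) ∈ d.ball (ch.L a b) := ⟨htab, t.2⟩
  obtain ⟨t₀, ht₀, u, hu, htu⟩ := Submodule.mem_sup.mp (ch.ball_L_le a b ht1)
  have h1 : (p ^ k) • t₀ ∈ N := by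
    have : (p ^ k) • t₀ = (p ^ k) • (t : F) - (p ^ k) • u := by
      rw [← htu, smul_add]; abel
    rw [this]
    exact N.sub_mem hk (N.smul_mem _ hu)
  have h2 : t₀ ∈ ch.L1 ⊔ ch.L2 := by
    obtain ⟨u₁, hu₁, u₂, hu₂, h12⟩ := Submodule.mem_sup.mp h1
    have hpk : (((p ^ k : ↥d.A) : ↥d.A) : K) ≠ 0 := fun h0 =>
      pow_ne_zero k hp0 (Subtype.ext h0)
    have h3 : t₀ = (((p ^ k : ↥d.A) : ↥d.A) : K)⁻¹ • u₁ + (((p ^ k : ↥d.A) : ↥d.A) : K)⁻¹ • u₂ := by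
      rw [← smul_add, h12]
      show t₀ = _⁻¹ • ((((p ^ k : ↥d.A) : ↥d.A) : K) • t₀)
      rw [smul_smul, inv_mul_cancel₀ hpk, one_smul]
    rw [h3]
    exact Submodule.add_mem_sup (ch.L1.smul_mem _ hu₁.1) (ch.L2.smul_mem _ hu₂.1)
  have h3 : c • t₀ ∈ N := hc t₀ ⟨⟨ht₀.1, h2⟩, ht₀.2⟩
  obtain ⟨q, hq⟩ := hk₀
  have h4 : (p ^ k₀) • t₀ ∈ N := by
    rw [hq, mul_comm, mul_smul]
    exact N.smul_mem q h3
  rw [← htu, smul_add]
  exact N.add_mem h4 (N.smul_mem _ hu)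

/-- **CORE' (lattice form)**: there is a global section of the twisted sheaf which reduces
to `1`. -/
theorem t2_core_lattice :
    ∃ s : F, s ∈ ch.L1 ∧ s ∈ ch.L2 ∧ ∃ h : s ∈ d.Ov, d.res ⟨s, h⟩ = 1 := by
  classical
  obtain ⟨e₁, he1L, he1O, he1⟩ := ch.exists_e1
  obtain ⟨e₂, he2L, he2O, he2⟩ := ch.exists_e2
  obtain ⟨hℓA, hℓm⟩ := ValuationSubring.mem_nonunits_iff_exists_mem_maximalIdeal.mp ch.hℓA
  set p₀ : ↥d.A := ⟨((ch.ℓ : ℕ) : K), hℓA⟩ with hp₀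
  have hp₀0 : p₀ ≠ 0 := fun h => ch.hℓ0 (congrArg Subtype.val h)
  obtain ⟨p₁, hp₁m, hp₁0, hp₁d, hp₁y⟩ := d.exists_dvd_of_res_eq_zero hℓm hp₀0
    ((⟨ch.y, ch.hy⟩ : ↥d.Ov) - 1) (by rw [map_sub, ch.hy1, map_one, sub_self])
  obtain ⟨p₂, hp₂m, hp₂0, hp₂d, hp₂e⟩ := d.exists_dvd_of_res_eq_zero hp₁m hp₁0
    ((⟨e₁, he1O⟩ : ↥d.Ov) - 1) (by rw [map_sub, he1, map_one, sub_self])
  obtain ⟨p, hpm, hp0, hpd, hpe⟩ := d.exists_dvd_of_res_eq_zero hp₂m hp₂0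
    ((⟨e₂, he2O⟩ : ↥d.Ov) - 1) (by rw [map_sub, he2, map_one, sub_self])
  have hπ2 : d.toOv p ∣ d.toOv p₂ := map_dvd d.toOv hpd
  have hπ1 : d.toOv p ∣ d.toOv p₁ := hπ2.trans (map_dvd d.toOv hp₂d)
  have hπ0 : d.toOv p ∣ d.toOv p₀ := hπ1.trans (map_dvd d.toOv hp₁d)
  have hπℓ : d.toOv p ∣ ((ch.ℓ : ℕ) : ↥d.Ov) := by
    have : d.toOv p₀ = ((ch.ℓ : ℕ) : ↥d.Ov) := by
      apply Subtype.ext
      rw [T2Base.coe_toOv, hp₀]
      simp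
    rwa [this] at hπ0
  obtain ⟨c, hc0, hc⟩ := ch.exists_bound
  obtain ⟨k₀, hk₀⟩ := d.arch p hpm c hc0
  obtain ⟨s, ⟨hs1, hs2⟩, hsπ⟩ := T1.tb_core (d.toOv p) ch.ℓ ch.hℓ hπℓ ch.m ch.hm ch.B1 ch.B2
    (ch.toOv_mem_B1 p) (ch.toOv_mem_B2 p) ch.M1 ch.M2 ch.M12 ch.M1_le_M12 ch.M2_le_M12
    (fun b hb s hs => ch.mul_mem1 _ _ hb hs) (fun b hb s hs => ch.mul_mem2 _ _ hb hs)
    (fun t ht => ch.mem_M12_of_mul_mem hp0 t ht)
    (⟨ch.y, ch.hy⟩ : ↥d.Ov) (hπ1.trans hp₁y)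
    ⟨e₁, he1O⟩ ⟨e₂, he2O⟩ he1L he2L (hπ2.trans hp₂e) hpe
    (by
      rw [ch.mem_B1]
      have := ch.pow1 e₁ he1L
      rwa [mul_comm] at this)
    (by
      rw [ch.mem_B2]
      have := ch.pow2 e₂ he2L
      rwa [mul_comm] at this)
    k₀ (fun t ht k hk => ch.bdd hp0 hc hk₀ t ht k hk)
  refine ⟨s, hs1, hs2, s.2, ?_⟩
  obtain ⟨u, hu⟩ := hsπ
  have h1 : d.res s - 1 = 0 := by
    rw [← map_one d.res, ← map_sub, hu, map_mul, d.res_toOv, (d.resA_eq_zero_iff p).mpr hpm,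
      map_zero, zero_mul]
  exact sub_eq_zero.mp h1

end T2Chart

end Fermat.Agent.T2
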