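/-
T2-A (helper9): flatness of the chart rings.

`B₁ := IntCl(K[x]) ∩ 𝒪`, `B₂ := IntCl(K[x⁻¹]) ∩ 𝒪`.  If `B₁` is generated over `A[x]` by finitely
many elements `s` with `x⁻ᵉ s ∈ B₂` (`T2Fin`; at a DVR level this is the finiteness of the integral
closure), then `H¹(𝒪(a,b)) = B₁₂ / (x⁻ᵇ B₁ + xᵃ B₂)` vanishes for `a + b + 1 ≥ e` (`t2f_H1`), and
hence the reduction of the lattice `Λ⁰(a,b) = x⁻ᵇ B₁ ∩ xᵃ B₂` is the full space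
`{t | x̄ᵇ t ∈ res B₁, x̄⁻ᵃ t ∈ res B₂}` (`t2f_flat`): no genus computation is needed.
-/
import Fermat.Agent.Lib.T2.Core.Chart

set_option autoImplicit false
set_option linter.style.haveILetI false

namespace Fermat.Agent.T2

open T1 (tbL tbLbar)

variable {K F k Fb : Type*} [Field K] [Field F] [Algebra K F] [Field k] [CommRing Fb] [Algebra k Fb]

/-- functions integral over `K[x]`, as a `K`-subspace -/
def t2Int (x : F) : Submodule K F where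
  carrier := {f | IsIntegral ↥(Algebra.adjoin K {x}) f}
  zero_mem' := isIntegral_zero
  add_mem' := fun h1 h2 => IsIntegral.add h1 h2
  smul_mem' := fun c _ hf => T1.tb_isIntegral_smul x c hf

theorem mem_t2Int {x f : F} : f ∈ t2Int (K := K) x ↔ IsIntegral ↥(Algebra.adjoin K {x}) f :=
  Iff.rfl

theorem t2Int_mul {x f g : F} (hf : f ∈ t2Int (K := K) x) (hg : g ∈ t2Int (K := K) x) :
    f * g ∈ t2Int (K := K) x := IsIntegral.mul hf hg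

theorem t2Int_self (x : F) : x ∈ t2Int (K := K) x := T1.tb_isIntegral_self x

theorem t2Int_pow_self (x : F) (n : ℕ) : x ^ n ∈ t2Int (K := K) x := T1.tb_isIntegral_pow_self x n

theorem mem_tbLbar_iff {x : F} {a b : ℕ} {t : F} :
    t ∈ tbLbar (K := K) x a b ↔ x ^ b * t ∈ t2Int (K := K) x ∧ x⁻¹ ^ a * t ∈ t2Int (K := K) x⁻¹ :=
  Iff.rfl

namespace T2Base

variable (d : T2Base K F k Fb)

/-- evaluation of a polynomial with coefficients in `A` at `x ∈ F` -/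
noncomputable def evalA (x : F) (p : Polynomial ↥d.A) : F :=
  Polynomial.eval₂ ((algebraMap K F).comp d.A.subtype) x p

theorem evalA_add (x : F) (p q : Polynomial ↥d.A) : d.evalA x (p + q) = d.evalA x p + d.evalA x q :=
  Polynomial.eval₂_add _ _

theorem evalA_monomial (x : F) (n : ℕ) (a : ↥d.A) :
    d.evalA x (Polynomial.monomial n a) = ((a : ↥d.A) : K) • x ^ n := by
  rw [evalA, Polynomial.eval₂_monomial, Algebra.smul_def]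
  rfl

/-- `x⁻ᵇ B₁ + xᵃ B₂` -/
def chartSum (x : F) (a b : ℕ) : Submodule ↥d.A F where
  carrier := {u | ∃ v₁ ∈ d.ball (t2Int x), ∃ v₂ ∈ d.ball (t2Int x⁻¹),
    u = x⁻¹ ^ b * v₁ + x ^ a * v₂}
  zero_mem' := ⟨0, Submodule.zero_mem _, 0, Submodule.zero_mem _, by simp⟩
  add_mem' := by
    rintro _ _ ⟨v₁, h1, v₂, h2, rfl⟩ ⟨w₁, h3, w₂, h4, rfl⟩
    exact ⟨v₁ + w₁, Submodule.add_mem _ h1 h3, v₂ + w₂, Submodule.add_mem _ h2 h4, by ring⟩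
  smul_mem' := by
    rintro c _ ⟨v₁, h1, v₂, h2, rfl⟩
    refine ⟨c • v₁, Submodule.smul_mem _ c h1, c • v₂, Submodule.smul_mem _ c h2, ?_⟩
    show ((c : ↥d.A) : K) • (x⁻¹ ^ b * v₁ + x ^ a * v₂) =
      x⁻¹ ^ b * (((c : ↥d.A) : K) • v₁) + x ^ a * (((c : ↥d.A) : K) • v₂)
    rw [smul_add, mul_smul_comm, mul_smul_comm]

theorem mem_chartSum {x : F} {a b : ℕ} {u : F} : u ∈ d.chartSum x a b ↔
    ∃ v₁ ∈ d.ball (t2Int x), ∃ v₂ ∈ d.ball (t2Int x⁻¹), u = x⁻¹ ^ b * v₁ + x ^ a * v₂ := Iff.rfl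

end T2Base

/-- **finiteness of the chart ring** `B₁` over `A[x]`, with pole bound `e` at `x = ∞` -/
def T2Fin (d : T2Base K F k Fb) (x : F) (e : ℕ) : Prop :=
  ∃ S : Finset F, (∀ s ∈ S, s ∈ d.ball (t2Int x) ∧ x⁻¹ ^ e * s ∈ t2Int (K := K) x⁻¹) ∧
    ∀ f ∈ d.ball (t2Int x), ∃ c : F → Polynomial ↥d.A, f = ∑ s ∈ S, d.evalA x (c s) * s

theorem t2_inv_pow_mul_pow {x : F} (hx0 : x ≠ 0) (n l : ℕ) :
    x⁻¹ ^ n * x ^ l = x ^ ((l : ℤ) - n) := by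
  rw [inv_pow, ← zpow_natCast x n, ← zpow_natCast x l, ← zpow_neg, ← zpow_add₀ hx0]
  congr 1
  ring

theorem t2_pow_mul_inv_pow {x : F} (hx0 : x ≠ 0) (l n : ℕ) :
    x ^ l * x⁻¹ ^ n = x ^ ((l : ℤ) - n) := by
  rw [mul_comm, t2_inv_pow_mul_pow hx0]

section Flat

variable (d : T2Base K F k Fb) {x : F} (hx0 : x ≠ 0) (hx : x ∈ d.Ov) (hxi : x⁻¹ ∈ d.Ov)

include hx0 hx hxi

/-- a monomial multiple of a generator lies in `x⁻ᵇ B₁ + xᵃ B₂` -/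
theorem t2f_monomial_mem {a b e : ℕ} (hab : e ≤ a + b + 1) {s : F}
    (hs : s ∈ d.ball (t2Int x)) (hs2 : x⁻¹ ^ e * s ∈ t2Int (K := K) x⁻¹) (N l : ℕ) :
    x⁻¹ ^ N * (x ^ l * s) ∈ d.chartSum x a b := by
  rcases le_or_gt N (l + b) with h | h
  · -- `x⁻ᴺ xˡ s = x⁻ᵇ (x^{l+b-N} s)`
    refine ⟨x ^ (l + b - N) * s, ⟨t2Int_mul (t2Int_pow_self x _) hs.1,
      d.Ov.mul_mem (d.Ov.pow_mem hx _) hs.2⟩, 0, Submodule.zero_mem _, ?_⟩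
    rw [mul_zero, add_zero, ← mul_assoc, ← mul_assoc, t2_inv_pow_mul_pow hx0,
      t2_inv_pow_mul_pow hx0]
    congr 2
    push_cast [Nat.cast_sub h]
    ring
  · -- `x⁻ᴺ xˡ s = xᵃ x⁻ʲ (x⁻ᵉ s)`, `j = N + a - l - e`
    have hj : l + e ≤ N + a := by omega
    refine ⟨0, Submodule.zero_mem _, x⁻¹ ^ (N + a - (l + e)) * (x⁻¹ ^ e * s),
      ⟨t2Int_mul (t2Int_pow_self x⁻¹ _) hs2,
        d.Ov.mul_mem (d.Ov.pow_mem hxi _) (d.Ov.mul_mem (d.Ov.pow_mem hxi _) hs.2)⟩, ?_⟩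
    rw [mul_zero, zero_add, ← mul_assoc, ← mul_assoc, ← mul_assoc, mul_assoc (x ^ a),
      ← pow_add, t2_inv_pow_mul_pow hx0, t2_pow_mul_inv_pow hx0]
    congr 2
    push_cast [Nat.cast_sub hj]
    ring

/-- a polynomial multiple of a generator, divided by `xᴺ`, lies in `x⁻ᵇ B₁ + xᵃ B₂` -/
theorem t2f_evalA_mem {a b e : ℕ} (hab : e ≤ a + b + 1) {s : F}
    (hs : s ∈ d.ball (t2Int x)) (hs2 : x⁻¹ ^ e * s ∈ t2Int (K := K) x⁻¹) (N : ℕ)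
    (c : Polynomial ↥d.A) : x⁻¹ ^ N * (d.evalA x c * s) ∈ d.chartSum x a b := by
  induction c using Polynomial.induction_on' with
  | add p q hp hq =>
    rw [d.evalA_add, add_mul, mul_add]
    exact Submodule.add_mem _ hp hq
  | monomial l c =>
    rw [d.evalA_monomial, smul_mul_assoc, mul_smul_comm]
    exact Submodule.smul_mem _ c (t2f_monomial_mem d hx0 hx hxi hab hs hs2 N l)

/-- **`H¹(𝒪(a,b)) = 0`**: `x⁻ᴺ B₁ ⊆ x⁻ᵇ B₁ + xᵃ B₂` for `a + b + 1 ≥ e` -/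
theorem t2f_H1 {a b e : ℕ} (hfin : T2Fin d x e) (hab : e ≤ a + b + 1) (N : ℕ) {f : F}
    (hf : f ∈ d.ball (t2Int x)) : x⁻¹ ^ N * f ∈ d.chartSum x a b := by
  obtain ⟨S, hS, hrep⟩ := hfin
  obtain ⟨c, hc⟩ := hrep f hf
  rw [hc, Finset.mul_sum]
  exact Submodule.sum_mem _ (fun s hs =>
    t2f_evalA_mem d hx0 hx hxi hab (hS s hs).1 (hS s hs).2 N (c s))

theorem t2f_res_inv_mul : d.res ⟨x⁻¹, hxi⟩ * d.res ⟨x, hx⟩ = 1 := by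
  rw [← d.res_mul' hxi hx, d.res_congr (d.Ov.mul_mem hxi hx) (inv_mul_cancel₀ hx0)]
  exact d.res_one' _

theorem t2f_res_mul_inv : d.res ⟨x, hx⟩ * d.res ⟨x⁻¹, hxi⟩ = 1 := by
  rw [mul_comm]; exact t2f_res_inv_mul d hx0 hx hxi

/-- **flatness**: every function on the special fibre which lies in `x̄⁻ᵇ res B₁ ∩ x̄ᵃ res B₂` lifts
to a section of `𝒪(a,b)` over the whole model, as soon as `a + b + 1 ≥ e` -/
theorem t2f_flat {a b e : ℕ} (hfin : T2Fin d x e) (hab : e ≤ a + b + 1)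
    (hex2 : ∀ f : F, f ∈ t2Int (K := K) x⁻¹ → ∃ n : ℕ, x ^ n * f ∈ t2Int (K := K) x) {t : Fb}
    (h1 : d.res ⟨x, hx⟩ ^ b * t ∈ d.resBall (t2Int x))
    (h2 : d.res ⟨x⁻¹, hxi⟩ ^ a * t ∈ d.resBall (t2Int x⁻¹)) :
    t ∈ d.resBall (tbLbar (K := K) x a b) := by
  obtain ⟨f₁, hf₁, hr₁⟩ := h1
  obtain ⟨f₂, hf₂, hr₂⟩ := h2
  have hxx : x⁻¹ * x = 1 := inv_mul_cancel₀ hx0
  have hxx' : x * x⁻¹ = 1 := mul_inv_cancel₀ hx0
  -- the two local lifts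
  have hs₁O : x⁻¹ ^ b * f₁ ∈ d.Ov := d.Ov.mul_mem (d.Ov.pow_mem hxi _) hf₁.2
  have hs₂O : x ^ a * f₂ ∈ d.Ov := d.Ov.mul_mem (d.Ov.pow_mem hx _) hf₂.2
  have hres₁ : d.res ⟨x⁻¹ ^ b * f₁, hs₁O⟩ = t := by
    rw [d.res_mul' (d.Ov.pow_mem hxi _) hf₁.2, d.res_pow' hxi, hr₁, ← mul_assoc, ← mul_pow,
      t2f_res_inv_mul d hx0 hx hxi, one_pow, one_mul]
  have hres₂ : d.res ⟨x ^ a * f₂, hs₂O⟩ = t := by
    rw [d.res_mul' (d.Ov.pow_mem hx _) hf₂.2, d.res_pow' hx, hr₂, ← mul_assoc, ← mul_pow,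
      t2f_res_mul_inv d hx0 hx hxi, one_pow, one_mul]
  -- the difference is divisible by an element of the maximal ideal
  have hg₀O : x⁻¹ ^ b * f₁ - x ^ a * f₂ ∈ d.Ov := d.Ov.sub_mem hs₁O hs₂O
  have hg₀ : d.res ⟨x⁻¹ ^ b * f₁ - x ^ a * f₂, hg₀O⟩ = 0 := by
    rw [d.res_sub' hs₁O hs₂O, hres₁, hres₂, sub_self]
  obtain ⟨p, hp, g, hg, hpg⟩ := d.exists_smul_of_res_eq_zero ⊤
    (f := x⁻¹ ^ b * f₁ - x ^ a * f₂) ⟨Submodule.mem_top, hg₀O⟩ hg₀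
  have hpres : d.resA p = 0 := (d.resA_eq_zero_iff p).mpr hp
  -- decomposition of `g`
  have hdec : ∃ v₁ ∈ d.ball (t2Int x), ∃ v₂ ∈ d.ball (t2Int x⁻¹),
      ((p : ↥d.A) : K) • g = ((p : ↥d.A) : K) • (x⁻¹ ^ b * v₁) + ((p : ↥d.A) : K) • (x ^ a * v₂) := by
    by_cases hp0 : ((p : ↥d.A) : K) = 0
    · exact ⟨0, Submodule.zero_mem _, 0, Submodule.zero_mem _, by rw [hp0]; simp⟩
    obtain ⟨n₂, hn₂⟩ := hex2 f₂ hf₂.1
    have hgeq : g = ((p : ↥d.A) : K)⁻¹ • (x⁻¹ ^ b * f₁ - x ^ a * f₂) := by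
      rw [hpg, smul_smul, inv_mul_cancel₀ hp0, one_smul]
    have hN : x ^ (b + n₂) * g ∈ d.ball (t2Int x) := by
      refine ⟨?_, d.Ov.mul_mem (d.Ov.pow_mem hx _) hg.2⟩
      rw [hgeq, mul_smul_comm]
      refine (t2Int x).smul_mem _ ?_
      have h3 : x ^ (b + n₂) * (x⁻¹ ^ b * f₁ - x ^ a * f₂) =
          x ^ n₂ * f₁ - x ^ (a + b) * (x ^ n₂ * f₂) := by
        rw [mul_sub, ← mul_assoc, ← mul_assoc, ← mul_assoc, pow_add x b n₂, pow_add x a b]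
        have h4 : x ^ b * x ^ n₂ * x⁻¹ ^ b = x ^ n₂ := by
          rw [mul_comm (x ^ b), mul_assoc, ← mul_pow, hxx', one_pow, mul_one]
        rw [h4]
        ring
      rw [h3]
      exact (t2Int x).sub_mem (t2Int_mul (t2Int_pow_self x _) hf₁.1)
        (t2Int_mul (t2Int_pow_self x _) hn₂)
    have h5 := t2f_H1 d hx0 hx hxi hfin hab (b + n₂) hN
    rw [← mul_assoc, ← mul_pow, hxx, one_pow, one_mul] at h5
    obtain ⟨v₁, hv₁, v₂, hv₂, hgv⟩ := h5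
    exact ⟨v₁, hv₁, v₂, hv₂, by rw [hgv, smul_add]⟩
  obtain ⟨v₁, hv₁, v₂, hv₂, hdec⟩ := hdec
  -- the global lift
  have hpv₁ : ((p : ↥d.A) : K) • v₁ ∈ d.ball (t2Int x) := (d.ball (t2Int x)).smul_mem p hv₁
  have hpv₂ : ((p : ↥d.A) : K) • v₂ ∈ d.ball (t2Int x⁻¹) := (d.ball (t2Int x⁻¹)).smul_mem p hv₂
  have hsO : x⁻¹ ^ b * (f₁ - ((p : ↥d.A) : K) • v₁) ∈ d.Ov :=
    d.Ov.mul_mem (d.Ov.pow_mem hxi _) (d.Ov.sub_mem hf₁.2 hpv₁.2)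
  have heq : x⁻¹ ^ b * (f₁ - ((p : ↥d.A) : K) • v₁) = x ^ a * (f₂ + ((p : ↥d.A) : K) • v₂) := by
    have h6 : x⁻¹ ^ b * f₁ - x ^ a * f₂ =
        ((p : ↥d.A) : K) • (x⁻¹ ^ b * v₁) + ((p : ↥d.A) : K) • (x ^ a * v₂) := by
      rw [← hdec, ← hpg]
    rw [mul_sub, mul_add, mul_smul_comm, mul_smul_comm]
    linear_combination h6
  refine ⟨x⁻¹ ^ b * (f₁ - ((p : ↥d.A) : K) • v₁), ⟨⟨?_, ?_⟩, hsO⟩, ?_⟩
  · show x ^ b * (x⁻¹ ^ b * (f₁ - ((p : ↥d.A) : K) • v₁)) ∈ t2Int x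
    rw [← mul_assoc, ← mul_pow, hxx', one_pow, one_mul]
    exact (t2Int x).sub_mem hf₁.1 hpv₁.1
  · show x⁻¹ ^ a * (x⁻¹ ^ b * (f₁ - ((p : ↥d.A) : K) • v₁)) ∈ t2Int x⁻¹
    rw [heq, ← mul_assoc, ← mul_pow, hxx, one_pow, one_mul]
    exact (t2Int x⁻¹).add_mem hf₂.1 hpv₂.1
  · have h7 : x⁻¹ ^ b * (f₁ - ((p : ↥d.A) : K) • v₁) =
        x⁻¹ ^ b * f₁ - ((p : ↥d.A) : K) • (x⁻¹ ^ b * v₁) := by
      rw [mul_sub, mul_smul_comm]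
    have hv₁O : x⁻¹ ^ b * v₁ ∈ d.Ov := d.Ov.mul_mem (d.Ov.pow_mem hxi _) hv₁.2
    rw [d.res_congr hsO h7, d.res_sub' hs₁O (d.smul_mem p hv₁O), hres₁, d.res_smul' p hv₁O, hpres,
      zero_smul, sub_zero]

end Flat

end Fermat.Agent.T2
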