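/-
T2-A (helper9): twists and the multiplier ring (Theorem B).

A twist `tw : T2Twist su` is the abstract form of a Kummer function `y ≡ 1` with `m ∣ div y`:
`L1`, `L2` are the sections of `𝒪(div(y)/m)` on the two charts, and `m ∣ div y` enters only through
Riemann's inequality `dimgen`.  Its gluing invariant is `M̄ := res (L1 ∩ 𝒪) ⊆ R`.

**Theorem B** (`T2Twist.mult`): `{r ∈ R | r M̄ ⊆ M̄} = S₁ = res B₁`.
-/
import Fermat.Agent.Lib.T2.Core.Sing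

set_option autoImplicit false
set_option linter.style.haveILetI false

namespace Fermat.Agent.T2

open T1 (tbL tbLbar)

variable {K F k Fb : Type*} [Field K] [Field F] [Algebra K F] [Field k] [CommRing Fb] [Algebra k Fb]

/-- a twist of the structure sheaf by a Kummer function `y ≡ 1` -/
structure T2Twist {d : T2Base K F k Fb} {σ : Type*} [Fintype σ] (su : T2Setup d σ) where
  /-- the Kummer function -/
  y : F
  hy : y ∈ d.Ov
  hy1 : d.res ⟨y, hy⟩ = 1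
  /-- twisted sections on the chart `x ≠ ∞` -/
  L1 : Submodule K F
  /-- twisted sections on the chart `x ≠ 0` -/
  L2 : Submodule K F
  mul_mem1 : ∀ f s : F, f ∈ t2Int (K := K) su.x → s ∈ L1 → f * s ∈ L1
  mul_mem2 : ∀ f s : F, f ∈ t2Int (K := K) su.x⁻¹ → s ∈ L2 → f * s ∈ L2
  pow1 : ∀ s ∈ L1, s ^ su.m * y ∈ t2Int (K := K) su.x
  pow2 : ∀ s ∈ L2, s ^ su.m * y ∈ t2Int (K := K) su.x⁻¹
  exists1 : ∀ s ∈ L1, ∃ a : ℕ, su.x⁻¹ ^ a * s ∈ L2
  exists2 : ∀ s ∈ L2, ∃ b : ℕ, su.x ^ b * s ∈ L1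
  finL : ∀ a b : ℕ, FiniteDimensional K ↥(tbL su.x L1 L2 a b)
  dimgen : ∀ a b : ℕ, su.a0 ≤ a + b →
    ((a + b : ℕ) : ℤ) * su.n + su.c ≤ (Module.finrank K ↥(tbL su.x L1 L2 a b) : ℤ)

namespace T2Setup

variable {d : T2Base K F k Fb} {σ : Type*} [Fintype σ] (su : T2Setup d σ)

theorem m_pos : 0 < su.m := by
  rcases Nat.eq_zero_or_pos su.m with h0 | h
  · exfalso
    have h1 := su.hm
    rw [h0, Nat.coprime_zero_left] at h1
    exact su.hℓ.one_lt.ne' h1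
  · exact h

theorem S1_inf_Lt_le (a : ℕ) :
    Subalgebra.toSubmodule su.S1 ⊓ t2Lt (k := k) su.xb su.xib a ≤ su.Lsing a 0 := by
  intro t ht
  refine ⟨?_, su.sm2 _ ht.2.2⟩
  rw [pow_zero, one_mul]
  exact ht.1

end T2Setup

namespace T2Twist

variable {d : T2Base K F k Fb} {σ : Type*} [Fintype σ] {su : T2Setup d σ} (tw : T2Twist su)

/-- `L(a,b)` -/
def L (a b : ℕ) : Submodule K F := tbL su.x tw.L1 tw.L2 a b

instance (a b : ℕ) : FiniteDimensional K ↥(tw.L a b) := tw.finL a b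

/-- the gluing invariant `M̄ = res (L1 ∩ 𝒪)` -/
def Mbar : Submodule k Fb := d.resBall tw.L1

theorem res_mem_R {s : F} (hs : s ∈ tw.L1) (hsO : s ∈ d.Ov) :
    d.res ⟨s, hsO⟩ ∈ t2R (k := k) su.xb := by
  have h1 := su.int1 (s ^ su.m * tw.y) (d.Ov.mul_mem (d.Ov.pow_mem hsO _) tw.hy) (tw.pow1 s hs)
  rw [d.res_mul' (d.Ov.pow_mem hsO _) tw.hy, d.res_pow' hsO, tw.hy1, mul_one] at h1
  exact IsIntegral.of_pow su.m_pos h1

theorem res_mem_S2 {s : F} (hs : s ∈ tw.L2) (hsO : s ∈ d.Ov) :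
    d.res ⟨s, hsO⟩ ∈ d.resBall (t2Int su.x⁻¹) := by
  have h1 := su.int2 (s ^ su.m * tw.y) (d.Ov.mul_mem (d.Ov.pow_mem hsO _) tw.hy) (tw.pow2 s hs)
  rw [d.res_mul' (d.Ov.pow_mem hsO _) tw.hy, d.res_pow' hsO, tw.hy1, mul_one] at h1
  exact su.sm2 _ (IsIntegral.of_pow su.m_pos h1)

theorem Mbar_le_R : tw.Mbar ≤ Subalgebra.toSubmodule (t2R (k := k) su.xb) := by
  rintro _ ⟨s, hs, rfl⟩
  exact tw.res_mem_R hs.1 hs.2

theorem S1_mul_Mbar {s v : Fb} (hs : s ∈ su.S1) (hv : v ∈ tw.Mbar) : s * v ∈ tw.Mbar := by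
  obtain ⟨f, hf, rfl⟩ := hs
  obtain ⟨g, hg, rfl⟩ := hv
  exact ⟨f * g, ⟨tw.mul_mem1 f g hf.1 hg.1, d.Ov.mul_mem hf.2 hg.2⟩, d.res_mul' hf.2 hg.2⟩

theorem pow_mem_S1 {v : Fb} (hv : v ∈ tw.Mbar) : v ^ su.m ∈ su.S1 := by
  obtain ⟨g, hg, rfl⟩ := hv
  refine ⟨g ^ su.m * tw.y, ⟨tw.pow1 g hg.1, d.Ov.mul_mem (d.Ov.pow_mem hg.2 _) tw.hy⟩, ?_⟩
  rw [d.res_mul' (d.Ov.pow_mem hg.2 _) tw.hy, d.res_pow' hg.2, tw.hy1, mul_one]

/-- the reduction of `Λ_y(a,0)` lies in `M̄ ∩ L̃(a)` -/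
theorem resBall_L_le (a : ℕ) :
    d.resBall (tw.L a 0) ≤ tw.Mbar ⊓ t2Lt (k := k) su.xb su.xib a := by
  rintro _ ⟨s, hs, rfl⟩
  obtain ⟨⟨h1, h2⟩, hsO⟩ := hs
  rw [pow_zero, one_mul] at h1
  refine ⟨⟨s, ⟨h1, hsO⟩, rfl⟩, tw.res_mem_R h1 hsO, ?_⟩
  have h3 := tw.res_mem_S2 h2 (d.Ov.mul_mem (d.Ov.pow_mem su.hxi _) hsO)
  rw [d.res_mul' (d.Ov.pow_mem su.hxi _) hsO, d.res_pow' su.hxi] at h3
  exact su.mem_S2_iff.mp h3

/-- the dimension comparison feeding the node lemma -/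
theorem finrank_le (a : ℕ) (h0 : su.a0 ≤ a) (he : su.e ≤ a) :
    Module.finrank k ↥(Subalgebra.toSubmodule su.S1 ⊓ t2Lt (k := k) su.xb su.xib a) ≤
      Module.finrank k ↥(tw.Mbar ⊓ t2Lt (k := k) su.xb su.xib a) := by
  haveI : FiniteDimensional k ↥(t2Lt (k := k) su.xb su.xib a) := su.finLt a
  haveI : FiniteDimensional k ↥(tw.Mbar ⊓ t2Lt (k := k) su.xb su.xib a) :=
    Submodule.finiteDimensional_of_le inf_le_right
  have h1 := Submodule.finrank_mono (su.S1_inf_Lt_le a)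
  have h2 := su.finrank_Lsing (a := a) (b := 0) (by omega) (by omega)
  have h3 := Submodule.finrank_mono (tw.resBall_L_le a)
  have h4 := d.finrank_resBall (tw.L a 0)
  have h5 := tw.dimgen a 0 (by omega)
  have h6 : (Module.finrank k ↥(Subalgebra.toSubmodule su.S1 ⊓ t2Lt (k := k) su.xb su.xib a) : ℤ) ≤
      (Module.finrank k ↥(tw.Mbar ⊓ t2Lt (k := k) su.xb su.xib a) : ℤ) := by
    have h1' : (Module.finrank k ↥(Subalgebra.toSubmodule su.S1 ⊓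
        t2Lt (k := k) su.xb su.xib a) : ℤ) ≤ (Module.finrank k ↥(su.Lsing a 0) : ℤ) := by
      exact_mod_cast h1
    have h3' : (Module.finrank k ↥(d.resBall (tw.L a 0)) : ℤ) ≤
        (Module.finrank k ↥(tw.Mbar ⊓ t2Lt (k := k) su.xb su.xib a) : ℤ) := by
      exact_mod_cast h3
    rw [h4] at h3'
    have h5' : ((a + 0 : ℕ) : ℤ) * su.n + su.c ≤ (Module.finrank K ↥(tw.L a 0) : ℤ) := h5
    linarith
  exact_mod_cast h6

/-- **Theorem B**: the functions vanishing at the singular points lie in `M̄`, and the multiplier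
ring of `M̄` in `R` is `S₁` -/
theorem mult [DecidableEq σ] :
    (∀ r : ↥(t2R (k := k) su.xb), su.ev r = 0 → (r : Fb) ∈ tw.Mbar) ∧
      ∀ r ∈ t2R (k := k) su.xb, (∀ v ∈ tw.Mbar, r * v ∈ tw.Mbar) → r ∈ su.S1 := by
  refine t2e_node (t2R (k := k) su.xb) su.ev su.S1 su.S1_le_R su.hJ tw.Mbar tw.Mbar_le_R
    (fun s hs v hv => tw.S1_mul_Mbar hs hv) su.m_pos (fun v hv => tw.pow_mem_S1 hv)
    (t2Lt (k := k) su.xb su.xib) (t2Lt_mono _ _) su.finLt ?_ (max su.a0 su.e) ?_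
  · intro r hr
    obtain ⟨a, ha⟩ := su.exb r hr
    exact ⟨a, hr, ha⟩
  · intro a ha
    exact tw.finrank_le a ((le_max_left _ _).trans ha) ((le_max_right _ _).trans ha)

end T2Twist

end Fermat.Agent.T2
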