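/-
T2-A (helper9): the two-component core.

`t2_core`: let `tw₁ tw₂ tw'` be twists (by Kummer functions `y₁, y₂, y' ≡ 1`) such that
`L1(tw') · L1(tw₂) ⊆ L1(tw₁)` (in the application `y' = y₁ / y₂`) and such that the gluing
invariants satisfy `M̄(tw₁) ⊆ M̄(tw₂)`.  Then the twisted sheaf of `tw'` has a global section
reducing to `1`.

Proof: by Theorem B (`T2Twist.mult`) the reduction of `L1(tw') ∩ 𝒪` multiplies `M̄(tw₂)` into
itself, hence lies in `S₁ = res B₁`; therefore `res Λ'(a,b) ⊆ L̄^sing(a,b)`, and the lattice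
machine (`T2Chart.t2_core_lattice`) applies with `Lbar := L̄^sing`.
-/
import Fermat.Agent.Lib.T2.Core.Mult

set_option autoImplicit false
set_option linter.style.haveILetI false

namespace Fermat.Agent.T2

open T1 (tbL tbLbar)

variable {K F k Fb : Type*} [Field K] [Field F] [Algebra K F] [Field k] [CommRing Fb] [Algebra k Fb]
variable {d : T2Base K F k Fb} {σ : Type*} [Fintype σ] {su : T2Setup d σ}

namespace T2Twist

/-- if `L1(tw') · L1(tw₂) ⊆ L1(tw₁)` and `M̄(tw₁) ⊆ M̄(tw₂)`, then `M̄(tw') ⊆ S₁` -/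
theorem Mbar_le_S1 [DecidableEq σ] (tw₁ tw₂ tw' : T2Twist su)
    (hmul : ∀ s ∈ tw'.L1, ∀ t ∈ tw₂.L1, s * t ∈ tw₁.L1) (hM : tw₁.Mbar ≤ tw₂.Mbar) :
    tw'.Mbar ≤ Subalgebra.toSubmodule su.S1 := by
  rintro _ ⟨s, hs, rfl⟩
  refine tw₂.mult.2 _ (tw'.res_mem_R hs.1 hs.2) ?_
  rintro _ ⟨t, ht, rfl⟩
  refine hM ⟨s * t, ⟨hmul s hs.1 t ht.1, d.Ov.mul_mem hs.2 ht.2⟩, ?_⟩
  exact d.res_mul' hs.2 ht.2

/-- the reduction of `Λ'(a,b)` lies in `L̄^sing(a,b)` as soon as `M̄(tw') ⊆ S₁` -/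
theorem resBall_L_le_Lsing (tw' : T2Twist su) (hS : tw'.Mbar ≤ Subalgebra.toSubmodule su.S1)
    (a b : ℕ) : d.resBall (tw'.L a b) ≤ su.Lsing a b := by
  rintro _ ⟨s, hs, rfl⟩
  obtain ⟨⟨h1, h2⟩, hsO⟩ := hs
  refine ⟨?_, ?_⟩
  · have h3 : d.res ⟨su.x ^ b * s, d.Ov.mul_mem (d.Ov.pow_mem su.hx _) hsO⟩ ∈ tw'.Mbar :=
      ⟨su.x ^ b * s, ⟨h1, d.Ov.mul_mem (d.Ov.pow_mem su.hx _) hsO⟩, rfl⟩
    have h4 := hS h3
    rw [d.res_mul' (d.Ov.pow_mem su.hx _) hsO, d.res_pow' su.hx] at h4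
    exact h4
  · have h3 := tw'.res_mem_S2 h2 (d.Ov.mul_mem (d.Ov.pow_mem su.hxi _) hsO)
    rw [d.res_mul' (d.Ov.pow_mem su.hxi _) hsO, d.res_pow' su.hxi] at h3
    exact h3

/-- the chart of the lattice machine attached to a twist with `M̄ ⊆ S₁` -/
def toChart (tw' : T2Twist su) (hS : tw'.Mbar ≤ Subalgebra.toSubmodule su.S1) : T2Chart d where
  ℓ := su.ℓ
  hℓ := su.hℓ
  hℓA := su.hℓA
  hℓ0 := su.hℓ0
  m := su.m
  hm := su.hm
  x := su.x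
  hx := su.hx
  hxi := su.hxi
  y := tw'.y
  hy := tw'.hy
  hy1 := tw'.hy1
  L1 := tw'.L1
  L2 := tw'.L2
  mul_mem1 := tw'.mul_mem1
  mul_mem2 := tw'.mul_mem2
  pow1 := tw'.pow1
  pow2 := tw'.pow2
  exists1 := tw'.exists1
  exists2 := tw'.exists2
  finL := tw'.finL
  Lbar := su.Lsing
  finLbar := su.finiteDimensional_Lsing
  Lbar_mono' := fun _ _ _ _ ha hb => su.Lsing_mono ha hb
  one_mem_Lbar := su.one_mem_Lsing
  Lbar_inf_le_left := su.Lsing_inf_le_left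
  Lbar_inf_le_right := su.Lsing_inf_le_right
  resBall_L_le' := tw'.resBall_L_le_Lsing hS
  n := su.n
  c := su.c
  a0 := max su.a0 su.e
  dimbar := fun a b hab =>
    su.finrank_Lsing ((le_max_left _ _).trans hab) (((le_max_right _ _).trans hab).trans (by omega))
  dimgen := fun a b hab => tw'.dimgen a b ((le_max_left _ _).trans hab)

/-- a twist whose gluing invariant lies in `S₁` has a global section reducing to `1` -/
theorem exists_section (tw' : T2Twist su) (hS : tw'.Mbar ≤ Subalgebra.toSubmodule su.S1) :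
    ∃ s : F, s ∈ tw'.L1 ∧ s ∈ tw'.L2 ∧ ∃ h : s ∈ d.Ov, d.res ⟨s, h⟩ = 1 :=
  (tw'.toChart hS).t2_core_lattice

end T2Twist

/-- **the two-component core**: if `L1(tw') · L1(tw₂) ⊆ L1(tw₁)` and the gluing invariants
satisfy `M̄(tw₁) ⊆ M̄(tw₂)`, then the twisted sheaf of `tw'` has a global section reducing to `1`. -/
theorem t2_core [DecidableEq σ] (tw₁ tw₂ tw' : T2Twist su)
    (hmul : ∀ s ∈ tw'.L1, ∀ t ∈ tw₂.L1, s * t ∈ tw₁.L1) (hM : tw₁.Mbar ≤ tw₂.Mbar) :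
    ∃ s : F, s ∈ tw'.L1 ∧ s ∈ tw'.L2 ∧ ∃ h : s ∈ d.Ov, d.res ⟨s, h⟩ = 1 :=
  tw'.exists_section (T2Twist.Mbar_le_S1 tw₁ tw₂ tw' hmul hM)

end Fermat.Agent.T2
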