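/-
T2-A3 (helper9): the node lemma — pure linear algebra over a field.

`Σ` a finite set, `T ⊆ k^Σ` a subspace containing `1`, `V ⊆ k^Σ` a `T`-stable subspace all of whose
elements have their `m`-th power in `T`.  Then `dim V ≤ dim T`, and if equality holds then the
multiplier ring `{r | r V ⊆ V}` is `T` (`t2e_block`).

`t2e_node`: `E` a commutative `k`-algebra, `R ⊆ E` a subalgebra with a surjection `ev : R → k^Σ`
whose kernel lies in the subalgebra `S ⊆ R` ("seminormality"); `M ⊆ R` an `S`-submodule with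
`m`-th powers in `S` and with `dim (S ∩ V_a) ≤ dim (M ∩ V_a)` along an exhaustion `V_a` of `R` by
finite-dimensional spaces.  Then `ker ev ⊆ M` and `{r ∈ R | r M ⊆ M} = S`.
-/
import Mathlib

set_option autoImplicit false
set_option linter.style.haveILetI false

namespace Fermat.Agent.T2

section Block

variable {k σ : Type*} [Field k]

/-- restriction of functions to a subset -/
def t2eRestr (k : Type*) [Field k] {σ : Type*} (s : Finset σ) : (σ → k) →ₗ[k] (↥s → k) where
  toFun f := fun i => f i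
  map_add' _ _ := rfl
  map_smul' _ _ := rfl

@[simp] theorem t2eRestr_apply (s : Finset σ) (f : σ → k) (i : ↥s) : t2eRestr k s f i = f i := rfl

variable [Fintype σ] [DecidableEq σ]

/-- every subspace of `k^Σ` has a "coordinate set": a subset `Σ₀` such that restriction to `Σ₀` is
bijective on the subspace -/
theorem t2e_exists_coord (T : Submodule k (σ → k)) :
    ∃ s : Finset σ, (∀ g : ↥s → k, ∃ t ∈ T, t2eRestr k s t = g) ∧
      ∀ t ∈ T, t2eRestr k s t = 0 → t = 0 := by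
  classical
  have hne : (Finset.univ.filter (fun s : Finset σ =>
      ∀ g : ↥s → k, ∃ t ∈ T, t2eRestr k s t = g)).Nonempty := by
    refine ⟨∅, ?_⟩
    rw [Finset.mem_filter]
    refine ⟨Finset.mem_univ _, fun g => ⟨0, T.zero_mem, ?_⟩⟩
    funext i
    exact absurd i.2 (Finset.notMem_empty _)
  obtain ⟨s, hs, hmax⟩ := Finset.exists_maximal hne
  rw [Finset.mem_filter] at hs
  refine ⟨s, hs.2, ?_⟩
  intro t ht h0
  by_contra hne0
  obtain ⟨P, hP⟩ : ∃ P, t P ≠ 0 := by
    by_contra hall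
    rw [not_exists] at hall
    exact hne0 (funext fun P => not_not.mp (hall P))
  have hPs : P ∉ s := by
    intro hPs
    have := congrFun h0 ⟨P, hPs⟩
    exact hP this
  have hbig : insert P s ∈ Finset.univ.filter (fun s : Finset σ =>
      ∀ g : ↥s → k, ∃ t ∈ T, t2eRestr k s t = g) := by
    rw [Finset.mem_filter]
    refine ⟨Finset.mem_univ _, fun g => ?_⟩
    obtain ⟨t₁, ht₁, hr₁⟩ := hs.2 (fun i => g ⟨i, Finset.mem_insert_of_mem i.2⟩)
    refine ⟨t₁ + ((g ⟨P, Finset.mem_insert_self P s⟩ - t₁ P) / t P) • t,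
      T.add_mem ht₁ (T.smul_mem _ ht), ?_⟩
    funext i
    rcases Finset.mem_insert.mp i.2 with hi | hi
    · have hiP : i = ⟨P, Finset.mem_insert_self P s⟩ := Subtype.ext hi
      rw [hiP]
      simp only [t2eRestr_apply, Pi.add_apply, Pi.smul_apply, smul_eq_mul]
      field_simp
      ring
    · have h1 : t i = 0 := congrFun h0 ⟨i, hi⟩
      have h2 : t₁ i = g i := congrFun hr₁ ⟨i, hi⟩
      simp only [t2eRestr_apply, Pi.add_apply, Pi.smul_apply, smul_eq_mul, h1, mul_zero, add_zero]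
      exact h2
  exact hPs (hmax hbig (Finset.subset_insert P s) (Finset.mem_insert_self P s))

/-- **the block lemma** -/
theorem t2e_block (T V : Submodule k (σ → k)) (h1 : (1 : σ → k) ∈ T)
    (hTV : ∀ t ∈ T, ∀ v ∈ V, t * v ∈ V) {m : ℕ} (hm : 0 < m) (hpow : ∀ v ∈ V, v ^ m ∈ T) :
    Module.finrank k ↥V ≤ Module.finrank k ↥T ∧
      (Module.finrank k ↥T ≤ Module.finrank k ↥V →
        ∀ r : σ → k, (∀ v ∈ V, r * v ∈ V) → r ∈ T) := by
  classical
  obtain ⟨s, hsurj, hinj⟩ := t2e_exists_coord T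
  -- restriction is injective on `V`
  have hinjV : ∀ v ∈ V, t2eRestr k s v = 0 → v = 0 := by
    intro v hv h0
    have h2 : t2eRestr k s (v ^ m) = 0 := by
      funext i
      have := congrFun h0 i
      simp only [t2eRestr_apply, Pi.zero_apply] at this
      simp only [t2eRestr_apply, Pi.pow_apply, Pi.zero_apply, this, zero_pow hm.ne']
    have h3 := hinj _ (hpow v hv) h2
    funext P
    have := congrFun h3 P
    simp only [Pi.pow_apply, Pi.zero_apply] at this
    exact pow_eq_zero_iff hm.ne' |>.mp this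
  -- the two dimension statements
  have hT : Module.finrank k ↥T = s.card := by
    have hbij : Function.Bijective ((t2eRestr k s).comp T.subtype) := by
      refine ⟨?_, ?_⟩
      · rw [← LinearMap.ker_eq_bot, LinearMap.ker_eq_bot']
        intro t ht
        exact Subtype.ext (hinj t t.2 ht)
      · intro g
        obtain ⟨t, ht, htg⟩ := hsurj g
        exact ⟨⟨t, ht⟩, htg⟩
    have e := LinearEquiv.ofBijective _ hbij
    rw [e.finrank_eq, Module.finrank_fintype_fun_eq_card, Fintype.card_coe]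
  have hV : Module.finrank k ↥V ≤ s.card := by
    have hinj' : Function.Injective ((t2eRestr k s).comp V.subtype) := by
      rw [← LinearMap.ker_eq_bot, LinearMap.ker_eq_bot']
      intro v hv
      exact Subtype.ext (hinjV v v.2 hv)
    have := LinearMap.finrank_le_finrank_of_injective hinj'
    rwa [Module.finrank_fintype_fun_eq_card, Fintype.card_coe] at this
  refine ⟨hT ▸ hV, ?_⟩
  intro hle r hr
  -- restriction is onto on `V`
  have hVs : Module.finrank k ↥V = s.card := le_antisymm hV (hT ▸ hle)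
  have hsurjV : Function.Surjective ((t2eRestr k s).comp V.subtype) := by
    have hinj' : Function.Injective ((t2eRestr k s).comp V.subtype) := by
      rw [← LinearMap.ker_eq_bot, LinearMap.ker_eq_bot']
      intro v hv
      exact Subtype.ext (hinjV v v.2 hv)
    refine (LinearMap.injective_iff_surjective_of_finrank_eq_finrank ?_).mp hinj'
    rw [hVs, Module.finrank_fintype_fun_eq_card, Fintype.card_coe]
  -- a nowhere vanishing element of `V`
  obtain ⟨v₀, hv₀⟩ := hsurjV (fun _ => 1)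
  have hv₀m : (v₀ : σ → k) ^ m = 1 := by
    have h2 : ((v₀ : σ → k) ^ m - 1) ∈ T := T.sub_mem (hpow _ v₀.2) h1
    have h3 : t2eRestr k s ((v₀ : σ → k) ^ m - 1) = 0 := by
      funext i
      have := congrFun hv₀ i
      simp only [LinearMap.coe_comp, Submodule.coe_subtype, Function.comp_apply,
        t2eRestr_apply] at this
      simp only [t2eRestr_apply, Pi.sub_apply, Pi.pow_apply, Pi.one_apply, Pi.zero_apply, this,
        one_pow, sub_self]
    exact sub_eq_zero.mp (hinj _ h2 h3)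
  have hv₀ne : ∀ P, (v₀ : σ → k) P ≠ 0 := by
    intro P h0
    have := congrFun hv₀m P
    simp only [Pi.pow_apply, Pi.one_apply, h0, zero_pow hm.ne'] at this
    exact zero_ne_one this
  -- `t ∈ T` with the same restriction as `r`
  obtain ⟨t, ht, htr⟩ := hsurj (t2eRestr k s r)
  have h4 : (r - t) * (v₀ : σ → k) = 0 := by
    have hmem : (r - t) * (v₀ : σ → k) ∈ V := by
      rw [sub_mul]
      exact V.sub_mem (hr _ v₀.2) (hTV t ht _ v₀.2)
    refine hinjV _ hmem ?_
    funext i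
    have := congrFun htr i
    simp only [t2eRestr_apply] at this
    simp only [t2eRestr_apply, Pi.mul_apply, Pi.sub_apply, Pi.zero_apply, this, sub_self, zero_mul]
  have h5 : r = t := by
    funext P
    have := congrFun h4 P
    simp only [Pi.mul_apply, Pi.sub_apply, Pi.zero_apply] at this
    exact sub_eq_zero.mp ((mul_eq_zero.mp this).resolve_right (hv₀ne P))
  rw [h5]
  exact ht

end Block

section Node

variable {k E σ : Type*} [Field k] [CommRing E] [Algebra k E]

/-- `ev` on a subspace of `R` -/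
def t2eEv (R : Subalgebra k E) (ev : ↥R →ₐ[k] (σ → k)) (X : Submodule k E)
    (hX : X ≤ Subalgebra.toSubmodule R) : ↥X →ₗ[k] (σ → k) :=
  ev.toLinearMap.comp (Submodule.inclusion hX)

theorem t2eEv_apply (R : Subalgebra k E) (ev : ↥R →ₐ[k] (σ → k)) (X : Submodule k E)
    (hX : X ≤ Subalgebra.toSubmodule R) (x : ↥X) :
    t2eEv R ev X hX x = ev ⟨(x : E), hX x.2⟩ := rfl

/-- the kernel of `ev`, as a subspace of `E` -/
def t2eKer (R : Subalgebra k E) (ev : ↥R →ₐ[k] (σ → k)) : Submodule k E :=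
  Submodule.map (Subalgebra.toSubmodule R).subtype (LinearMap.ker ev.toLinearMap)

theorem mem_t2eKer {R : Subalgebra k E} {ev : ↥R →ₐ[k] (σ → k)} {e : E} :
    e ∈ t2eKer R ev ↔ ∃ h : e ∈ R, ev ⟨e, h⟩ = 0 := by
  constructor
  · rintro ⟨r, hr, rfl⟩
    exact ⟨r.2, hr⟩
  · rintro ⟨h, h0⟩
    exact ⟨⟨e, h⟩, h0, rfl⟩

theorem t2e_ker_map (R : Subalgebra k E) (ev : ↥R →ₐ[k] (σ → k)) (X : Submodule k E)
    (hX : X ≤ Subalgebra.toSubmodule R) :
    (LinearMap.ker (t2eEv R ev X hX)).map X.subtype = X ⊓ t2eKer R ev := by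
  ext e
  constructor
  · rintro ⟨x, hx, rfl⟩
    exact ⟨x.2, mem_t2eKer.mpr ⟨hX x.2, hx⟩⟩
  · rintro ⟨hx, hk⟩
    obtain ⟨h, h0⟩ := mem_t2eKer.mp hk
    exact ⟨⟨e, hx⟩, h0, rfl⟩

/-- rank–nullity for `ev` on a finite-dimensional subspace of `R` -/
theorem t2e_finrank_eq (R : Subalgebra k E) (ev : ↥R →ₐ[k] (σ → k)) (X : Submodule k E)
    (hX : X ≤ Subalgebra.toSubmodule R) [FiniteDimensional k ↥X] :
    Module.finrank k ↥X = Module.finrank k ↥(LinearMap.range (t2eEv R ev X hX)) +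
      Module.finrank k ↥(X ⊓ t2eKer R ev) := by
  rw [← t2e_ker_map R ev X hX, Submodule.finrank_map_subtype_eq]
  exact (LinearMap.finrank_range_add_finrank_ker (t2eEv R ev X hX)).symm

variable [Fintype σ] [DecidableEq σ]

/-- **the node lemma** -/
theorem t2e_node (R : Subalgebra k E) (ev : ↥R →ₐ[k] (σ → k))
    (S : Subalgebra k E) (hSR : S ≤ R) (hJ : ∀ r : ↥R, ev r = 0 → (r : E) ∈ S)
    (M : Submodule k E) (hMR : M ≤ Subalgebra.toSubmodule R)
    (hSM : ∀ s ∈ S, ∀ v ∈ M, s * v ∈ M) {m : ℕ} (hm : 0 < m) (hpow : ∀ v ∈ M, v ^ m ∈ S)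
    (V : ℕ → Submodule k E) (hVmono : Monotone V) (hVfin : ∀ a, FiniteDimensional k ↥(V a))
    (hVex : ∀ r ∈ R, ∃ a, r ∈ V a) (a₁ : ℕ)
    (hdim : ∀ a, a₁ ≤ a → Module.finrank k ↥(Subalgebra.toSubmodule S ⊓ V a) ≤
      Module.finrank k ↥(M ⊓ V a)) :
    (∀ r : ↥R, ev r = 0 → (r : E) ∈ M) ∧ (∀ r ∈ R, (∀ v ∈ M, r * v ∈ M) → r ∈ S) := by
  classical
  have hSR' : Subalgebra.toSubmodule S ≤ Subalgebra.toSubmodule R := hSR
  -- the images in `k^Σ`
  set T : Submodule k (σ → k) := LinearMap.range (t2eEv R ev _ hSR') with hT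
  set W : Submodule k (σ → k) := LinearMap.range (t2eEv R ev M hMR) with hW
  have h1T : (1 : σ → k) ∈ T := ⟨⟨1, S.one_mem⟩, by
    rw [t2eEv_apply]
    exact map_one ev⟩
  have hTW : ∀ t ∈ T, ∀ w ∈ W, t * w ∈ W := by
    rintro _ ⟨s, rfl⟩ _ ⟨v, rfl⟩
    refine ⟨⟨(s : E) * (v : E), hSM _ s.2 _ v.2⟩, ?_⟩
    rw [t2eEv_apply, t2eEv_apply, t2eEv_apply, ← map_mul]
    rfl
  have hpowW : ∀ w ∈ W, w ^ m ∈ T := by
    rintro _ ⟨v, rfl⟩
    refine ⟨⟨(v : E) ^ m, hpow _ v.2⟩, ?_⟩
    rw [t2eEv_apply, t2eEv_apply, ← map_pow]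
    rfl
  obtain ⟨hle, hmult⟩ := t2e_block T W h1T hTW hm hpowW
  -- `T` is reached on a finite level
  obtain ⟨a₂, ha₂⟩ : ∃ a₂, ∀ a, a₂ ≤ a →
      T ≤ LinearMap.range (t2eEv R ev (Subalgebra.toSubmodule S ⊓ V a)
        (inf_le_left.trans hSR')) := by
    obtain ⟨G, hG⟩ := (IsNoetherian.noetherian T : T.FG)
    have hGT : ∀ g ∈ G, g ∈ T := fun g hg => hG ▸ Submodule.subset_span hg
    have hch : ∀ g : σ → k, ∃ a : ℕ, g ∈ G → ∃ s : E, ∃ hs : s ∈ S, s ∈ V a ∧
        ev ⟨s, hSR hs⟩ = g := by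
      intro g
      by_cases hg : g ∈ G
      · obtain ⟨s, hs⟩ := hGT g hg
        obtain ⟨a, ha⟩ := hVex (s : E) (hSR s.2)
        exact ⟨a, fun _ => ⟨s, s.2, ha, hs⟩⟩
      · exact ⟨0, fun h => absurd h hg⟩
    choose a ha using hch
    refine ⟨G.sup a, fun b hb => ?_⟩
    rw [← hG, Submodule.span_le]
    intro g hg
    obtain ⟨s, hs, hsV, hsg⟩ := ha g hg
    exact ⟨⟨s, hs, hVmono ((Finset.le_sup hg).trans hb) hsV⟩, hsg⟩
  -- the dimension count
  have hkey : ∀ a, a₁ ≤ a → a₂ ≤ a → V a ⊓ t2eKer R ev ≤ M ∧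
      Module.finrank k ↥T ≤ Module.finrank k ↥W := by
    intro a h1 h2
    haveI := hVfin a
    haveI : FiniteDimensional k ↥(Subalgebra.toSubmodule S ⊓ V a) :=
      Submodule.finiteDimensional_of_le inf_le_right
    haveI : FiniteDimensional k ↥(M ⊓ V a) := Submodule.finiteDimensional_of_le inf_le_right
    have e1 := t2e_finrank_eq R ev (Subalgebra.toSubmodule S ⊓ V a) (inf_le_left.trans hSR')
    have e2 := t2e_finrank_eq R ev (M ⊓ V a) (inf_le_left.trans hMR)
    have i1 : Module.finrank k ↥T ≤ Module.finrank k ↥(LinearMap.range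
        (t2eEv R ev (Subalgebra.toSubmodule S ⊓ V a) (inf_le_left.trans hSR'))) :=
      Submodule.finrank_mono (ha₂ a h2)
    have i2 : Module.finrank k ↥(LinearMap.range (t2eEv R ev (M ⊓ V a) (inf_le_left.trans hMR))) ≤
        Module.finrank k ↥W := by
      refine Submodule.finrank_mono ?_
      rintro _ ⟨v, rfl⟩
      exact ⟨⟨(v : E), v.2.1⟩, rfl⟩
    -- `J ∩ V_a ⊆ S ∩ V_a`
    have hJS : V a ⊓ t2eKer R ev ≤ Subalgebra.toSubmodule S ⊓ V a ⊓ t2eKer R ev := by
      intro e he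
      obtain ⟨h, h0⟩ := mem_t2eKer.mp he.2
      exact ⟨⟨hJ ⟨e, h⟩ h0, he.1⟩, he.2⟩
    have hJM : M ⊓ V a ⊓ t2eKer R ev ≤ V a ⊓ t2eKer R ev :=
      fun e he => ⟨he.1.2, he.2⟩
    haveI : FiniteDimensional k ↥(V a ⊓ t2eKer R ev) :=
      Submodule.finiteDimensional_of_le inf_le_left
    have i3 := Submodule.finrank_mono hJS
    have i4 := Submodule.finrank_mono hJM
    have i5 := hdim a h1
    have hAB : Module.finrank k ↥(V a ⊓ t2eKer R ev) ≤
        Module.finrank k ↥(M ⊓ V a ⊓ t2eKer R ev) := by omega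
    refine ⟨?_, by omega⟩
    have heq : M ⊓ V a ⊓ t2eKer R ev = V a ⊓ t2eKer R ev :=
      Submodule.eq_of_le_of_finrank_le hJM hAB
    intro e he
    have : e ∈ M ⊓ V a ⊓ t2eKer R ev := heq ▸ he
    exact this.1.1
  constructor
  · intro r hr
    obtain ⟨a, ha⟩ := hVex (r : E) r.2
    have h3 := (hkey (max a (max a₁ a₂)) ((le_max_left _ _).trans (le_max_right _ _))
      ((le_max_right _ _).trans (le_max_right _ _))).1
    exact h3 ⟨hVmono (le_max_left _ _) ha, mem_t2eKer.mpr ⟨r.2, hr⟩⟩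
  · intro r hrR hr
    have h4 := (hkey (max a₁ a₂) (le_max_left _ _) (le_max_right _ _)).2
    have h5 : ev ⟨r, hrR⟩ ∈ T := by
      refine hmult h4 _ ?_
      rintro _ ⟨v, rfl⟩
      refine ⟨⟨r * (v : E), hr _ v.2⟩, ?_⟩
      rw [t2eEv_apply, t2eEv_apply, ← map_mul]
      rfl
    obtain ⟨s, hs⟩ := h5
    rw [t2eEv_apply] at hs
    have h6 : ev (⟨r, hrR⟩ - ⟨(s : E), hSR s.2⟩) = 0 := by rw [map_sub, hs, sub_self]
    have h7 := hJ _ h6
    have h8 : r = (r - (s : E)) + (s : E) := by ring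
    rw [h8]
    exact S.add_mem h7 s.2

end Node

end Fermat.Agent.T2
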