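/-
T2-A (helper9): the setup of the two-component core and the spaces `L̄^sing(a,b)`.

`T2Setup d σ` bundles the chart-level hypotheses: the coordinate `x`, (Int) on both charts,
finiteness of `B₁` over `A[x]` (`T2Fin`), smoothness of the chart `x ≠ 0` (`sm2`), the node data
(`ev : R → k^σ` with kernel in `S₁ = res B₁`), and exact Riemann–Roch on the generic fibre.

`Lsing a b := {t | x̄ᵇ t ∈ res B₁ ∧ x̄⁻ᵃ t ∈ res B₂}`; by flatness (`t2f_flat`) it is the reduction of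
`Λ⁰(a,b)`, hence of dimension `(a+b) n + c` for `a + b` large.
-/
import Fermat.Agent.Lib.T2.Core.Flat
import Fermat.Agent.Lib.T2.Core.NodeE

set_option autoImplicit false
set_option linter.style.haveILetI false

namespace Fermat.Agent.T2

open T1 (tbL tbLbar)

variable {K F k Fb : Type*} [Field K] [Field F] [Algebra K F] [Field k] [CommRing Fb] [Algebra k Fb]

/-- the integral closure of `k[x̄]` in the residue ring, as a `k`-subalgebra -/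
def t2R (xb : Fb) : Subalgebra k Fb :=
  (integralClosure ↥(Algebra.adjoin k {xb}) Fb).restrictScalars k

theorem mem_t2R {xb t : Fb} : t ∈ t2R (k := k) xb ↔ IsIntegral ↥(Algebra.adjoin k {xb}) t :=
  Iff.rfl

/-- functions on the normalisation of the special fibre, regular on `x̄ ≠ ∞`, with poles of order
`≤ a` at `x̄ = ∞` -/
def t2Lt (xb xib : Fb) (a : ℕ) : Submodule k Fb where
  carrier := {t | IsIntegral ↥(Algebra.adjoin k {xb}) t ∧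
    IsIntegral ↥(Algebra.adjoin k {xib}) (xib ^ a * t)}
  zero_mem' := by simp [isIntegral_zero]
  add_mem' := by
    intro s t hs ht
    simp only [Set.mem_ofPred_eq, mul_add]
    exact ⟨hs.1.add ht.1, hs.2.add ht.2⟩
  smul_mem' := by
    intro c s hs
    simp only [Set.mem_ofPred_eq, mul_smul_comm]
    refine ⟨?_, ?_⟩
    · rw [Algebra.smul_def]
      exact (isIntegral_algebraMap (x := algebraMap k ↥(Algebra.adjoin k {xb}) c)).mul hs.1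
    · rw [Algebra.smul_def]
      exact (isIntegral_algebraMap (x := algebraMap k ↥(Algebra.adjoin k {xib}) c)).mul hs.2

theorem mem_t2Lt {xb xib : Fb} {a : ℕ} {t : Fb} : t ∈ t2Lt (k := k) xb xib a ↔
    IsIntegral ↥(Algebra.adjoin k {xb}) t ∧
      IsIntegral ↥(Algebra.adjoin k {xib}) (xib ^ a * t) := Iff.rfl

theorem t2_isIntegral_self (xb : Fb) : IsIntegral ↥(Algebra.adjoin k {xb}) xb :=
  isIntegral_algebraMap
    (x := (⟨xb, Algebra.self_mem_adjoin_singleton k xb⟩ : ↥(Algebra.adjoin k {xb})))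

theorem t2Lt_mono (xb xib : Fb) : Monotone (t2Lt (k := k) xb xib) := by
  intro a a' h t ht
  obtain ⟨c, rfl⟩ := Nat.exists_eq_add_of_le h
  refine ⟨ht.1, ?_⟩
  rw [pow_add, mul_comm (xib ^ a), mul_assoc]
  exact ((t2_isIntegral_self xib).pow c).mul ht.2

/-- the chart-level hypotheses of the two-component core -/
structure T2Setup (d : T2Base K F k Fb) (σ : Type*) [Fintype σ] where
  /-- the residue characteristic -/
  ℓ : ℕ
  hℓ : ℓ.Prime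
  hℓA : ((ℓ : ℕ) : K) ∈ d.A.nonunits
  hℓ0 : ((ℓ : ℕ) : K) ≠ 0
  /-- the exponent -/
  m : ℕ
  hm : Nat.Coprime m ℓ
  /-- the coordinate function -/
  x : F
  hx0 : x ≠ 0
  hx : x ∈ d.Ov
  hxi : x⁻¹ ∈ d.Ov
  int1 : ∀ (f : F) (hf : f ∈ d.Ov), f ∈ t2Int (K := K) x →
    IsIntegral ↥(Algebra.adjoin k {d.res ⟨x, hx⟩}) (d.res ⟨f, hf⟩)
  int2 : ∀ (f : F) (hf : f ∈ d.Ov), f ∈ t2Int (K := K) x⁻¹ →
    IsIntegral ↥(Algebra.adjoin k {d.res ⟨x⁻¹, hxi⟩}) (d.res ⟨f, hf⟩)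
  /-- the pole bound of the generators of `B₁` -/
  e : ℕ
  fin1 : T2Fin d x e
  ex2 : ∀ f : F, f ∈ t2Int (K := K) x⁻¹ → ∃ n : ℕ, x ^ n * f ∈ t2Int (K := K) x
  /-- the chart `x ≠ 0` of the special fibre is normal -/
  sm2 : ∀ t : Fb, IsIntegral ↥(Algebra.adjoin k {d.res ⟨x⁻¹, hxi⟩}) t →
    t ∈ d.resBall (t2Int x⁻¹)
  exb : ∀ t : Fb, IsIntegral ↥(Algebra.adjoin k {d.res ⟨x, hx⟩}) t →
    ∃ a : ℕ, IsIntegral ↥(Algebra.adjoin k {d.res ⟨x⁻¹, hxi⟩}) (d.res ⟨x⁻¹, hxi⟩ ^ a * t)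
  finLt : ∀ a : ℕ, FiniteDimensional k ↥(t2Lt (k := k) (d.res ⟨x, hx⟩) (d.res ⟨x⁻¹, hxi⟩) a)
  /-- evaluation at the (possibly) singular points -/
  ev : ↥(t2R (k := k) (d.res ⟨x, hx⟩)) →ₐ[k] (σ → k)
  /-- seminormality: functions vanishing at the singular points come from the model -/
  hJ : ∀ r : ↥(t2R (k := k) (d.res ⟨x, hx⟩)), ev r = 0 → (r : Fb) ∈ d.resBall (t2Int x)
  /-- the degree of `x` -/
  n : ℕ
  /-- `1 - g` -/
  c : ℤ
  /-- the bound beyond which Riemann–Roch is an equality -/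
  a0 : ℕ
  finL0 : ∀ a b : ℕ, FiniteDimensional K ↥(tbLbar (K := K) x a b)
  dim0 : ∀ a b : ℕ, a0 ≤ a + b →
    (Module.finrank K ↥(tbLbar (K := K) x a b) : ℤ) = ((a + b : ℕ) : ℤ) * n + c

namespace T2Setup

variable {d : T2Base K F k Fb} {σ : Type*} [Fintype σ] (su : T2Setup d σ)

/-- `x̄` -/
def xb : Fb := d.res ⟨su.x, su.hx⟩

/-- `x̄⁻¹` -/
def xib : Fb := d.res ⟨su.x⁻¹, su.hxi⟩

theorem xib_mul_xb : su.xib * su.xb = 1 := t2f_res_inv_mul d su.hx0 su.hx su.hxi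

theorem xb_mul_xib : su.xb * su.xib = 1 := t2f_res_mul_inv d su.hx0 su.hx su.hxi

instance (a b : ℕ) : FiniteDimensional K ↥(tbLbar (K := K) su.x a b) := su.finL0 a b

/-- `S₁ = res B₁` -/
def S1 : Subalgebra k Fb where
  carrier := d.resBall (t2Int su.x)
  zero_mem' := (d.resBall (t2Int su.x)).zero_mem
  add_mem' := fun h1 h2 => (d.resBall (t2Int su.x)).add_mem h1 h2
  one_mem' := ⟨1, ⟨isIntegral_one, d.Ov.one_mem⟩, d.res_one' _⟩
  mul_mem' := by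
    rintro _ _ ⟨f, hf, rfl⟩ ⟨g, hg, rfl⟩
    exact ⟨f * g, ⟨t2Int_mul hf.1 hg.1, d.Ov.mul_mem hf.2 hg.2⟩, d.res_mul' hf.2 hg.2⟩
  algebraMap_mem' := by
    intro c
    have h1 : (1 : Fb) ∈ d.resBall (t2Int su.x) := ⟨1, ⟨isIntegral_one, d.Ov.one_mem⟩, d.res_one' _⟩
    have := (d.resBall (t2Int su.x)).smul_mem c h1
    rwa [Algebra.smul_def, mul_one] at this

theorem mem_S1 {t : Fb} : t ∈ su.S1 ↔ t ∈ d.resBall (t2Int su.x) := Iff.rfl

theorem S1_toSubmodule : Subalgebra.toSubmodule su.S1 = d.resBall (t2Int su.x) := rfl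

theorem xb_mem_S1 : su.xb ∈ su.S1 := ⟨su.x, ⟨t2Int_self su.x, su.hx⟩, rfl⟩

theorem S1_le_R : su.S1 ≤ t2R (k := k) su.xb := by
  rintro _ ⟨f, hf, rfl⟩
  exact su.int1 f hf.2 hf.1

/-- `S₂ = res B₂` is the integral closure of `k[x̄⁻¹]` -/
theorem mem_S2_iff {t : Fb} : t ∈ d.resBall (t2Int su.x⁻¹) ↔
    IsIntegral ↥(Algebra.adjoin k {su.xib}) t := by
  constructor
  · rintro ⟨f, hf, rfl⟩
    exact su.int2 f hf.2 hf.1
  · exact su.sm2 t

/-- functions on the special fibre: `x̄ᵇ t ∈ res B₁`, `x̄⁻ᵃ t ∈ res B₂` -/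
def Lsing (a b : ℕ) : Submodule k Fb where
  carrier := {t | su.xb ^ b * t ∈ d.resBall (t2Int su.x) ∧
    su.xib ^ a * t ∈ d.resBall (t2Int su.x⁻¹)}
  zero_mem' := by
    simp only [Set.mem_ofPred_eq, mul_zero]
    exact ⟨Submodule.zero_mem _, Submodule.zero_mem _⟩
  add_mem' := by
    intro s t hs ht
    simp only [Set.mem_ofPred_eq, mul_add]
    exact ⟨Submodule.add_mem _ hs.1 ht.1, Submodule.add_mem _ hs.2 ht.2⟩
  smul_mem' := by
    intro c s hs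
    simp only [Set.mem_ofPred_eq, mul_smul_comm]
    exact ⟨Submodule.smul_mem _ c hs.1, Submodule.smul_mem _ c hs.2⟩

theorem mem_Lsing {a b : ℕ} {t : Fb} : t ∈ su.Lsing a b ↔
    su.xb ^ b * t ∈ d.resBall (t2Int su.x) ∧ su.xib ^ a * t ∈ d.resBall (t2Int su.x⁻¹) := Iff.rfl

theorem xib_mem_S2 : su.xib ∈ d.resBall (t2Int su.x⁻¹) :=
  ⟨su.x⁻¹, ⟨t2Int_self su.x⁻¹, su.hxi⟩, rfl⟩

theorem S2_mul {s t : Fb} (hs : s ∈ d.resBall (t2Int su.x⁻¹)) (ht : t ∈ d.resBall (t2Int su.x⁻¹)) :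
    s * t ∈ d.resBall (t2Int su.x⁻¹) := by
  obtain ⟨f, hf, rfl⟩ := hs
  obtain ⟨g, hg, rfl⟩ := ht
  exact ⟨f * g, ⟨t2Int_mul hf.1 hg.1, d.Ov.mul_mem hf.2 hg.2⟩, d.res_mul' hf.2 hg.2⟩

theorem Lsing_mono {a a' b b' : ℕ} (ha : a ≤ a') (hb : b ≤ b') :
    su.Lsing a b ≤ su.Lsing a' b' := by
  intro t ht
  obtain ⟨a'', rfl⟩ := Nat.exists_eq_add_of_le ha
  obtain ⟨b'', rfl⟩ := Nat.exists_eq_add_of_le hb
  refine ⟨?_, ?_⟩
  · rw [pow_add, mul_comm (su.xb ^ b), mul_assoc]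
    exact su.S1.mul_mem (su.S1.pow_mem su.xb_mem_S1 _) ht.1
  · rw [pow_add, mul_comm (su.xib ^ a), mul_assoc]
    have h1 : su.xib ^ a'' ∈ d.resBall (t2Int su.x⁻¹) :=
      ⟨su.x⁻¹ ^ a'', ⟨t2Int_pow_self _ _, d.Ov.pow_mem su.hxi _⟩, d.res_pow' su.hxi _⟩
    exact su.S2_mul h1 ht.2

theorem one_mem_Lsing (a b : ℕ) : (1 : Fb) ∈ su.Lsing a b := by
  refine ⟨?_, ?_⟩
  · rw [mul_one]
    exact su.S1.pow_mem su.xb_mem_S1 _
  · rw [mul_one]
    exact ⟨su.x⁻¹ ^ a, ⟨t2Int_pow_self _ _, d.Ov.pow_mem su.hxi _⟩, d.res_pow' su.hxi _⟩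

theorem Lsing_inf_le_left (a a' b : ℕ) : su.Lsing a b ⊓ su.Lsing a' 0 ≤ su.Lsing a 0 :=
  fun _ ht => ⟨ht.2.1, ht.1.2⟩

theorem Lsing_inf_le_right (a b b' : ℕ) : su.Lsing a b ⊓ su.Lsing 0 b' ≤ su.Lsing 0 b :=
  fun _ ht => ⟨ht.1.1, ht.2.2⟩

/-- the reduction of `Λ⁰(a,b)` lies in `L̄^sing(a,b)` -/
theorem resBall_le_Lsing (a b : ℕ) : d.resBall (tbLbar (K := K) su.x a b) ≤ su.Lsing a b := by
  rintro _ ⟨s, hs, rfl⟩
  obtain ⟨⟨h1, h2⟩, hsO⟩ := hs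
  refine ⟨?_, ?_⟩
  · refine ⟨su.x ^ b * s, ⟨h1, d.Ov.mul_mem (d.Ov.pow_mem su.hx _) hsO⟩, ?_⟩
    rw [d.res_mul' (d.Ov.pow_mem su.hx _) hsO, d.res_pow' su.hx]
    rfl
  · refine ⟨su.x⁻¹ ^ a * s, ⟨h2, d.Ov.mul_mem (d.Ov.pow_mem su.hxi _) hsO⟩, ?_⟩
    rw [d.res_mul' (d.Ov.pow_mem su.hxi _) hsO, d.res_pow' su.hxi]
    rfl

/-- **flatness** -/
theorem resBall_eq_Lsing {a b : ℕ} (hab : su.e ≤ a + b + 1) :
    d.resBall (tbLbar (K := K) su.x a b) = su.Lsing a b :=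
  le_antisymm (su.resBall_le_Lsing a b) (fun _ ht =>
    t2f_flat d su.hx0 su.hx su.hxi su.fin1 hab su.ex2 ht.1 ht.2)

instance finiteDimensional_Lsing (a b : ℕ) : FiniteDimensional k ↥(su.Lsing a b) := by
  have h1 : su.Lsing a b ≤ su.Lsing (a + su.e) b := su.Lsing_mono (by omega) le_rfl
  rw [← su.resBall_eq_Lsing (a := a + su.e) (b := b) (by omega)] at h1
  haveI := d.finiteDimensional_resBall (tbLbar (K := K) su.x (a + su.e) b)
  exact Submodule.finiteDimensional_of_le h1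

theorem finrank_Lsing {a b : ℕ} (h0 : su.a0 ≤ a + b) (he : su.e ≤ a + b + 1) :
    (Module.finrank k ↥(su.Lsing a b) : ℤ) = ((a + b : ℕ) : ℤ) * su.n + su.c := by
  rw [← su.resBall_eq_Lsing he, d.finrank_resBall]
  exact su.dim0 a b h0

end T2Setup

end Fermat.Agent.T2
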