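/-
T2-A3 (helper5): the NODE LEMMA — pure linear algebra over a field `k`.

* subalgebras of `ι → k` are the functions constant on the blocks of a partition
  (`t2n_mem_of_const`);
* a subspace `N ⊆ ι → k` all of whose `m`-th powers lie in a subalgebra `A` has
  `finrank N ≤ finrank A` (`t2n_finrank_le`), and if it is `A`-stable of the same dimension,
  its multiplier ring is `A` (`t2n_mult_mem_core`);
* `t2n_node`: the statement of the T2 brief §2 (A3);
* `t2n_codim_of_exhaustion`, `t2n_codim_le_of_exhaustion`: codimension from an exhaustion.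
-/
import Mathlib

namespace Fermat.Agent.T2

open Module

section core

variable {k : Type*} [Field k] {ι : Type*}

/-- the block relation on `ι` cut out by a subalgebra `A` of `ι → k`. -/
def t2nSetoid (A : Subalgebra k (ι → k)) : Setoid ι where
  r i j := ∀ a ∈ A, a i = a j
  iseqv := ⟨fun _ _ _ => rfl, fun h a ha => (h a ha).symm,
    fun h₁ h₂ a ha => (h₁ a ha).trans (h₂ a ha)⟩

theorem t2nSetoid_r (A : Subalgebra k (ι → k)) (i j : ι) :
    (t2nSetoid A).r i j ↔ ∀ a ∈ A, a i = a j := Iff.rfl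

theorem t2n_exists_sep (A : Subalgebra k (ι → k)) {i j : ι} (h : ¬ (t2nSetoid A).r i j) :
    ∃ e ∈ A, e i = 1 ∧ e j = 0 := by
  rw [t2nSetoid_r] at h
  push Not at h
  obtain ⟨a, ha, hne⟩ := h
  have hne' : a i - a j ≠ 0 := sub_ne_zero.2 hne
  refine ⟨(a i - a j)⁻¹ • (a - algebraMap k (ι → k) (a j)),
    A.smul_mem (A.sub_mem ha (A.algebraMap_mem _)) _, ?_, ?_⟩
  · simp only [Pi.smul_apply, Pi.sub_apply, Pi.algebraMap_apply, Algebra.algebraMap_self,
      RingHom.id_apply, smul_eq_mul]
    exact inv_mul_cancel₀ hne'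
  · simp

variable [Fintype ι]

theorem t2n_exists_indicator (A : Subalgebra k (ι → k)) (i : ι) :
    ∃ e ∈ A, e i = 1 ∧ ∀ j, ¬ (t2nSetoid A).r i j → e j = 0 := by
  classical
  choose! f hfA hfi hfj using fun j (h : ¬ (t2nSetoid A).r i j) => t2n_exists_sep A h
  refine ⟨∏ j ∈ Finset.univ.filter (fun j => ¬ (t2nSetoid A).r i j), f j,
    Subalgebra.prod_mem _ (fun j hj => hfA j (Finset.mem_filter.1 hj).2), ?_, ?_⟩
  · rw [Finset.prod_apply]
    exact Finset.prod_eq_one (fun j hj => hfi j (Finset.mem_filter.1 hj).2)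
  · intro j hj
    rw [Finset.prod_apply]
    exact Finset.prod_eq_zero (Finset.mem_filter.2 ⟨Finset.mem_univ _, hj⟩) (hfj j hj)

/-- **subalgebras of `ι → k`**: a function constant on the blocks of `A` lies in `A`. -/
theorem t2n_mem_of_const (A : Subalgebra k (ι → k)) (f : ι → k)
    (hf : ∀ i j, (t2nSetoid A).r i j → f i = f j) : f ∈ A := by
  classical
  choose e heA hei hej using t2n_exists_indicator A
  have h1 : ∀ i j, (t2nSetoid A).r i j → e i j = 1 := fun i j h =>
    (h (e i) (heA i)).symm.trans (hei i)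
  have : Fintype (Quotient (t2nSetoid A)) := Fintype.ofFinite _
  have hsum : f = ∑ q : Quotient (t2nSetoid A), f q.out • e q.out := by
    funext j
    rw [Finset.sum_apply, Finset.sum_eq_single (Quotient.mk (t2nSetoid A) j)]
    · have hrel : (t2nSetoid A).r (Quotient.mk (t2nSetoid A) j).out j := Quotient.mk_out j
      simp [h1 _ _ hrel, hf _ _ hrel]
    · intro q _ hq
      have hne : ¬ (t2nSetoid A).r q.out j := fun h => hq (by
        rw [← Quotient.out_eq q]; exact Quotient.sound h)
      simp [hej _ _ hne]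
    · simp
  rw [hsum]
  exact Subalgebra.sum_mem _ (fun q _ => A.smul_mem (heA _) _)

/-- restriction to a system of representatives of the blocks. -/
noncomputable def t2nOut (A : Subalgebra k (ι → k)) :
    (ι → k) →ₗ[k] (Quotient (t2nSetoid A) → k) :=
  LinearMap.funLeft k k (Quotient.out : Quotient (t2nSetoid A) → ι)

omit [Fintype ι] in
theorem t2nOut_apply (A : Subalgebra k (ι → k)) (f : ι → k) (q : Quotient (t2nSetoid A)) :
    t2nOut A f q = f q.out := rfl

omit [Fintype ι] in
theorem t2n_out_rel (A : Subalgebra k (ι → k)) (j : ι) :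
    (t2nSetoid A).r (Quotient.mk (t2nSetoid A) j).out j := Quotient.mk_out j

omit [Fintype ι] in
/-- elements of `A` are determined by their values on the representatives. -/
theorem t2nOut_injOn_alg (A : Subalgebra k (ι → k)) {a : ι → k} (ha : a ∈ A)
    (h : t2nOut A a = 0) : a = 0 := by
  funext j
  have := t2n_out_rel A j a ha
  rw [← this]
  exact congrFun h _

/-- every function on the blocks comes from `A`. -/
theorem t2nOut_surj_alg (A : Subalgebra k (ι → k)) (g : Quotient (t2nSetoid A) → k) :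
    ∃ a ∈ A, t2nOut A a = g := by
  refine ⟨fun i => g (Quotient.mk (t2nSetoid A) i), t2n_mem_of_const A _ ?_, ?_⟩
  · intro i j h
    have : Quotient.mk (t2nSetoid A) i = Quotient.mk (t2nSetoid A) j := Quotient.sound h
    simp only [this]
  · funext q
    simp only [t2nOut_apply, Quotient.out_eq]

theorem t2n_finrank_alg (A : Subalgebra k (ι → k)) :
    finrank k A.toSubmodule = finrank k (Quotient (t2nSetoid A) → k) := by
  have hinj : Function.Injective ((t2nOut A).domRestrict A.toSubmodule) := by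
    rw [← LinearMap.ker_eq_bot, LinearMap.ker_eq_bot']
    intro a ha
    exact Subtype.ext (t2nOut_injOn_alg A a.2 ha)
  have hsurj : Function.Surjective ((t2nOut A).domRestrict A.toSubmodule) := by
    intro g
    obtain ⟨a, ha, hg⟩ := t2nOut_surj_alg A g
    exact ⟨⟨a, ha⟩, hg⟩
  exact (LinearEquiv.ofBijective _ ⟨hinj, hsurj⟩).finrank_eq

section powers

variable (A : Subalgebra k (ι → k)) (N : Submodule k (ι → k)) {m : ℕ} (hm : 0 < m)
  (hpow : ∀ v ∈ N, v ^ m ∈ A)

include hpow

omit [Fintype ι] in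
/-- the `m`-th power argument: the values of `v ∈ N` on a block vanish together. -/
theorem t2n_pow_out {v : ι → k} (hv : v ∈ N) (j : ι) :
    v j ^ m = v (Quotient.mk (t2nSetoid A) j).out ^ m := by
  have := t2n_out_rel A j (v ^ m) (hpow v hv)
  simpa using this.symm

include hm

omit [Fintype ι] in
theorem t2nOut_injOn_pow {v : ι → k} (hv : v ∈ N) (h : t2nOut A v = 0) : v = 0 := by
  funext j
  have h1 := t2n_pow_out A N hpow hv j
  have h2 : v (Quotient.mk (t2nSetoid A) j).out = 0 := congrFun h _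
  rw [h2, zero_pow hm.ne'] at h1
  exact pow_eq_zero_iff hm.ne' |>.1 h1

omit [Fintype ι] in
theorem t2nOut_inj_pow : Function.Injective ((t2nOut A).domRestrict N) := by
  rw [← LinearMap.ker_eq_bot, LinearMap.ker_eq_bot']
  intro v hv
  exact Subtype.ext (t2nOut_injOn_pow A N hm hpow v.2 hv)

/-- **dimension bound**: a subspace whose `m`-th powers lie in `A` has dimension at most
the number of blocks of `A`. -/
theorem t2n_finrank_le : finrank k N ≤ finrank k A.toSubmodule := by
  rw [t2n_finrank_alg A]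
  exact LinearMap.finrank_le_finrank_of_injective (t2nOut_inj_pow A N hm hpow)

/-- in the extremal case the restriction to representatives is onto. -/
theorem t2nOut_surj_pow (hle : finrank k A.toSubmodule ≤ finrank k N)
    (g : Quotient (t2nSetoid A) → k) : ∃ v ∈ N, t2nOut A v = g := by
  have heq : finrank k N = finrank k (Quotient (t2nSetoid A) → k) := by
    rw [← t2n_finrank_alg A]
    exact le_antisymm (t2n_finrank_le A N hm hpow) hle
  have hsurj : Function.Surjective ((t2nOut A).domRestrict N) :=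
    (LinearMap.injective_iff_surjective_of_finrank_eq_finrank heq).1
      (t2nOut_inj_pow A N hm hpow)
  obtain ⟨v, hv⟩ := hsurj g
  exact ⟨v.1, v.2, hv⟩

/-- in the extremal case `N` has, for every block, a generator supported exactly on it
with all coordinates on the block nonzero (`m`-th roots of unity times a constant). -/
theorem t2n_exists_block_gen (hle : finrank k A.toSubmodule ≤ finrank k N)
    (q : Quotient (t2nSetoid A)) :
    ∃ v ∈ N, (∀ j, Quotient.mk (t2nSetoid A) j = q → v j ^ m = 1) ∧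
      (∀ j, Quotient.mk (t2nSetoid A) j ≠ q → v j = 0) := by
  classical
  obtain ⟨v, hv, hvq⟩ := t2nOut_surj_pow A N hm hpow hle (Pi.single q 1)
  have hvq' : ∀ q', v q'.out = (Pi.single q 1 : Quotient (t2nSetoid A) → k) q' :=
    fun q' => congrFun hvq q'
  refine ⟨v, hv, ?_, ?_⟩
  · intro j hj
    rw [t2n_pow_out A N hpow hv j, hj, hvq']
    simp
  · intro j hj
    have h1 := t2n_pow_out A N hpow hv j
    rw [hvq', Pi.single_eq_of_ne hj, zero_pow hm.ne'] at h1
    exact pow_eq_zero_iff hm.ne' |>.1 h1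

/-- **multiplier ring**: in the extremal case, every multiplier of `N` lies in `A`. -/
theorem t2n_mult_mem_core (hle : finrank k A.toSubmodule ≤ finrank k N) (r : ι → k)
    (hr : ∀ v ∈ N, r * v ∈ N) : r ∈ A := by
  classical
  have key : ∀ i, r i = r (Quotient.mk (t2nSetoid A) i).out := by
    intro i
    set q := Quotient.mk (t2nSetoid A) i with hq
    obtain ⟨v, hv, hv1, hv0⟩ := t2n_exists_block_gen A N hm hpow hle q
    -- `r * v - r q.out • v ∈ N` vanishes on all representatives
    have hmem : r * v - r q.out • v ∈ N := N.sub_mem (hr v hv) (N.smul_mem _ hv)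
    have hzero : r * v - r q.out • v = 0 := by
      refine t2nOut_injOn_pow A N hm hpow hmem ?_
      funext q'
      by_cases hqq : q' = q
      · subst hqq
        simp [t2nOut_apply]
      · have : v q'.out = 0 := hv0 _ (by rw [Quotient.out_eq]; exact hqq)
        simp [t2nOut_apply, this]
    have hvi : v i ≠ 0 := by
      intro h0
      have := hv1 i rfl
      rw [h0, zero_pow hm.ne'] at this
      exact zero_ne_one this
    have := congrFun hzero i
    simp only [Pi.sub_apply, Pi.mul_apply, Pi.smul_apply, smul_eq_mul, Pi.zero_apply,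
      sub_eq_zero] at this
    exact mul_right_cancel₀ hvi this
  refine t2n_mem_of_const A r ?_
  intro i j h
  have : Quotient.mk (t2nSetoid A) i = Quotient.mk (t2nSetoid A) j := Quotient.sound h
  rw [key i, key j, this]

end powers

end core

section quot

variable {k : Type*} [Field k] {R V : Type*} [AddCommGroup R] [Module k R] [AddCommGroup V]
  [Module k V]

/-- the map `R ⧸ P → V ⧸ f(P)` induced by `f`. -/
noncomputable def t2nMapQ (f : R →ₗ[k] V) (P : Submodule k R) : (R ⧸ P) →ₗ[k] (V ⧸ P.map f) :=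
  P.mapQ (P.map f) f (Submodule.le_comap_map f P)

theorem t2nMapQ_mk (f : R →ₗ[k] V) (P : Submodule k R) (r : R) :
    t2nMapQ f P (Submodule.Quotient.mk r) = Submodule.Quotient.mk (f r) := rfl

theorem t2nMapQ_surj (f : R →ₗ[k] V) (hf : Function.Surjective f) (P : Submodule k R) :
    Function.Surjective (t2nMapQ f P) := by
  intro y
  obtain ⟨v, rfl⟩ := Submodule.Quotient.mk_surjective _ y
  obtain ⟨r, rfl⟩ := hf v
  exact ⟨Submodule.Quotient.mk r, rfl⟩

theorem t2nMapQ_inj_iff (f : R →ₗ[k] V) (P : Submodule k R) :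
    Function.Injective (t2nMapQ f P) ↔ LinearMap.ker f ≤ P := by
  constructor
  · intro h r hr
    have : t2nMapQ f P (Submodule.Quotient.mk r) = t2nMapQ f P 0 := by
      rw [t2nMapQ_mk, map_zero, LinearMap.mem_ker.1 hr, Submodule.Quotient.mk_zero]
    have := h this
    exact (Submodule.Quotient.mk_eq_zero P).1 this
  · intro h
    rw [← LinearMap.ker_eq_bot, LinearMap.ker_eq_bot']
    intro x hx
    obtain ⟨r, rfl⟩ := Submodule.Quotient.mk_surjective _ x
    rw [t2nMapQ_mk, Submodule.Quotient.mk_eq_zero] at hx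
    obtain ⟨p, hp, hpr⟩ := hx
    have : r - p ∈ P := h (by rw [LinearMap.mem_ker, map_sub, hpr, sub_self])
    have : r ∈ P := by simpa using P.add_mem this hp
    exact (Submodule.Quotient.mk_eq_zero P).2 this

theorem t2n_finrank_map_le (f : R →ₗ[k] V) (hf : Function.Surjective f) (P : Submodule k R)
    [FiniteDimensional k (R ⧸ P)] : finrank k (V ⧸ P.map f) ≤ finrank k (R ⧸ P) :=
  LinearMap.finrank_le_finrank_of_surjective (t2nMapQ_surj f hf P)

theorem t2n_finiteDimensional_map (f : R →ₗ[k] V) (hf : Function.Surjective f)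
    (P : Submodule k R) [FiniteDimensional k (R ⧸ P)] : FiniteDimensional k (V ⧸ P.map f) :=
  Module.Finite.of_surjective (t2nMapQ f P) (t2nMapQ_surj f hf P)

theorem t2n_finrank_map_eq (f : R →ₗ[k] V) (hf : Function.Surjective f) (P : Submodule k R)
    (hker : LinearMap.ker f ≤ P) : finrank k (V ⧸ P.map f) = finrank k (R ⧸ P) :=
  (LinearEquiv.ofBijective (t2nMapQ f P)
    ⟨(t2nMapQ_inj_iff f P).2 hker, t2nMapQ_surj f hf P⟩).finrank_eq.symm

theorem t2n_ker_le_of_finrank (f : R →ₗ[k] V) (hf : Function.Surjective f) (P : Submodule k R)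
    [FiniteDimensional k (R ⧸ P)] (h : finrank k (R ⧸ P) ≤ finrank k (V ⧸ P.map f)) :
    LinearMap.ker f ≤ P := by
  have := t2n_finiteDimensional_map f hf P
  have heq : finrank k (R ⧸ P) = finrank k (V ⧸ P.map f) :=
    le_antisymm h (t2n_finrank_map_le f hf P)
  exact (t2nMapQ_inj_iff f P).1
    ((LinearMap.injective_iff_surjective_of_finrank_eq_finrank heq).2 (t2nMapQ_surj f hf P))

end quot

section node

variable {k : Type*} [Field k] {R : Type*} [CommRing R] [Algebra k R] {ι : Type*} [Fintype ι]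
  (ev : R →ₐ[k] (ι → k)) (S : Subalgebra k R)

section basic

variable (hJ : ∀ r, ev r = 0 → r ∈ S)

include hJ

omit [Fintype ι] in
theorem t2n_mem_S_iff (r : R) : r ∈ S ↔ ev r ∈ S.map ev := by
  constructor
  · intro h
    exact ⟨r, h, rfl⟩
  · rintro ⟨s, hs, hsr⟩
    have hsr' : ev s = ev r := hsr
    have h1 : r - s ∈ S := hJ _ (by rw [map_sub, hsr', sub_self])
    have h2 := S.add_mem h1 hs
    rwa [sub_add_cancel] at h2

omit [Fintype ι] in
theorem t2n_ker_le_S : LinearMap.ker ev.toLinearMap ≤ S.toSubmodule := fun r hr =>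
  hJ r (LinearMap.mem_ker.1 hr)

end basic

variable (M : Submodule k R)

omit [Fintype ι] in
theorem t2n_map_stable (hSM : ∀ s ∈ S, ∀ v ∈ M, s * v ∈ M) :
    ∀ a ∈ S.map ev, ∀ v ∈ M.map ev.toLinearMap, a * v ∈ M.map ev.toLinearMap := by
  rintro _ ⟨s, hs, rfl⟩ _ ⟨v, hv, rfl⟩
  exact ⟨s * v, hSM s hs v hv, map_mul ev s v⟩

omit [Fintype ι] in
theorem t2n_map_pow {m : ℕ} (hpow : ∀ v ∈ M, v ^ m ∈ S) :
    ∀ v ∈ M.map ev.toLinearMap, v ^ m ∈ S.map ev := by
  rintro _ ⟨v, hv, rfl⟩
  exact ⟨v ^ m, hpow v hv, map_pow ev v m⟩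

variable (hev : Function.Surjective ev) (hJ : ∀ r, ev r = 0 → r ∈ S)
  {m : ℕ} (hm : 0 < m) (hpow : ∀ v ∈ M, v ^ m ∈ S)
  [FiniteDimensional k (R ⧸ M)]
  (hdim : finrank k (R ⧸ M) ≤ finrank k (R ⧸ S.toSubmodule))

include hev hJ hm hpow hdim

/-- the dimension count of the node lemma. -/
theorem t2n_finrank_count :
    finrank k (S.map ev).toSubmodule ≤ finrank k (M.map ev.toLinearMap) ∧
      finrank k (R ⧸ M) ≤ finrank k ((ι → k) ⧸ M.map ev.toLinearMap) := by
  have hevl : Function.Surjective ev.toLinearMap := hev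
  have h1 := (S.map ev).toSubmodule.finrank_quotient_add_finrank
  have h2 := (M.map ev.toLinearMap).finrank_quotient_add_finrank
  have h3 : finrank k (M.map ev.toLinearMap) ≤ finrank k (S.map ev).toSubmodule :=
    t2n_finrank_le (S.map ev) (M.map ev.toLinearMap) hm (t2n_map_pow ev S M hpow)
  have h4 : finrank k ((ι → k) ⧸ M.map ev.toLinearMap) ≤ finrank k (R ⧸ M) :=
    t2n_finrank_map_le ev.toLinearMap hevl M
  have h5 : finrank k ((ι → k) ⧸ (S.map ev).toSubmodule) = finrank k (R ⧸ S.toSubmodule) := by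
    rw [Subalgebra.map_toSubmodule]
    exact t2n_finrank_map_eq ev.toLinearMap hevl S.toSubmodule (t2n_ker_le_S ev S hJ)
  constructor <;> omega

/-- **node lemma, part 1**: the kernel of `ev` lies in `M`. -/
theorem t2n_ker_le (r : R) (hr : ev r = 0) : r ∈ M := by
  have hevl : Function.Surjective ev.toLinearMap := hev
  exact t2n_ker_le_of_finrank ev.toLinearMap hevl M
    (t2n_finrank_count ev S M hev hJ hm hpow hdim).2 (LinearMap.mem_ker.2 hr)

/-- **node lemma, part 2**: the multiplier ring of `M` is `S`. -/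
theorem t2n_mult_mem (r : R) (hr : ∀ v ∈ M, r * v ∈ M) : r ∈ S := by
  rw [t2n_mem_S_iff ev S hJ]
  refine t2n_mult_mem_core (S.map ev) (M.map ev.toLinearMap) hm (t2n_map_pow ev S M hpow)
    (t2n_finrank_count ev S M hev hJ hm hpow hdim).1 (ev r) ?_
  rintro _ ⟨v, hv, rfl⟩
  exact ⟨r * v, hr v hv, map_mul ev r v⟩

/-- `M` is the full preimage of its image. -/
theorem t2n_mem_iff_ev_mem (r : R) : r ∈ M ↔ ev r ∈ ev '' (M : Set R) := by
  constructor
  · intro h
    exact ⟨r, h, rfl⟩
  · rintro ⟨v, hv, hvr⟩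
    have h1 : r - v ∈ M :=
      t2n_ker_le ev S M hev hJ hm hpow hdim _ (by rw [map_sub, hvr, sub_self])
    have h2 := M.add_mem h1 hv
    rwa [sub_add_cancel] at h2

end node

/-- **Node lemma** (T2 brief §2 (A3)).  `ev : R → k^ι` onto with kernel inside the subalgebra
`S`; `M` a subspace of `R` with `v ^ m ∈ S` for `v ∈ M` and `codim M ≤ codim S`.  Then
`ker ev ⊆ M`, the multiplier ring `(M : M)` is contained in `S`, and `M` is determined by
`ev '' M`. -/
theorem t2n_node {k R ι : Type*} [Field k] [CommRing R] [Algebra k R] [Fintype ι]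
    (ev : R →ₐ[k] (ι → k)) (hev : Function.Surjective ev) (S : Subalgebra k R)
    (hJ : ∀ r, ev r = 0 → r ∈ S) (M : Submodule k R)
    (_hSM : ∀ s ∈ S, ∀ v ∈ M, s * v ∈ M) (m : ℕ) (hm : 0 < m) (hpow : ∀ v ∈ M, v ^ m ∈ S)
    (_hfin : FiniteDimensional k (R ⧸ S.toSubmodule))
    (hdim : finrank k (R ⧸ M) ≤ finrank k (R ⧸ S.toSubmodule))
    [FiniteDimensional k (R ⧸ M)] :
    (∀ r, ev r = 0 → r ∈ M) ∧ (∀ r : R, (∀ v ∈ M, r * v ∈ M) → r ∈ S) ∧
      (∀ (M' : Submodule k R) (m' : ℕ), 0 < m' → (∀ v ∈ M', v ^ m' ∈ S) →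
        FiniteDimensional k (R ⧸ M') →
        finrank k (R ⧸ M') ≤ finrank k (R ⧸ S.toSubmodule) →
        ev '' (M : Set R) = ev '' (M' : Set R) → M = M') := by
  refine ⟨t2n_ker_le ev S M hev hJ hm hpow hdim, t2n_mult_mem ev S M hev hJ hm hpow hdim, ?_⟩
  intro M' m' hm' hpow' hfin' hdim' himg
  ext r
  rw [t2n_mem_iff_ev_mem ev S M hev hJ hm hpow hdim r,
    t2n_mem_iff_ev_mem ev S M' hev hJ hm' hpow' hdim' r, himg]

section exhaustion

variable {k : Type*} [Field k] {R : Type*} [AddCommGroup R] [Module k R]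

/-- the image in `R ⧸ M` of a finite-dimensional subspace `W`. -/
theorem t2n_finrank_map_mkQ (M W : Submodule k R) [FiniteDimensional k W] :
    finrank k (W.map M.mkQ) + finrank k ↥(M ⊓ W) = finrank k W := by
  have h := LinearMap.finrank_range_add_finrank_ker (M.mkQ.domRestrict W)
  have hr : LinearMap.range (M.mkQ.domRestrict W) = W.map M.mkQ := by
    rw [LinearMap.domRestrict, LinearMap.range_comp, Submodule.range_subtype]
  have hk : LinearMap.ker (M.mkQ.domRestrict W) = (M ⊓ W).comap W.subtype := by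
    ext x
    simp [LinearMap.mem_ker, LinearMap.domRestrict_apply, Submodule.Quotient.mk_eq_zero]
  rw [hr, hk, (Submodule.comapSubtypeEquivOfLe (inf_le_right : M ⊓ W ≤ W)).finrank_eq] at h
  exact h

/-- **codimension from an exhaustion**: if `R = ⋃ V a` (increasing, finite-dimensional) and
`dim V a ≤ dim (M ∩ V a) + δ` for arbitrarily large `a`, then `codim M ≤ δ`. -/
theorem t2n_codim_of_exhaustion (V : ℕ → Submodule k R) (hmono : Monotone V)
    (hV : ∀ r, ∃ a, r ∈ V a) [∀ a, FiniteDimensional k (V a)] (M : Submodule k R) (δ : ℕ)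
    (h : ∀ a₀, ∃ a, a₀ ≤ a ∧ finrank k (V a) ≤ finrank k ↥(M ⊓ V a) + δ) :
    FiniteDimensional k (R ⧸ M) ∧ finrank k (R ⧸ M) ≤ δ := by
  have key : ∀ s : Finset (R ⧸ M), (LinearIndependent k fun i : s => (i : R ⧸ M)) →
      s.card ≤ δ := by
    intro s hs
    have hlift : ∀ y : R ⧸ M, ∃ a, y ∈ (V a).map M.mkQ := by
      intro y
      obtain ⟨r, rfl⟩ := Submodule.Quotient.mk_surjective _ y
      obtain ⟨a, ha⟩ := hV r
      exact ⟨a, ⟨r, ha, rfl⟩⟩
    choose idx hidx using hlift
    obtain ⟨a, ha0, ha⟩ := h (s.sup idx)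
    have hsub : ∀ y ∈ s, y ∈ (V a).map M.mkQ := fun y hy =>
      Submodule.map_mono (hmono ((Finset.le_sup hy).trans ha0)) (hidx y)
    have hcard : s.card ≤ finrank k ((V a).map M.mkQ) := by
      have hli : LinearIndependent k
          (fun i : s => (⟨i.1, hsub i.1 i.2⟩ : (V a).map M.mkQ)) := by
        apply LinearIndependent.of_comp ((V a).map M.mkQ).subtype
        exact hs
      have := hli.fintype_card_le_finrank
      simpa using this
    have := t2n_finrank_map_mkQ M (V a)
    omega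
  have hrank : Module.rank k (R ⧸ M) ≤ δ := rank_le key
  have hfin : FiniteDimensional k (R ⧸ M) :=
    Module.rank_lt_aleph0_iff.1 (hrank.trans_lt (Cardinal.natCast_lt_aleph0))
  exact ⟨hfin, finrank_le_of_rank_le hrank⟩

/-- comparison form: if `dim (S ∩ V a) ≤ dim (M ∩ V a)` for arbitrarily large `a`, then
`codim M ≤ codim S`. -/
theorem t2n_codim_le_of_exhaustion (V : ℕ → Submodule k R) (hmono : Monotone V)
    (hV : ∀ r, ∃ a, r ∈ V a) [∀ a, FiniteDimensional k (V a)] (S M : Submodule k R)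
    [FiniteDimensional k (R ⧸ S)]
    (h : ∀ a₀, ∃ a, a₀ ≤ a ∧ finrank k ↥(S ⊓ V a) ≤ finrank k ↥(M ⊓ V a)) :
    FiniteDimensional k (R ⧸ M) ∧ finrank k (R ⧸ M) ≤ finrank k (R ⧸ S) := by
  refine t2n_codim_of_exhaustion V hmono hV M _ ?_
  intro a₀
  obtain ⟨a, ha0, ha⟩ := h a₀
  refine ⟨a, ha0, ?_⟩
  have h1 := t2n_finrank_map_mkQ S (V a)
  have h2 : finrank k ((V a).map S.mkQ) ≤ finrank k (R ⧸ S) := Submodule.finrank_le _
  omega

end exhaustion

end Fermat.Agent.T2
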