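/-
T2-C (helper9): the semilocal algebra core.

Copy of the abstract algebra core `Igusa.ResidueCore` (Lib/Igusa/AlgCore.lean) in which the target
`Ω` of the residue map is an arbitrary commutative ring (in the application a product of two
fields: the ring `O` is the intersection of two valuation rings).  `A` a UFD with a prime `l`,
`K = Frac A`, `F/K` finite, `O ⊆ F` a subring containing `A`, `ρ : O →+* Ω` with `ker ρ = l O` and
`ker ρ|_A = l A`, and `n ≥ [F : K]` elements of `O` whose residues are independent over `ρ A`.  Then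
every element of `O` is an `A_(l)`-combination of these elements, and has an `A`-integral multiple
by some `t ∉ l A`.
-/
import Mathlib
import Fermat.Agent.Lib.Igusa.AlgCore

set_option autoImplicit false
set_option linter.unusedSectionVars false
set_option linter.unusedVariables false

namespace Fermat.Agent.T2

open Polynomial Fermat.Agent.Igusa

/-- the hypotheses of the semilocal algebra core -/
structure T2sCore (A F Ω : Type*) [CommRing A] [Field F] [Algebra A F] [CommRing Ω] where
  /-- the (semilocal) ring -/
  O : Subring F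
  /-- the residue map -/
  ρ : O →+* Ω
  /-- the prime -/
  l : A
  prime_l : Prime l
  incl_mem : ∀ a : A, algebraMap A F a ∈ O
  ρ_l : ρ ⟨algebraMap A F l, incl_mem l⟩ = 0
  /-- `ker ρ ⊆ l O` -/
  exists_of_ρ_eq_zero : ∀ x : O, ρ x = 0 → ∃ y : O, (x : F) = algebraMap A F l * y
  /-- `ker ρ|_A ⊆ l A` -/
  dvd_of_ρ_eq_zero : ∀ a : A, ρ ⟨algebraMap A F a, incl_mem a⟩ = 0 → l ∣ a

namespace T2sCore

variable {A K F Ω : Type*} [CommRing A] [IsDomain A] [WfDvdMonoid A] [IsIntegrallyClosed A]
  [Field K] [Algebra A K] [IsFractionRing A K]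
  [Field F] [Algebra A F] [Algebra K F] [IsScalarTower A K F] [CommRing Ω]

variable (D : T2sCore A F Ω)

/-- `A → O` -/
def incl : A →+* D.O := (algebraMap A F).codRestrict D.O D.incl_mem

@[simp] theorem coe_incl (a : A) : ((D.incl a : D.O) : F) = algebraMap A F a := rfl

theorem ρ_incl_l : D.ρ (D.incl D.l) = 0 := D.ρ_l

theorem dvd_of_ρ_incl_eq_zero {a : A} (h : D.ρ (D.incl a) = 0) : D.l ∣ a :=
  D.dvd_of_ρ_eq_zero a h

theorem ρ_incl_eq_zero_of_dvd {a : A} (h : D.l ∣ a) : D.ρ (D.incl a) = 0 := by
  obtain ⟨c, rfl⟩ := h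
  rw [map_mul, map_mul, D.ρ_incl_l, zero_mul]

/-- independence of the `ρ (b i)` over `ρ A` -/
def Indep {n : ℕ} (b : Fin n → D.O) : Prop :=
  ∀ a : Fin n → A, ∑ i, D.ρ (D.incl (a i)) * D.ρ (b i) = 0 → ∀ i, D.ρ (D.incl (a i)) = 0

variable {D}

include K in
theorem algebraMap_injective : Function.Injective (algebraMap A F) := by
  rw [IsScalarTower.algebraMap_eq A K F]
  exact (algebraMap K F).injective.comp (IsFractionRing.injective A K)

include K in
/-- a relation with coefficients in `A` among the `b i` has all coefficients zero -/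
theorem eq_zero_of_sum_eq_zero {n : ℕ} {b : Fin n → D.O} (hb : D.Indep b) (a : Fin n → A)
    (h : ∑ i, algebraMap A F (a i) * (b i : F) = 0) : ∀ i, a i = 0 := by
  by_contra hne
  push Not at hne
  obtain ⟨i0, hi0⟩ := hne
  obtain ⟨k, a', hk, i1, hi1⟩ := exists_primitive_of_prime D.prime_l a i0 hi0
  have hinj := algebraMap_injective (A := A) (K := K) (F := F)
  have hlF : algebraMap A F D.l ≠ 0 := by simpa using hinj.ne D.prime_l.ne_zero
  have h1 : ∑ i, algebraMap A F (a' i) * (b i : F) = 0 := by
    have : algebraMap A F D.l ^ k * ∑ i, algebraMap A F (a' i) * (b i : F) = 0 := by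
      rw [← h, Finset.mul_sum]
      refine Finset.sum_congr rfl fun i _ => ?_
      rw [hk i, map_mul, map_pow]; ring
    exact (mul_eq_zero.mp this).resolve_left (pow_ne_zero k hlF)
  have h2 : ∑ i, D.incl (a' i) * b i = 0 := by
    apply Subtype.ext
    rw [Subring.coe_zero, ← h1, AddSubmonoidClass.coe_finsetSum]
    simp
  have h3 : ∑ i, D.ρ (D.incl (a' i)) * D.ρ (b i) = 0 := by
    have := congrArg D.ρ h2
    simpa [map_sum] using this
  exact hi1 (D.dvd_of_ρ_incl_eq_zero (hb a' h3 i1))

include K in
/-- the `b i` are linearly independent over `K` -/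
theorem linearIndependent_of_indep {n : ℕ} {b : Fin n → D.O} (hb : D.Indep b) :
    LinearIndependent K (fun i => (b i : F)) := by
  rw [Fintype.linearIndependent_iff]
  intro c hc i
  obtain ⟨d, hd⟩ := IsLocalization.exist_integer_multiples (nonZeroDivisors A) Finset.univ c
  choose a ha using fun i => hd i (Finset.mem_univ i)
  have hd0 : algebraMap A K (d : A) ≠ 0 := by
    simp
  have h1 : ∑ i, algebraMap A F (a i) * (b i : F) = 0 := by
    have : algebraMap K F (algebraMap A K (d : A)) * ∑ i, c i • (b i : F) = 0 := by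
      rw [hc, mul_zero]
    rw [← this, Finset.mul_sum]
    refine Finset.sum_congr rfl fun i _ => ?_
    rw [IsScalarTower.algebraMap_apply A K F, ha i, Algebra.smul_def, Algebra.smul_def, map_mul]
    ring
  have h2 := eq_zero_of_sum_eq_zero (K := K) hb a h1 i
  have h3 := ha i
  rw [h2, map_zero, Algebra.smul_def] at h3
  exact ((mul_eq_zero.mp h3.symm).resolve_left hd0)

variable [FiniteDimensional K F]

include K in
/-- the `b i` span `F` over `K` when `[F : K] ≤ n` -/
theorem span_eq_top_of_indep {n : ℕ} {b : Fin n → D.O} (hb : D.Indep b)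
    (hn : Module.finrank K F ≤ n) :
    Submodule.span K (Set.range fun i => (b i : F)) = ⊤ := by
  have hli := linearIndependent_of_indep (K := K) hb
  have h1 : Fintype.card (Fin n) ≤ Module.finrank K F := hli.fintype_card_le_finrank
  have h2 : Fintype.card (Fin n) = Module.finrank K F := by
    rw [Fintype.card_fin] at h1 ⊢; omega
  exact hli.span_eq_top_of_card_eq_finrank' h2

include K in
/-- every element of `O` is an `A_(l)`-combination of the `b i` -/
theorem exists_mul_eq_sum {n : ℕ} {b : Fin n → D.O} (hb : D.Indep b)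
    (hn : Module.finrank K F ≤ n) (x : D.O) :
    ∃ (s : A) (a : Fin n → A), ¬ D.l ∣ s ∧
      algebraMap A F s * (x : F) = ∑ i, algebraMap A F (a i) * (b i : F) := by
  have hx : (x : F) ∈ Submodule.span K (Set.range fun i => (b i : F)) := by
    rw [span_eq_top_of_indep (K := K) hb hn]; trivial
  obtain ⟨c, hc⟩ := (Submodule.mem_span_range_iff_exists_fun K).mp hx
  obtain ⟨d, hd⟩ := IsLocalization.exist_integer_multiples (nonZeroDivisors A) Finset.univ c
  choose a ha using fun i => hd i (Finset.mem_univ i)
  have hinj := algebraMap_injective (A := A) (K := K) (F := F)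
  have hlF : algebraMap A F D.l ≠ 0 := by simpa using hinj.ne D.prime_l.ne_zero
  have h1 : algebraMap A F (d : A) * (x : F) = ∑ i, algebraMap A F (a i) * (b i : F) := by
    rw [← hc, Finset.mul_sum]
    refine Finset.sum_congr rfl fun i _ => ?_
    rw [IsScalarTower.algebraMap_apply A K F (a i), ha i, Algebra.smul_def, Algebra.smul_def,
      map_mul, ← IsScalarTower.algebraMap_apply A K F]
    ring
  let t : Option (Fin n) → A := fun o => o.elim (d : A) a
  obtain ⟨k, t', hk, i1, hi1⟩ := exists_primitive_of_prime D.prime_l t none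
    (nonZeroDivisors.coe_ne_zero d)
  have h2 : algebraMap A F (t' none) * (x : F) =
      ∑ i, algebraMap A F (t' (some i)) * (b i : F) := by
    have : algebraMap A F D.l ^ k * (algebraMap A F (t' none) * (x : F)) =
        algebraMap A F D.l ^ k * ∑ i, algebraMap A F (t' (some i)) * (b i : F) := by
      have e1 : (d : A) = D.l ^ k * t' none := hk none
      have e2 : ∀ i, a i = D.l ^ k * t' (some i) := fun i => hk (some i)
      rw [← mul_assoc, ← map_pow, ← map_mul, ← e1, h1, Finset.mul_sum]
      refine Finset.sum_congr rfl fun i _ => ?_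
      rw [e2 i, map_mul]; ring
    exact mul_left_cancel₀ (pow_ne_zero k hlF) this
  refine ⟨t' none, fun i => t' (some i), ?_, h2⟩
  intro hdvd
  have h3 : D.incl (t' none) * x = ∑ i, D.incl (t' (some i)) * b i := by
    apply Subtype.ext
    rw [AddSubmonoidClass.coe_finsetSum]
    simp only [Subring.coe_mul, coe_incl]
    exact h2
  have h4 : ∑ i, D.ρ (D.incl (t' (some i))) * D.ρ (b i) = 0 := by
    have := congrArg D.ρ h3
    rw [map_mul, D.ρ_incl_eq_zero_of_dvd hdvd, zero_mul, map_sum] at this
    simpa using this.symm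
  have h5 := hb _ h4
  rcases i1 with _ | i
  · exact hi1 hdvd
  · exact hi1 (D.dvd_of_ρ_incl_eq_zero (h5 i))

include K in
/-- every element of `O` has a multiple by some `t ∉ l A` which is integral over `A` -/
theorem exists_isIntegral_mul {n : ℕ} {b : Fin n → D.O} (hb : D.Indep b)
    (hn : Module.finrank K F ≤ n) (y : D.O) :
    ∃ t : A, ¬ D.l ∣ t ∧ IsIntegral A (algebraMap A F t * (y : F)) := by
  classical
  have hinj := algebraMap_injective (A := A) (K := K) (F := F)
  choose s a hs hsa using fun j : Fin n => exists_mul_eq_sum (K := K) hb hn (y * b j)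
  set M : Submodule A F := Submodule.span A (Set.range fun i => (b i : F)) with hM
  refine ⟨∏ j, s j, ?_, ?_⟩
  · intro h
    obtain ⟨j, -, hj⟩ := (D.prime_l.dvd_finsetProd_iff _).mp h
    exact hs j hj
  · have hbM : ∀ i, (b i : F) ∈ M := fun i => Submodule.subset_span ⟨i, rfl⟩
    have hMne : M ≠ ⊥ := by
      obtain ⟨s1, a1, hs1, h1⟩ := exists_mul_eq_sum (K := K) hb hn (1 : D.O)
      have hs10 : s1 ≠ 0 := fun h => hs1 (h ▸ dvd_zero _)
      intro hbot
      have hmem : algebraMap A F s1 * ((1 : D.O) : F) ∈ M := by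
        rw [h1]
        refine Submodule.sum_mem _ fun i _ => ?_
        rw [← Algebra.smul_def]
        exact M.smul_mem _ (hbM i)
      rw [hbot, Submodule.mem_bot, Subring.coe_one, mul_one] at hmem
      exact hs10 (hinj (by rw [hmem, map_zero]))
    have hMfg : M.FG := Submodule.fg_span (Set.finite_range _)
    refine isIntegral_of_smul_mem_submodule M hMne hMfg _ ?_
    intro m hm
    induction hm using Submodule.span_induction with
    | mem m hm =>
      obtain ⟨j, rfl⟩ := hm
      have e : (algebraMap A F (∏ j, s j) * (y : F)) • (b j : F) =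
          (∏ i ∈ Finset.univ.erase j, s i) •
            (algebraMap A F (s j) * ((y * b j : D.O) : F)) := by
        rw [← Finset.mul_prod_erase Finset.univ s (Finset.mem_univ j), smul_eq_mul,
          Algebra.smul_def, map_mul, Subring.coe_mul]
        ring
      rw [e, hsa j]
      refine M.smul_mem _ (Submodule.sum_mem _ fun i _ => ?_)
      rw [← Algebra.smul_def]
      exact M.smul_mem _ (hbM i)
    | zero => simp
    | add u v _ _ hu hv => rw [smul_add]; exact M.add_mem hu hv
    | smul r u _ hu =>
      rw [smul_comm]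
      exact M.smul_mem r hu

include K in
/-- **(Int), abstract form**: if `l ^ m * z` is integral over `A` and `z ∈ O`, then `z` is integral
over `A` -/
theorem isIntegral_of_isIntegral_pow_mul {n : ℕ} {b : Fin n → D.O} (hb : D.Indep b)
    (hn : Module.finrank K F ≤ n) (z : D.O) (m : ℕ)
    (h : IsIntegral A (algebraMap A F D.l ^ m * (z : F))) : IsIntegral A (z : F) := by
  induction m with
  | zero => simpa using h
  | succ m ih =>
    apply ih
    have hmem : algebraMap A F D.l ^ m * (z : F) ∈ D.O :=
      D.O.mul_mem (D.O.pow_mem (D.incl_mem D.l) _) z.2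
    obtain ⟨t, ht, hty⟩ := exists_isIntegral_mul (K := K) hb hn
      (⟨algebraMap A F D.l ^ m * (z : F), hmem⟩ : D.O)
    refine isIntegral_of_isIntegral_mul_of_prime K D.prime_l ht ?_ hty
    rw [← mul_assoc, ← pow_succ']
    exact h

end T2sCore

end Fermat.Agent.T2
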