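/-
T2-C (helper9): (Int) for a chart of a two-component base.

`d : T2Base K F k Fb` with `A` a discrete valuation ring; a chart `x ∈ 𝒪` transcendental over `K`
with `res x` transcendental over `k` (`T2sChart`).  We instantiate the semilocal algebra core
(`SemiCore.lean`) with the UFD `A[x]` and its prime `ϖ`, `K(x) = Frac A[x]`.  Given `n ≥ [F : K(x)]`
elements of `𝒪` whose residues are independent over `k[res x]`:

* `isIntegral_of_isIntegral_field` — **(Int)**: an element of `𝒪` integral over `K[x]` is integral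
  over `A[x]`;
* `isIntegral_res` : its residue is integral over `k[res x]`.

Port of `Lib/T1/GoodRed/{AbsCore,AbsInt}.lean` (one valuation, residue FIELD) to the present setting.
-/
import Fermat.Agent.Lib.T2.Core.Base
import Fermat.Agent.Lib.T2.Core.SemiCore

set_option autoImplicit false
set_option linter.unusedSectionVars false
set_option linter.unusedVariables false
set_option linter.style.haveILetI false

open Polynomial IntermediateField Fermat.Agent.Igusa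

noncomputable section

namespace Fermat.Agent.T2

variable {K F k Fb : Type*} [Field K] [Field F] [Algebra K F] [Field k] [CommRing Fb] [Algebra k Fb]

namespace T2Base

variable (d : T2Base K F k Fb)

theorem algebraMap_A_apply (a : ↥d.A) : algebraMap ↥d.A F a = algebraMap K F (a : K) := rfl

variable [IsDiscreteValuationRing ↥d.A]

/-- the kernel of `resA` is generated by the uniformiser -/
theorem resA_eq_zero_iff_dvd {ϖ : ↥d.A} (hϖ : Irreducible ϖ) (a : ↥d.A) :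
    d.resA a = 0 ↔ ϖ ∣ a := by
  rw [d.resA_eq_zero_iff, hϖ.maximalIdeal_eq, Ideal.mem_span_singleton]

theorem coe_unif_ne_zero {ϖ : ↥d.A} (hϖ : Irreducible ϖ) : ((ϖ : ↥d.A) : K) ≠ 0 := fun h =>
  hϖ.ne_zero (Subtype.ext h)

theorem algebraMap_unif_ne_zero {ϖ : ↥d.A} (hϖ : Irreducible ϖ) :
    algebraMap K F ((ϖ : ↥d.A) : K) ≠ 0 := by
  rw [Ne, map_eq_zero]
  exact d.coe_unif_ne_zero hϖ

theorem res_unif {ϖ : ↥d.A} (hϖ : Irreducible ϖ) :
    d.res ⟨algebraMap K F ((ϖ : ↥d.A) : K), d.algebraMap_mem ϖ⟩ = 0 := by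
  rw [d.res_algebraMap, (d.resA_eq_zero_iff_dvd hϖ ϖ).mpr dvd_rfl, map_zero]

/-- every element of `K` is moved into `A` by a power of the uniformiser -/
theorem exists_pow_mul_mem_A {ϖ : ↥d.A} (hϖ : Irreducible ϖ) (c : K) :
    ∃ e : ℕ, ((ϖ : ↥d.A) : K) ^ e * c ∈ d.A := by
  rcases d.A.mem_or_inv_mem c with hc | hc
  · exact ⟨0, by rwa [pow_zero, one_mul]⟩
  · by_cases hc0 : c = 0
    · exact ⟨0, by rw [hc0, mul_zero]; exact d.A.zero_mem⟩
    have hne : (⟨c⁻¹, hc⟩ : ↥d.A) ≠ 0 := by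
      intro h
      have := congrArg (fun z : ↥d.A => (z : K)) h
      simp only [ZeroMemClass.coe_zero, inv_eq_zero] at this
      exact hc0 this
    obtain ⟨e, he⟩ := IsDiscreteValuationRing.associated_pow_irreducible hne hϖ
    obtain ⟨u, hu⟩ := he.symm
    refine ⟨e, ?_⟩
    have h1 : ((ϖ : ↥d.A) : K) ^ e * ((u : ↥d.A) : K) = c⁻¹ := by
      have := congrArg (fun z : ↥d.A => (z : K)) hu
      simpa using this
    have h2 : ((ϖ : ↥d.A) : K) ^ e * c = (((u⁻¹ : (↥d.A)ˣ) : ↥d.A) : K) := by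
      have hu1 : ((u : ↥d.A) : K) * (((u⁻¹ : (↥d.A)ˣ) : ↥d.A) : K) = 1 := by
        rw [← MulMemClass.coe_mul, Units.mul_inv]
        rfl
      have hu0 : ((u : ↥d.A) : K) ≠ 0 := left_ne_zero_of_mul_eq_one hu1
      have h3 : c = (((ϖ : ↥d.A) : K) ^ e * ((u : ↥d.A) : K))⁻¹ := by rw [h1, inv_inv]
      rw [h3, mul_inv, ← mul_assoc, mul_inv_cancel₀ (pow_ne_zero e (d.coe_unif_ne_zero hϖ)),
        one_mul]
      exact (eq_inv_of_mul_eq_one_right hu1).symm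
    rw [h2]
    exact SetLike.coe_mem _

/-- the kernel of `res` is generated by the uniformiser -/
theorem exists_unif_mul_of_res_eq_zero {ϖ : ↥d.A} (hϖ : Irreducible ϖ) (f : ↥d.Ov)
    (hf : d.res f = 0) : ∃ g : ↥d.Ov, (f : F) = algebraMap K F ((ϖ : ↥d.A) : K) * (g : F) := by
  obtain ⟨a, ha, g, hg, hfg⟩ := d.exists_smul_of_res_eq_zero ⊤ (f := (f : F))
    ⟨Submodule.mem_top, f.2⟩ hf
  rw [hϖ.maximalIdeal_eq, Ideal.mem_span_singleton] at ha
  obtain ⟨u, rfl⟩ := ha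
  have hgO : g ∈ d.Ov := hg.2
  refine ⟨⟨((u : ↥d.A) : K) • g, d.smul_mem u hgO⟩, ?_⟩
  show (f : F) = algebraMap K F ((ϖ : ↥d.A) : K) * (((u : ↥d.A) : K) • g)
  rw [hfg, Algebra.smul_def, Algebra.smul_def, MulMemClass.coe_mul, map_mul, mul_assoc]

/-- `𝒪` as an `A`-subalgebra -/
def OvAlg : Subalgebra ↥d.A F :=
  { d.Ov with
    algebraMap_mem' := fun a => d.algebraMap_mem a }

end T2Base

/-- a chart of a two-component base with discretely valued base field: `x ∈ 𝒪` transcendental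
over `K` with `res x` transcendental over `k`, and a uniformiser of `A` -/
structure T2sChart (d : T2Base K F k Fb) [IsDiscreteValuationRing ↥d.A] where
  /-- the coordinate -/
  x : F
  tr : Transcendental K x
  mem : x ∈ d.Ov
  trρ : Transcendental k (d.res ⟨x, mem⟩)
  /-- the uniformiser -/
  ϖ : ↥d.A
  irr : Irreducible ϖ

namespace T2sChart

variable {d : T2Base K F k Fb} [IsDiscreteValuationRing ↥d.A] (Ch : T2sChart d)

/-- `res x` -/
def xb : Fb := d.res ⟨Ch.x, Ch.mem⟩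

theorem transcendental_A : Transcendental ↥d.A Ch.x :=
  Ch.tr.restrictScalars (FaithfulSMul.algebraMap_injective ↥d.A K)

theorem ufm_adjoin : UniqueFactorizationMonoid ↥(Algebra.adjoin ↥d.A {Ch.x}) :=
  Ch.transcendental_A.uniqueFactorizationMonoid_adjoin

/-- the prime `ϖ` of `A[x]` -/
def unifA : ↥(Algebra.adjoin ↥d.A {Ch.x}) := algebraMap ↥d.A _ Ch.ϖ

theorem unifA_prime : Prime Ch.unifA := by
  have hx' := Ch.transcendental_A
  have h1 : Prime (C (Ch.ϖ) : (↥d.A)[X]) := prime_C_iff.mpr Ch.irr.prime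
  have h2 := (MulEquiv.prime_iff
    (Polynomial.algEquivOfTranscendental ↥d.A Ch.x hx').toMulEquiv).mpr h1
  have h3 : (Polynomial.algEquivOfTranscendental ↥d.A Ch.x hx').toMulEquiv (C (Ch.ϖ)) =
      Ch.unifA := by
    show (Polynomial.algEquivOfTranscendental ↥d.A Ch.x hx') (C (Ch.ϖ)) = _
    rw [← Polynomial.algebraMap_eq, AlgEquiv.commutes]
    rfl
  rwa [h3] at h2

theorem coe_unifA : ((Ch.unifA : ↥(Algebra.adjoin ↥d.A {Ch.x})) : F) =
    algebraMap K F ((Ch.ϖ : ↥d.A) : K) := rfl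

theorem adjoin_le_OvAlg : Algebra.adjoin ↥d.A {Ch.x} ≤ d.OvAlg :=
  Algebra.adjoin_le (by
    intro y hy
    rw [Set.mem_singleton_iff] at hy
    rw [hy]
    exact Ch.mem)

theorem mem_Ov_of_mem_adjoin (a : ↥(Algebra.adjoin ↥d.A {Ch.x})) : (a : F) ∈ d.Ov :=
  Ch.adjoin_le_OvAlg a.2

/-- `A[x] → 𝒪` -/
def toOv : ↥(Algebra.adjoin ↥d.A {Ch.x}) →+* ↥d.Ov where
  toFun a := ⟨(a : F), Ch.mem_Ov_of_mem_adjoin a⟩
  map_one' := rfl
  map_mul' _ _ := rfl
  map_zero' := rfl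
  map_add' _ _ := rfl

theorem coe_toOv (a : ↥(Algebra.adjoin ↥d.A {Ch.x})) : ((Ch.toOv a : ↥d.Ov) : F) = (a : F) := rfl

/-- `x` as an element of `A[x]` -/
def xA : ↥(Algebra.adjoin ↥d.A {Ch.x}) := ⟨Ch.x, Algebra.self_mem_adjoin_singleton ↥d.A Ch.x⟩

/-- `res (P(x)) = P̄ (res x)` -/
theorem res_toOv_aeval (P : (↥d.A)[X]) :
    d.res (Ch.toOv (aeval Ch.xA P)) = aeval Ch.xb (P.map d.resA) := by
  have key : ((d.res).comp Ch.toOv).comp (aeval Ch.xA).toRingHom =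
      ((aeval Ch.xb).toRingHom).comp (Polynomial.mapRingHom d.resA) := by
    apply Polynomial.ringHom_ext
    · intro a
      simp only [RingHom.comp_apply, AlgHom.toRingHom_eq_coe, RingHom.coe_coe, aeval_C,
        coe_mapRingHom, Polynomial.map_C]
      exact d.res_algebraMap a
    · simp only [RingHom.comp_apply, AlgHom.toRingHom_eq_coe, RingHom.coe_coe, aeval_X,
        coe_mapRingHom, Polynomial.map_X]
      rfl
  exact congrArg (fun f : (↥d.A)[X] →+* Fb => f P) key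

theorem exists_aeval_eq (a : ↥(Algebra.adjoin ↥d.A {Ch.x})) :
    ∃ P : (↥d.A)[X], aeval Ch.xA P = a := by
  obtain ⟨P, hP⟩ := (Polynomial.algEquivOfTranscendental ↥d.A Ch.x Ch.transcendental_A).surjective a
  refine ⟨P, ?_⟩
  rw [← hP, Polynomial.algEquivOfTranscendental_apply]
  rfl

/-- the kernel of `res` on `A[x]` is generated by `ϖ` -/
theorem unifA_dvd_of_res_eq_zero (a : ↥(Algebra.adjoin ↥d.A {Ch.x}))
    (ha : d.res (Ch.toOv a) = 0) : Ch.unifA ∣ a := by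
  obtain ⟨P, rfl⟩ := Ch.exists_aeval_eq a
  rw [res_toOv_aeval] at ha
  have hP : P.map d.resA = 0 := (transcendental_iff.mp Ch.trρ) _ ha
  have hdvd : C (Ch.ϖ) ∣ P := by
    rw [Polynomial.C_dvd_iff_dvd_coeff]
    intro i
    have h1 := congrArg (fun Q => Q.coeff i) hP
    simp only [Polynomial.coeff_map, Polynomial.coeff_zero] at h1
    exact (d.resA_eq_zero_iff_dvd Ch.irr _).mp h1
  obtain ⟨Q, rfl⟩ := hdvd
  refine ⟨aeval Ch.xA Q, ?_⟩
  rw [map_mul, aeval_C]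
  rfl

/-- **the semilocal algebra core instantiated** for `A[x]` -/
def core : T2sCore ↥(Algebra.adjoin ↥d.A {Ch.x}) F Fb where
  O := d.Ov
  ρ := d.res
  l := Ch.unifA
  prime_l := Ch.unifA_prime
  incl_mem := fun a => Ch.mem_Ov_of_mem_adjoin a
  ρ_l := d.res_unif Ch.irr
  exists_of_ρ_eq_zero := fun f hf => d.exists_unif_mul_of_res_eq_zero Ch.irr f hf
  dvd_of_ρ_eq_zero := fun a ha => Ch.unifA_dvd_of_res_eq_zero a ha

theorem core_incl (a : ↥(Algebra.adjoin ↥d.A {Ch.x})) : Ch.core.incl a = Ch.toOv a := rfl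

/-! ### Clearing denominators -/

/-- every element of `K[x]` lies in `A[x]` after multiplication by a power of `ϖ` -/
theorem exists_pow_mul_mem_adjoin (b : F) (hb : b ∈ Algebra.adjoin K {Ch.x}) :
    ∃ m : ℕ, algebraMap K F ((Ch.ϖ : ↥d.A) : K) ^ m * b ∈ Algebra.adjoin ↥d.A {Ch.x} := by
  have hl : algebraMap K F ((Ch.ϖ : ↥d.A) : K) ∈ Algebra.adjoin ↥d.A {Ch.x} :=
    Subalgebra.algebraMap_mem _ Ch.ϖ
  induction hb using Algebra.adjoin_induction with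
  | mem y hy =>
    rw [Set.mem_singleton_iff] at hy
    refine ⟨0, ?_⟩
    rw [pow_zero, one_mul, hy]
    exact Algebra.self_mem_adjoin_singleton ↥d.A Ch.x
  | algebraMap q =>
    obtain ⟨m, hm⟩ := d.exists_pow_mul_mem_A Ch.irr q
    refine ⟨m, ?_⟩
    have h1 : algebraMap K F ((Ch.ϖ : ↥d.A) : K) ^ m * algebraMap K F q =
        algebraMap ↥d.A F ⟨((Ch.ϖ : ↥d.A) : K) ^ m * q, hm⟩ := by
      rw [d.algebraMap_A_apply, map_mul, map_pow]
    rw [h1]
    exact Subalgebra.algebraMap_mem _ _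
  | add b₁ b₂ _ _ h₁ h₂ =>
    obtain ⟨m₁, hm₁⟩ := h₁
    obtain ⟨m₂, hm₂⟩ := h₂
    refine ⟨m₁ + m₂, ?_⟩
    have h1 : algebraMap K F ((Ch.ϖ : ↥d.A) : K) ^ (m₁ + m₂) * (b₁ + b₂) =
        algebraMap K F ((Ch.ϖ : ↥d.A) : K) ^ m₂ *
            (algebraMap K F ((Ch.ϖ : ↥d.A) : K) ^ m₁ * b₁) +
          algebraMap K F ((Ch.ϖ : ↥d.A) : K) ^ m₁ *
            (algebraMap K F ((Ch.ϖ : ↥d.A) : K) ^ m₂ * b₂) := by
      rw [pow_add]; ring
    rw [h1]
    exact add_mem (mul_mem (pow_mem hl _) hm₁) (mul_mem (pow_mem hl _) hm₂)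
  | mul b₁ b₂ _ _ h₁ h₂ =>
    obtain ⟨m₁, hm₁⟩ := h₁
    obtain ⟨m₂, hm₂⟩ := h₂
    refine ⟨m₁ + m₂, ?_⟩
    have h1 : algebraMap K F ((Ch.ϖ : ↥d.A) : K) ^ (m₁ + m₂) * (b₁ * b₂) =
        (algebraMap K F ((Ch.ϖ : ↥d.A) : K) ^ m₁ * b₁) *
          (algebraMap K F ((Ch.ϖ : ↥d.A) : K) ^ m₂ * b₂) := by
      rw [pow_add]; ring
    rw [h1]
    exact mul_mem hm₁ hm₂

theorem adjoin_le_adjoin_field :
    Algebra.adjoin ↥d.A {Ch.x} ≤ (Algebra.adjoin K {Ch.x}).restrictScalars ↥d.A :=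
  Algebra.adjoin_le (by
    intro y hy
    rw [Set.mem_singleton_iff] at hy
    rw [hy]
    exact Algebra.self_mem_adjoin_singleton K Ch.x)

/-- the inclusion `A[x] → K[x]` -/
def toAdjoinField : ↥(Algebra.adjoin ↥d.A {Ch.x}) →+* ↥(Algebra.adjoin K {Ch.x}) :=
  (algebraMap ↥(Algebra.adjoin ↥d.A {Ch.x}) F).codRestrict (Algebra.adjoin K {Ch.x})
    (fun a => Ch.adjoin_le_adjoin_field a.2)

theorem coe_toAdjoinField (a : ↥(Algebra.adjoin ↥d.A {Ch.x})) :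
    ((Ch.toAdjoinField a : ↥(Algebra.adjoin K {Ch.x})) : F) = (a : F) :=
  RingHom.codRestrict_apply _ _ _ a

/-- clearing denominators: if `y` is integral over `K[x]` then `ϖ ^ m y` is integral over
`A[x]` for some `m` -/
theorem isIntegral_pow_mul (y : F) (hy : IsIntegral ↥(Algebra.adjoin K {Ch.x}) y) :
    ∃ m : ℕ, IsIntegral ↥(Algebra.adjoin ↥d.A {Ch.x})
      (algebraMap K F ((Ch.ϖ : ↥d.A) : K) ^ m * y) := by
  classical
  obtain ⟨P, hP, hPy⟩ := hy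
  set ϖF : F := algebraMap K F ((Ch.ϖ : ↥d.A) : K) with hϖF
  have hl : ϖF ∈ Algebra.adjoin ↥d.A {Ch.x} := Subalgebra.algebraMap_mem _ Ch.ϖ
  have hlL : ϖF ∈ Algebra.adjoin K {Ch.x} := Subalgebra.algebraMap_mem _ _
  obtain ⟨m, hm⟩ : ∃ m : ℕ, ∀ i, ϖF ^ m * ((P.coeff i : ↥(Algebra.adjoin K {Ch.x})) : F) ∈
      Algebra.adjoin ↥d.A {Ch.x} := by
    choose f hf using fun i =>
      Ch.exists_pow_mul_mem_adjoin ((P.coeff i : ↥(Algebra.adjoin K {Ch.x})) : F) (P.coeff i).2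
    refine ⟨P.support.sup f, fun i => ?_⟩
    by_cases hi : i ∈ P.support
    · have hle : f i ≤ P.support.sup f := Finset.le_sup hi
      obtain ⟨c, hc⟩ := Nat.exists_eq_add_of_le hle
      rw [hc, pow_add, mul_comm (_ ^ f i), mul_assoc]
      exact mul_mem (pow_mem hl _) (hf i)
    · rw [Polynomial.notMem_support_iff.mp hi]
      simp
  refine ⟨m, ?_⟩
  set s : ↥(Algebra.adjoin K {Ch.x}) := (⟨ϖF, hlL⟩ : ↥(Algebra.adjoin K {Ch.x})) ^ m with hs
  have hsF : ((s : ↥(Algebra.adjoin K {Ch.x})) : F) = ϖF ^ m := by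
    rw [hs]; push_cast; rfl
  have hsA : ((s : ↥(Algebra.adjoin K {Ch.x})) : F) ∈ Algebra.adjoin ↥d.A {Ch.x} := by
    rw [hsF]
    exact pow_mem hl _
  have hlift : P.scaleRoots s ∈ Polynomial.lifts Ch.toAdjoinField := by
    rw [Polynomial.lifts_iff_coeff_lifts]
    intro i
    rw [Polynomial.coeff_scaleRoots]
    rcases lt_trichotomy i P.natDegree with hi | hi | hi
    · obtain ⟨c, hc⟩ := Nat.exists_eq_add_of_lt hi
      have hc' : P.natDegree - i = (c + 1) := by omega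
      rw [hc', pow_succ]
      have h1 : ((P.coeff i * (s ^ c * s) : ↥(Algebra.adjoin K {Ch.x})) : F) ∈
          Algebra.adjoin ↥d.A {Ch.x} := by
        have h2 : ((P.coeff i * (s ^ c * s) : ↥(Algebra.adjoin K {Ch.x})) : F) =
            ((s : ↥(Algebra.adjoin K {Ch.x})) : F) ^ c *
              (ϖF ^ m * ((P.coeff i : ↥(Algebra.adjoin K {Ch.x})) : F)) := by
          push_cast
          rw [hsF]
          ring
        rw [h2]
        exact mul_mem (pow_mem hsA _) (hm i)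
      exact ⟨⟨_, h1⟩, Subtype.ext rfl⟩
    · rw [hi, Nat.sub_self, pow_zero, mul_one, Polynomial.coeff_natDegree, hP.leadingCoeff]
      exact ⟨1, map_one _⟩
    · rw [Polynomial.coeff_eq_zero_of_natDegree_lt hi, zero_mul]
      exact ⟨0, map_zero _⟩
  obtain ⟨Q, hQmap, -, hQmonic⟩ :=
    Polynomial.lifts_and_natDegree_eq_and_monic hlift ((Polynomial.monic_scaleRoots_iff s).mpr hP)
  refine ⟨Q, hQmonic, ?_⟩
  have hcomp : (algebraMap ↥(Algebra.adjoin ↥d.A {Ch.x}) F) =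
      (algebraMap ↥(Algebra.adjoin K {Ch.x}) F).comp Ch.toAdjoinField := rfl
  rw [hcomp, ← Polynomial.eval₂_map, hQmap, ← hsF]
  have h3 := Polynomial.scaleRoots_eval₂_mul (p := P) (algebraMap ↥(Algebra.adjoin K {Ch.x}) F)
    y s
  have h4 : algebraMap ↥(Algebra.adjoin K {Ch.x}) F s = ((s : ↥(Algebra.adjoin K {Ch.x})) : F) :=
    rfl
  rw [h4] at h3
  rw [h3, hPy, mul_zero]

/-! ### `K(x)` is the fraction field of `A[x]` -/

theorem adjoin_le_Kx :
    Algebra.adjoin ↥d.A {Ch.x} ≤ (K⟮Ch.x⟯).toSubalgebra.restrictScalars ↥d.A :=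
  Algebra.adjoin_le (by
    intro y hy
    rw [Set.mem_singleton_iff] at hy
    rw [hy]
    exact mem_adjoin_simple_self K Ch.x)

/-- `A[x] → K(x)` -/
def toKx : ↥(Algebra.adjoin ↥d.A {Ch.x}) →+* ↥(K⟮Ch.x⟯) :=
  (algebraMap ↥(Algebra.adjoin ↥d.A {Ch.x}) F).codRestrict (K⟮Ch.x⟯)
    (fun a => Ch.adjoin_le_Kx a.2)

theorem coe_toKx (a : ↥(Algebra.adjoin ↥d.A {Ch.x})) :
    ((Ch.toKx a : ↥(K⟮Ch.x⟯)) : F) = (a : F) :=
  RingHom.codRestrict_apply _ _ _ a

/-- every element of `K(x)` is a quotient of two elements of `A[x]` -/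
theorem exists_div_of_mem_Kx {z : F} (hz : z ∈ K⟮Ch.x⟯) :
    ∃ a s : ↥(Algebra.adjoin ↥d.A {Ch.x}), z = (a : F) / (s : F) := by
  obtain ⟨r, s, rfl⟩ := (mem_adjoin_simple_iff K z).mp hz
  have hr : aeval Ch.x r ∈ Algebra.adjoin K {Ch.x} := by
    rw [Algebra.adjoin_singleton_eq_range_aeval]
    exact AlgHom.mem_range_self _ r
  have hs : aeval Ch.x s ∈ Algebra.adjoin K {Ch.x} := by
    rw [Algebra.adjoin_singleton_eq_range_aeval]
    exact AlgHom.mem_range_self _ s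
  obtain ⟨m₁, hm₁⟩ := Ch.exists_pow_mul_mem_adjoin _ hr
  obtain ⟨m₂, hm₂⟩ := Ch.exists_pow_mul_mem_adjoin _ hs
  set ϖF : F := algebraMap K F ((Ch.ϖ : ↥d.A) : K) with hϖF
  have hl : ϖF ∈ Algebra.adjoin ↥d.A {Ch.x} := Subalgebra.algebraMap_mem _ Ch.ϖ
  have h0 : ϖF ≠ 0 := d.algebraMap_unif_ne_zero Ch.irr
  refine ⟨⟨ϖF ^ m₂ * (ϖF ^ m₁ * aeval Ch.x r), mul_mem (pow_mem hl _) hm₁⟩,
    ⟨ϖF ^ m₁ * (ϖF ^ m₂ * aeval Ch.x s), mul_mem (pow_mem hl _) hm₂⟩, ?_⟩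
  show _ = (ϖF ^ m₂ * (ϖF ^ m₁ * aeval Ch.x r)) / (ϖF ^ m₁ * (ϖF ^ m₂ * aeval Ch.x s))
  have h1 : ϖF ^ m₁ ≠ 0 := pow_ne_zero _ h0
  have h2 : ϖF ^ m₂ ≠ 0 := pow_ne_zero _ h0
  by_cases hs0 : aeval Ch.x s = 0
  · rw [hs0, mul_zero, mul_zero, div_zero, div_zero]
  · field_simp

/-- the algebra structure `A[x] → K(x)` (local instance) -/
@[reducible] def algKx : Algebra ↥(Algebra.adjoin ↥d.A {Ch.x}) ↥(K⟮Ch.x⟯) := Ch.toKx.toAlgebra

attribute [local instance] T2sChart.algKx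

theorem algebraMap_Kx_apply (a : ↥(Algebra.adjoin ↥d.A {Ch.x})) :
    ((algebraMap ↥(Algebra.adjoin ↥d.A {Ch.x}) ↥(K⟮Ch.x⟯) a : ↥(K⟮Ch.x⟯)) : F) = (a : F) :=
  Ch.coe_toKx a

theorem isScalarTower_Kx : IsScalarTower ↥(Algebra.adjoin ↥d.A {Ch.x}) ↥(K⟮Ch.x⟯) F :=
  IsScalarTower.of_algebraMap_eq (fun a => (Ch.algebraMap_Kx_apply a).symm)

theorem faithfulSMul_Kx : FaithfulSMul ↥(Algebra.adjoin ↥d.A {Ch.x}) ↥(K⟮Ch.x⟯) := by
  rw [faithfulSMul_iff_algebraMap_injective]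
  intro a a' h
  apply Subtype.ext
  rw [← Ch.algebraMap_Kx_apply a, ← Ch.algebraMap_Kx_apply a', h]

theorem isFractionRing_Kx : IsFractionRing ↥(Algebra.adjoin ↥d.A {Ch.x}) ↥(K⟮Ch.x⟯) := by
  haveI := Ch.faithfulSMul_Kx
  apply IsFractionRing.of_field
  intro z
  obtain ⟨a, s, h⟩ := Ch.exists_div_of_mem_Kx z.2
  refine ⟨a, s, Subtype.ext ?_⟩
  rw [h]
  push_cast
  rw [Ch.algebraMap_Kx_apply, Ch.algebraMap_Kx_apply]

/-! ### The consequences of the semilocal algebra core -/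

section Main

variable {n : ℕ} {b : Fin n → ↥d.Ov} [FiniteDimensional ↥(K⟮Ch.x⟯) F]

/-- every element of `𝒪` is an `A[x]_(ϖ)`-combination of the `b i` -/
theorem exists_mul_eq_sum (hb : Ch.core.Indep b) (hn : Module.finrank ↥(K⟮Ch.x⟯) F ≤ n)
    (y : ↥d.Ov) :
    ∃ (s : ↥(Algebra.adjoin ↥d.A {Ch.x})) (a : Fin n → ↥(Algebra.adjoin ↥d.A {Ch.x})),
      ¬ Ch.unifA ∣ s ∧ (s : F) * (y : F) = ∑ i, (a i : F) * (b i : F) := by
  haveI := Ch.ufm_adjoin
  haveI := Ch.isScalarTower_Kx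
  haveI := Ch.isFractionRing_Kx
  exact T2sCore.exists_mul_eq_sum (K := ↥(K⟮Ch.x⟯)) (D := Ch.core) hb hn y

/-- the `b i` are linearly independent over `K(x)` -/
theorem linearIndependent_coe (hb : Ch.core.Indep b) :
    LinearIndependent ↥(K⟮Ch.x⟯) (fun i => ((b i : ↥d.Ov) : F)) := by
  haveI := Ch.ufm_adjoin
  haveI := Ch.isScalarTower_Kx
  haveI := Ch.isFractionRing_Kx
  exact T2sCore.linearIndependent_of_indep (K := ↥(K⟮Ch.x⟯)) (D := Ch.core) hb

theorem le_finrank (hb : Ch.core.Indep b) : n ≤ Module.finrank ↥(K⟮Ch.x⟯) F := by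
  have h := (Ch.linearIndependent_coe hb).fintype_card_le_finrank
  rwa [Fintype.card_fin] at h

/-- **(Int)**: an element of `𝒪` which is integral over `K[x]` is integral over `A[x]`. -/
theorem isIntegral_of_isIntegral_field (hb : Ch.core.Indep b)
    (hn : Module.finrank ↥(K⟮Ch.x⟯) F ≤ n) {f : F} (hf : f ∈ d.Ov)
    (hint : IsIntegral ↥(Algebra.adjoin K {Ch.x}) f) :
    IsIntegral ↥(Algebra.adjoin ↥d.A {Ch.x}) f := by
  haveI := Ch.ufm_adjoin
  haveI := Ch.isScalarTower_Kx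
  haveI := Ch.isFractionRing_Kx
  obtain ⟨m, hm⟩ := Ch.isIntegral_pow_mul f hint
  exact T2sCore.isIntegral_of_isIntegral_pow_mul (K := ↥(K⟮Ch.x⟯)) (D := Ch.core) hb hn
    ⟨f, hf⟩ m hm

end Main

/-! ### Residues of integral elements -/

/-- `A[x] → k[res x]` -/
theorem res_toOv_mem_adjoin (a : ↥(Algebra.adjoin ↥d.A {Ch.x})) :
    d.res (Ch.toOv a) ∈ Algebra.adjoin k {Ch.xb} := by
  obtain ⟨P, rfl⟩ := Ch.exists_aeval_eq a
  rw [Ch.res_toOv_aeval, Algebra.adjoin_singleton_eq_range_aeval]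
  exact AlgHom.mem_range_self _ _

/-- the residue of an element integral over `A[x]` is integral over `k[res x]` -/
theorem isIntegral_res (f : ↥d.Ov) (hf : IsIntegral ↥(Algebra.adjoin ↥d.A {Ch.x}) (f : F)) :
    IsIntegral ↥(Algebra.adjoin k {Ch.xb}) (d.res f) := by
  obtain ⟨Q, hQ, hQf⟩ := hf
  have h1 : Polynomial.eval₂ Ch.toOv f Q = 0 := by
    apply Subtype.ext
    have h2 := Polynomial.hom_eval₂ Q Ch.toOv d.Ov.subtype f
    rw [ZeroMemClass.coe_zero]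
    rw [← hQf]
    exact h2
  have h3 := Polynomial.hom_eval₂ Q Ch.toOv d.res f
  rw [h1, map_zero] at h3
  set φ : ↥(Algebra.adjoin ↥d.A {Ch.x}) →+* ↥(Algebra.adjoin k {Ch.xb}) :=
    (d.res.comp Ch.toOv).codRestrict (Algebra.adjoin k {Ch.xb}) (fun a => Ch.res_toOv_mem_adjoin a)
    with hφ
  have hφc : (algebraMap ↥(Algebra.adjoin k {Ch.xb}) Fb).comp φ = d.res.comp Ch.toOv := by
    ext a
    exact RingHom.codRestrict_apply (d.res.comp Ch.toOv) (Algebra.adjoin k {Ch.xb})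
      (fun a => Ch.res_toOv_mem_adjoin a) a
  refine ⟨Q.map φ, hQ.map _, ?_⟩
  rw [Polynomial.eval₂_map, hφc]
  exact h3.symm

/-- **(Int)**, residue form -/
theorem isIntegral_res_of_isIntegral_field {n : ℕ} {b : Fin n → ↥d.Ov}
    [FiniteDimensional ↥(K⟮Ch.x⟯) F] (hb : Ch.core.Indep b)
    (hn : Module.finrank ↥(K⟮Ch.x⟯) F ≤ n) (f : ↥d.Ov)
    (hint : IsIntegral ↥(Algebra.adjoin K {Ch.x}) (f : F)) :
    IsIntegral ↥(Algebra.adjoin k {Ch.xb}) (d.res f) :=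
  Ch.isIntegral_res f (Ch.isIntegral_of_isIntegral_field hb hn f.2 hint)

end T2sChart

end Fermat.Agent.T2
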