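/-
T2-C (helper9): finiteness of the chart ring `B₁ = IntCl(K[x]) ∩ 𝒪` over `A[x]` (`T2Fin`) from
(Int), and two trivial "clearing of denominators" lemmas.

* `t2_isIntegral_inv_pow_mul` : `x y = 1`, `f` integral over `k[x]` ⟹ `yⁿ f` integral over `k[y]`
  for some `n` (any commutative `k`-algebra);
* `T2Base.mem_of_isIntegral` : `𝒪` is integrally closed in `F` if the residue ring is reduced;
* `T2sChart.fin` : `T2Fin d x e` for some `e`, given (Int) for the chart `x` and `F / K(x)` finite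
  separable.
-/
import Fermat.Agent.Lib.T2.Core.SemiInt
import Fermat.Agent.Lib.T2.Core.Flat

set_option autoImplicit false
set_option linter.unusedSectionVars false
set_option linter.unusedVariables false
set_option linter.style.haveILetI false

open Polynomial IntermediateField

noncomputable section

namespace Fermat.Agent.T2

/-- clearing denominators: if `x y = 1` and `c ∈ k[x]`, then `yⁿ c ∈ k[y]` for `n` large -/
theorem t2_exists_pow_mul_mem_adjoin {k R : Type*} [CommRing k] [CommRing R] [Algebra k R]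
    {x y : R} (hxy : x * y = 1) {c : R} (hc : c ∈ Algebra.adjoin k {x}) :
    ∃ n : ℕ, ∀ m : ℕ, n ≤ m → y ^ m * c ∈ Algebra.adjoin k {y} := by
  have hy : y ∈ Algebra.adjoin k {y} := Algebra.self_mem_adjoin_singleton k y
  induction hc using Algebra.adjoin_induction with
  | mem z hz =>
    rw [Set.mem_singleton_iff] at hz
    refine ⟨1, fun m hm => ?_⟩
    obtain ⟨m', rfl⟩ := Nat.exists_eq_add_of_le hm
    rw [hz, add_comm, pow_succ, mul_assoc, mul_comm y x, hxy, mul_one]
    exact pow_mem hy _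
  | algebraMap r =>
    exact ⟨0, fun m _ => mul_mem (pow_mem hy _) (Subalgebra.algebraMap_mem _ r)⟩
  | add a b _ _ ha hb =>
    obtain ⟨n₁, h₁⟩ := ha
    obtain ⟨n₂, h₂⟩ := hb
    refine ⟨max n₁ n₂, fun m hm => ?_⟩
    rw [mul_add]
    exact add_mem (h₁ m ((le_max_left _ _).trans hm)) (h₂ m ((le_max_right _ _).trans hm))
  | mul a b _ _ ha hb =>
    obtain ⟨n₁, h₁⟩ := ha
    obtain ⟨n₂, h₂⟩ := hb
    refine ⟨n₁ + n₂, fun m hm => ?_⟩
    obtain ⟨m', rfl⟩ := Nat.exists_eq_add_of_le hm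
    have h3 : y ^ (n₁ + n₂ + m') * (a * b) = (y ^ n₁ * a) * (y ^ (n₂ + m') * b) := by
      rw [add_assoc, pow_add]; ring
    rw [h3]
    exact mul_mem (h₁ n₁ le_rfl) (h₂ (n₂ + m') (Nat.le_add_right _ _))

/-- clearing denominators: if `x y = 1` and `f` is integral over `k[x]`, then `yⁿ f` is integral
over `k[y]` for some `n` -/
theorem t2_isIntegral_inv_pow_mul {k R : Type*} [CommRing k] [CommRing R] [Algebra k R]
    {x y : R} (hxy : x * y = 1) {f : R} (hf : IsIntegral ↥(Algebra.adjoin k {x}) f) :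
    ∃ n : ℕ, IsIntegral ↥(Algebra.adjoin k {y}) (y ^ n * f) := by
  classical
  rcases subsingleton_or_nontrivial R with hR | hR
  · exact ⟨0, Polynomial.X, Polynomial.monic_X, Subsingleton.elim _ _⟩
  obtain ⟨P, hP, hPf⟩ := hf
  -- a common exponent for the coefficients
  obtain ⟨n, hn⟩ : ∃ n : ℕ, ∀ i, ∀ m, n ≤ m →
      y ^ m * ((P.coeff i : ↥(Algebra.adjoin k {x})) : R) ∈ Algebra.adjoin k {y} := by
    choose g hg using fun i =>
      t2_exists_pow_mul_mem_adjoin hxy (c := ((P.coeff i : ↥(Algebra.adjoin k {x})) : R))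
        (P.coeff i).2
    refine ⟨P.support.sup g, fun i m hm => ?_⟩
    by_cases hi : i ∈ P.support
    · exact hg i m ((Finset.le_sup hi).trans hm)
    · rw [Polynomial.notMem_support_iff.mp hi]
      simp
  refine ⟨n, ?_⟩
  -- the polynomial `P` with coefficients in `R`, roots scaled by `yⁿ`
  set PR : R[X] := P.map (algebraMap ↥(Algebra.adjoin k {x}) R) with hPR
  have hPRm : PR.Monic := hP.map _
  have hPRd : PR.natDegree = P.natDegree := hP.natDegree_map _
  have hlift : PR.scaleRoots (y ^ n) ∈ Polynomial.lifts (algebraMap ↥(Algebra.adjoin k {y}) R) := by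
    rw [Polynomial.lifts_iff_coeff_lifts]
    intro i
    rw [Polynomial.coeff_scaleRoots, hPR, Polynomial.coeff_map, hPRd]
    rcases lt_trichotomy i P.natDegree with hi | hi | hi
    · obtain ⟨c, hc⟩ := Nat.exists_eq_add_of_lt hi
      have hc' : P.natDegree - i = c + 1 := by omega
      have h1 : algebraMap ↥(Algebra.adjoin k {x}) R (P.coeff i) * (y ^ n) ^ (P.natDegree - i) ∈
          Algebra.adjoin k {y} := by
        rw [hc', ← pow_mul, mul_comm]
        exact hn i _ (by nlinarith)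
      exact ⟨⟨_, h1⟩, rfl⟩
    · rw [hi, Nat.sub_self, pow_zero, mul_one, Polynomial.coeff_natDegree, hP.leadingCoeff,
        map_one]
      exact ⟨1, map_one _⟩
    · rw [Polynomial.coeff_eq_zero_of_natDegree_lt hi, map_zero, zero_mul]
      exact ⟨0, map_zero _⟩
  obtain ⟨Q, hQmap, -, hQmonic⟩ :=
    Polynomial.lifts_and_natDegree_eq_and_monic hlift
      ((Polynomial.monic_scaleRoots_iff (y ^ n)).mpr hPRm)
  refine ⟨Q, hQmonic, ?_⟩
  rw [← Polynomial.eval_map, hQmap]
  have h3 := Polynomial.scaleRoots_eval₂_mul (p := PR) (RingHom.id R) f (y ^ n)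
  simp only [RingHom.id_apply, Polynomial.eval₂_id] at h3
  rw [h3, hPR, Polynomial.eval_map, hPf, mul_zero]

variable {K F k Fb : Type*} [Field K] [Field F] [Algebra K F] [Field k] [CommRing Fb] [Algebra k Fb]

/-- in a field: `f` integral over `K[x]` ⟹ `x⁻ⁿ f` integral over `K[x⁻¹]` -/
theorem t2_exists_inv_pow_mul_mem_t2Int {x : F} (hx0 : x ≠ 0) {f : F}
    (hf : f ∈ t2Int (K := K) x) : ∃ n : ℕ, x⁻¹ ^ n * f ∈ t2Int (K := K) x⁻¹ :=
  t2_isIntegral_inv_pow_mul (mul_inv_cancel₀ hx0) hf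

/-- in a field: `f` integral over `K[x⁻¹]` ⟹ `xⁿ f` integral over `K[x]` -/
theorem t2_exists_pow_mul_mem_t2Int {x : F} (hx0 : x ≠ 0) {f : F}
    (hf : f ∈ t2Int (K := K) x⁻¹) : ∃ n : ℕ, x ^ n * f ∈ t2Int (K := K) x :=
  t2_isIntegral_inv_pow_mul (inv_mul_cancel₀ hx0) hf

namespace T2Base

variable (d : T2Base K F k Fb)

/-- `𝒪` is integrally closed in `F` as soon as the residue ring is reduced -/
theorem mem_of_isIntegral [IsReduced Fb] {f : F} (hf : IsIntegral ↥d.Ov f) : f ∈ d.Ov := by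
  rcases eq_or_ne f 0 with rfl | hf0
  · exact d.Ov.zero_mem
  obtain ⟨c, hc0, hcf, hres⟩ := d.normalize f hf0
  by_cases hcA : c⁻¹ ∈ d.A
  · have h1 := d.smul_mem ⟨c⁻¹, hcA⟩ hcf
    rwa [smul_smul, inv_mul_cancel₀ hc0, one_smul] at h1
  exfalso
  have hcA' : c ∈ d.A := (d.A.mem_or_inv_mem c).resolve_right hcA
  -- `c` is a non-unit of `A`
  have hcm : (⟨c, hcA'⟩ : ↥d.A) ∈ IsLocalRing.maximalIdeal ↥d.A := by
    rw [IsLocalRing.mem_maximalIdeal, mem_nonunits_iff]
    intro hu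
    apply hcA
    obtain ⟨b, hb⟩ := isUnit_iff_exists_inv.mp hu
    have h1 : c * (b : K) = 1 := by
      have := congrArg Subtype.val hb
      simpa using this
    have h2 : (b : K) = c⁻¹ := by
      have := congrArg (fun t => c⁻¹ * t) h1
      simpa [← mul_assoc, inv_mul_cancel₀ hc0] using this
    rw [← h2]
    exact b.2
  have hcres : d.resA ⟨c, hcA'⟩ = 0 := (d.resA_eq_zero_iff _).mpr hcm
  -- scale the integral equation
  obtain ⟨P, hP, hPf⟩ := hf
  set g : ↥d.Ov := ⟨c • f, hcf⟩ with hg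
  set cO : ↥d.Ov := d.toOv ⟨c, hcA'⟩ with hcO
  have hcOres : d.res cO = 0 := by rw [hcO, d.res_toOv, hcres, map_zero]
  have h1 : Polynomial.eval₂ (RingHom.id ↥d.Ov) g (P.scaleRoots cO) = 0 := by
    apply Subtype.ext
    have h2 := Polynomial.scaleRoots_eval₂_mul (p := P) (algebraMap ↥d.Ov F) f cO
    have h3 : Polynomial.eval₂ (algebraMap ↥d.Ov F) ((algebraMap ↥d.Ov F) cO * f)
        (P.scaleRoots cO) = 0 := by rw [h2, hPf, mul_zero]
    have h4 := Polynomial.hom_eval₂ (P.scaleRoots cO) (RingHom.id ↥d.Ov) (algebraMap ↥d.Ov F) g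
    rw [RingHom.comp_id] at h4
    have h5 : (algebraMap ↥d.Ov F) g = (algebraMap ↥d.Ov F) cO * f := by
      show c • f = algebraMap K F c * f
      rw [Algebra.smul_def]
    rw [h5, h3] at h4
    exact h4
  -- reduce: `res g ^ deg = 0`
  have h6 := congrArg d.res h1
  rw [map_zero, Polynomial.hom_eval₂, RingHom.comp_id] at h6
  have h7 : (P.scaleRoots cO).map d.res = Polynomial.X ^ P.natDegree := by
    ext i
    rw [Polynomial.coeff_map, Polynomial.coeff_scaleRoots, Polynomial.coeff_X_pow]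
    split_ifs with hi
    · rw [hi, Nat.sub_self, pow_zero, mul_one, Polynomial.coeff_natDegree, hP.leadingCoeff,
        map_one]
    · rcases lt_or_gt_of_ne hi with hlt | hgt
      · have : P.natDegree - i ≠ 0 := by omega
        rw [map_mul, map_pow, hcOres, zero_pow this, mul_zero]
      · rw [Polynomial.coeff_eq_zero_of_natDegree_lt hgt, zero_mul, map_zero]
  rw [← Polynomial.eval_map, h7, Polynomial.eval_pow, Polynomial.eval_X] at h6
  exact hres (IsReduced.eq_zero _ ⟨_, h6⟩)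

end T2Base

namespace T2sChart

variable {d : T2Base K F k Fb} [IsDiscreteValuationRing ↥d.A] (Ch : T2sChart d)

theorem isNoetherianRing_adjoin : IsNoetherianRing ↥(Algebra.adjoin ↥d.A {Ch.x}) :=
  isNoetherianRing_of_ringEquiv (↥d.A)[X]
    (Polynomial.algEquivOfTranscendental ↥d.A Ch.x Ch.transcendental_A).toRingEquiv

theorem evalA_eq (P : (↥d.A)[X]) : d.evalA Ch.x P = ((aeval Ch.xA P : ↥(Algebra.adjoin ↥d.A {Ch.x})) : F) := by
  rw [Polynomial.aeval_subalgebra_coe]
  rfl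

attribute [local instance] T2sChart.algKx

/-- **finiteness of the chart ring** from (Int) -/
theorem fin [IsReduced Fb] {n : ℕ} {b : Fin n → ↥d.Ov} [FiniteDimensional ↥(K⟮Ch.x⟯) F]
    [Algebra.IsSeparable ↥(K⟮Ch.x⟯) F] (hb : Ch.core.Indep b)
    (hn : Module.finrank ↥(K⟮Ch.x⟯) F ≤ n) (hx0 : Ch.x ≠ 0) : ∃ e : ℕ, T2Fin d Ch.x e := by
  classical
  haveI := Ch.ufm_adjoin
  haveI := Ch.isScalarTower_Kx
  haveI := Ch.isFractionRing_Kx
  haveI := Ch.isNoetherianRing_adjoin
  have hfin : Module.Finite ↥(Algebra.adjoin ↥d.A {Ch.x})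
      ↥(integralClosure ↥(Algebra.adjoin ↥d.A {Ch.x}) F) :=
    IsIntegralClosure.finite ↥(Algebra.adjoin ↥d.A {Ch.x}) ↥(K⟮Ch.x⟯) F
      ↥(integralClosure ↥(Algebra.adjoin ↥d.A {Ch.x}) F)
  obtain ⟨S₀, hS₀⟩ := hfin.fg_top
  -- the generators, as elements of `F`
  set S : Finset F := S₀.image
    (fun s : ↥(integralClosure ↥(Algebra.adjoin ↥d.A {Ch.x}) F) => (s : F)) with hS
  have hSint : ∀ s ∈ S, IsIntegral ↥(Algebra.adjoin ↥d.A {Ch.x}) s := by
    intro s hs
    obtain ⟨s', -, rfl⟩ := Finset.mem_image.mp hs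
    exact s'.2
  have hSball : ∀ s ∈ S, s ∈ d.ball (t2Int Ch.x) := by
    intro s hs
    have h1 := hSint s hs
    refine ⟨?_, ?_⟩
    · -- integral over `K[x]`
      obtain ⟨p, hp, hps⟩ := h1
      refine ⟨p.map Ch.toAdjoinField, hp.map _, ?_⟩
      rw [Polynomial.eval₂_map]
      exact hps
    · -- in `𝒪`
      apply d.mem_of_isIntegral
      obtain ⟨p, hp, hps⟩ := h1
      refine ⟨p.map Ch.toOv, hp.map _, ?_⟩
      rw [Polynomial.eval₂_map]
      exact hps
  -- the pole bound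
  choose! g hg using fun s (hs : s ∈ S) =>
    t2_exists_inv_pow_mul_mem_t2Int (K := K) hx0 (hSball s hs).1
  refine ⟨S.sup g, S, fun s hs => ⟨hSball s hs, ?_⟩, ?_⟩
  · obtain ⟨c, hc⟩ := Nat.exists_eq_add_of_le (Finset.le_sup (f := g) hs)
    rw [hc, pow_add, mul_comm (_ ^ g s), mul_assoc]
    exact t2Int_mul (t2Int_pow_self _ _) (hg s hs)
  · intro f hf
    have hfint := Ch.isIntegral_of_isIntegral_field hb hn hf.2 hf.1
    have hmem : (⟨f, hfint⟩ : ↥(integralClosure ↥(Algebra.adjoin ↥d.A {Ch.x}) F)) ∈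
        Submodule.span ↥(Algebra.adjoin ↥d.A {Ch.x}) (S₀ : Set _) := by
      rw [hS₀]; trivial
    obtain ⟨c, hc⟩ := (Submodule.mem_span_finset (R := ↥(Algebra.adjoin ↥d.A {Ch.x}))).mp hmem
    obtain ⟨-, hc⟩ := hc
    -- choose polynomials
    choose P hP using fun a => Ch.exists_aeval_eq a
    have hinj : Set.InjOn (fun s : ↥(integralClosure ↥(Algebra.adjoin ↥d.A {Ch.x}) F) => (s : F))
        (S₀ : Set _) := fun _ _ _ _ h => Subtype.ext h
    refine ⟨fun t => if ht : ∃ s' ∈ S₀, ((s' : ↥(integralClosure ↥(Algebra.adjoin ↥d.A {Ch.x}) F)) : F)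
      = t then P (c ht.choose) else 0, ?_⟩
    have h1 := congrArg (fun z : ↥(integralClosure ↥(Algebra.adjoin ↥d.A {Ch.x}) F) => (z : F)) hc
    simp only at h1
    rw [← h1, hS, Finset.sum_image hinj]
    rw [AddSubmonoidClass.coe_finsetSum]
    refine Finset.sum_congr rfl fun s hs => ?_
    have hsS : ∃ s' ∈ S₀, ((s' : ↥(integralClosure ↥(Algebra.adjoin ↥d.A {Ch.x}) F)) : F) = (s : F) :=
      ⟨s, hs, rfl⟩
    have h2 : hsS.choose = s := Subtype.ext hsS.choose_spec.2
    show ((c s • s : ↥(integralClosure ↥(Algebra.adjoin ↥d.A {Ch.x}) F)) : F) =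
      d.evalA Ch.x (if ht : ∃ s' ∈ S₀,
        ((s' : ↥(integralClosure ↥(Algebra.adjoin ↥d.A {Ch.x}) F)) : F) = (s : F)
        then P (c ht.choose) else 0) * (s : F)
    rw [dif_pos hsS, h2, Ch.evalA_eq, hP]
    rfl

end T2sChart

end Fermat.Agent.T2
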